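import Mathlib
import Fermat.Prelude.Def_AlgebraicCurve_IsCurveOver
import Fermat.Prelude.Def_AlgebraicCurve_Repartitions
import Fermat.Agent.Curve.PlaceBasics

/-!
# Curves for the Mordell–Weil machine

A function field `F` over an algebraically closed `k` with the Riemann–Roch formula in large
degree (`HasLargeRR`).  This file provides the multiplicative leading-coefficient evaluation
`lc v n : F → k`, the evaluation functionals `evL D v` on `L(D)` and their kernels, the bound on
the number of zeros, the Riemann inequality and base point freeness.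
-/

set_option autoImplicit false

noncomputable section

open AlgebraicCurve FermatLib.Curve

namespace FermatLib.AV.MW

variable (k F : Type*) [Field k] [Field F] [Algebra k F]

/-- `ℓ(D) = deg D + 1 - g` as soon as `deg D ≥ 2g - 1`. -/
class HasLargeRR : Prop where
  nonempty_place : Nonempty (Place k F)
  exists_genus : ∃ g : ℕ, ∀ D : Divisor k F, 2 * (g : ℤ) - 1 ≤ Divisor.degree D →
    (Module.finrank k (riemannRochSpace D) : ℤ) = Divisor.degree D + 1 - g

/-- The genus appearing in `HasLargeRR`. -/
def rrGenus [h : HasLargeRR k F] : ℕ := h.exists_genus.choose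

variable {k F}

theorem finrank_rr [h : HasLargeRR k F] {D : Divisor k F}
    (hD : 2 * (rrGenus k F : ℤ) - 1 ≤ Divisor.degree D) :
    (Module.finrank k (riemannRochSpace D) : ℤ) = Divisor.degree D + 1 - rrGenus k F :=
  h.exists_genus.choose_spec D hD

/-! ### Membership in `L(D)` -/

theorem mem_rr_iff {D : Divisor k F} {f : F} :
    f ∈ riemannRochSpace D ↔ f = 0 ∨ ∀ v : Place k F, -D v ≤ v.ord f := by
  rw [mem_riemannRochSpace_iff]
  rcases eq_or_ne f 0 with h | h <;> simp [h]

theorem mul_mem_rr {D E : Divisor k F} {f g : F} (hf : f ∈ riemannRochSpace D)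
    (hg : g ∈ riemannRochSpace E) : f * g ∈ riemannRochSpace (D + E) := by
  rw [FermatLib.Curve.mem_riemannRochSpace] at hf hg ⊢
  intro v
  have h := mul_mem_ordGE (hf v) (hg v)
  rwa [Finsupp.add_apply, neg_add]

theorem rr_mono {D E : Divisor k F} (h : ∀ v, D v ≤ E v) :
    riemannRochSpace D ≤ riemannRochSpace E := by
  intro f hf
  rw [FermatLib.Curve.mem_riemannRochSpace] at hf ⊢
  exact fun v => ordGE_anti (by linarith [h v]) (hf v)

theorem one_mem_rr {D : Divisor k F} (h : ∀ v, 0 ≤ D v) : (1 : F) ∈ riemannRochSpace D :=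
  mem_rr_iff.mpr <| Or.inr fun v => by simp [h v]

theorem degree_mono (hdeg : ∀ v : Place k F, v.deg = 1) {D E : Divisor k F}
    (h : ∀ v, D v ≤ E v) : Divisor.degree D ≤ Divisor.degree E := by
  have hE : E = D + (E - D) := by abel
  rw [hE, map_add, le_add_iff_nonneg_right]
  unfold Divisor.degree
  simp only [Finsupp.liftAddHom_apply]
  refine Finsupp.sum_nonneg' fun v => ?_
  simp only [AddMonoidHom.coe_mulRight, hdeg v, Nat.cast_one, mul_one, Finsupp.sub_apply,
    sub_nonneg]
  exact h v

/-- A nonzero element of `L(D)` forces `deg D ≥ 0`; its divisor shifted by `D` is effective. -/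
theorem exists_effective [IsAlgClosed k] [IsCurveOver k F] {D : Divisor k F} {f : F}
    (hf : f ∈ riemannRochSpace D) (hf0 : f ≠ 0) :
    ∃ Z : Divisor k F, (∀ v, Z v = v.ord f + D v) ∧ (∀ v, 0 ≤ Z v) ∧
      Divisor.degree Z = Divisor.degree D := by
  obtain ⟨P, hP, hP0⟩ := HasPrincipalDivisors.exists_divisor (K := k) f hf0
  refine ⟨P + D, fun v => by rw [Finsupp.add_apply, hP v], fun v => ?_, ?_⟩
  · rw [Finsupp.add_apply, hP v]
    linarith [(mem_rr_iff.mp hf).resolve_left hf0 v]
  · rw [map_add, hP0, zero_add]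

theorem degree_nonneg [IsAlgClosed k] [IsCurveOver k F] {D : Divisor k F} (h : ∀ v, 0 ≤ D v) :
    0 ≤ Divisor.degree D := by
  have := degree_mono (IsCurveOver.forall_deg_eq_one_of_isAlgClosed (K := k) (F := F))
    (D := 0) (E := D) (fun v => by simpa using h v)
  simpa using this

theorem rr_eq_bot_of_neg [IsAlgClosed k] [IsCurveOver k F] {D : Divisor k F}
    (h : Divisor.degree D < 0) : riemannRochSpace D = ⊥ := by
  rw [eq_bot_iff]
  intro f hf
  rw [Submodule.mem_bot]
  by_contra hf0
  obtain ⟨Z, _, hZ, hdeg⟩ := exists_effective hf hf0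
  have := degree_nonneg hZ
  omega

/-! ### Leading coefficients -/

section Eval

variable [IsAlgClosed k] [IsCurveOver k F]

theorem residue_bijective (v : Place k F) :
    Function.Bijective (algebraMap k v.ResidueField) := by
  haveI := IsCurveOver.finiteResidue (K := k) (F := F) v
  haveI : Algebra.IsIntegral k v.ResidueField := Algebra.IsIntegral.of_finite k v.ResidueField
  exact IsAlgClosed.algebraMap_bijective_of_isIntegral

/-- The residue field of a place is the constant field. -/
def resEquiv (v : Place k F) : v.ResidueField ≃ₐ[k] k :=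
  (AlgEquiv.ofBijective (Algebra.ofId k v.ResidueField) (residue_bijective v)).symm

/-- Leading coefficient (in degree `n`) on functions of order at least `n`, valued in `k`. -/
def leadK (v : Place k F) (n : ℤ) : ↥(ordGE v n) →ₗ[k] k :=
  (resEquiv v).toLinearMap ∘ₗ leadCoeff v n

open scoped Classical in
/-- Coefficient of `unif v ^ n`; zero off `ordGE v n`. -/
def lc (v : Place k F) (n : ℤ) (f : F) : k :=
  if h : f ∈ ordGE v n then leadK v n ⟨f, h⟩ else 0

theorem lc_of_mem {v : Place k F} {n : ℤ} {f : F} (h : f ∈ ordGE v n) :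
    lc v n f = leadK v n ⟨f, h⟩ := by rw [lc, dif_pos h]

theorem lc_eq_zero_iff {v : Place k F} {n : ℤ} {f : F} (h : f ∈ ordGE v n) :
    lc v n f = 0 ↔ f ∈ ordGE v (n + 1) := by
  rw [lc_of_mem h, leadK, LinearMap.comp_apply, AlgEquiv.toLinearMap_apply,
    map_eq_zero_iff _ (resEquiv v).injective, leadCoeff_eq_zero_iff]

theorem residueAt_mul (v : Place k F) (a b : ↥(ordGE v 0)) (hab : (a : F) * b ∈ ordGE v 0) :
    residueAt v ⟨(a : F) * b, hab⟩ = residueAt v a * residueAt v b := by
  show IsLocalRing.residue _ _ = IsLocalRing.residue _ _ * IsLocalRing.residue _ _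
  rw [← map_mul]
  rfl

theorem lc_mul {v : Place k F} {m n : ℤ} {f g : F} (hf : f ∈ ordGE v m) (hg : g ∈ ordGE v n) :
    lc v (m + n) (f * g) = lc v m f * lc v n g := by
  rw [lc_of_mem hf, lc_of_mem hg, lc_of_mem (mul_mem_ordGE hf hg)]
  simp only [leadK, LinearMap.comp_apply, AlgEquiv.toLinearMap_apply]
  rw [← map_mul]
  congr 1
  have hf' : unif v ^ (-m) * f ∈ ordGE v 0 := by
    have h := mul_mem_ordGE (mem_ordGE_of_le (v := v) (ord_unif_zpow v (-m)).ge) hf
    rwa [neg_add_cancel] at h
  have hg' : unif v ^ (-n) * g ∈ ordGE v 0 := by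
    have h := mul_mem_ordGE (mem_ordGE_of_le (v := v) (ord_unif_zpow v (-n)).ge) hg
    rwa [neg_add_cancel] at h
  have hfg : (unif v ^ (-m) * f) * (unif v ^ (-n) * g) ∈ ordGE v 0 := by
    simpa using mul_mem_ordGE hf' hg'
  calc leadCoeff v (m + n) ⟨f * g, _⟩
      = residueAt v ⟨(unif v ^ (-m) * f) * (unif v ^ (-n) * g), hfg⟩ := by
        rw [leadCoeff, LinearMap.comp_apply]
        congr 1
        refine Subtype.ext ?_
        show unif v ^ (-(m + n)) * (f * g) = _
        rw [neg_add, zpow_add₀ (unif_ne_zero v)]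
        ring
    _ = residueAt v ⟨_, hf'⟩ * residueAt v ⟨_, hg'⟩ := residueAt_mul v ⟨_, hf'⟩ ⟨_, hg'⟩ hfg
    _ = _ := rfl

theorem lc_add {v : Place k F} {n : ℤ} {f g : F} (hf : f ∈ ordGE v n) (hg : g ∈ ordGE v n) :
    lc v n (f + g) = lc v n f + lc v n g := by
  rw [lc_of_mem hf, lc_of_mem hg, lc_of_mem (add_mem hf hg), ← map_add]
  rfl

theorem lc_algebraMap (v : Place k F) (c : k) : lc v 0 (algebraMap k F c) = c := by
  have h : algebraMap k F c ∈ ordGE v 0 := mem_ordGE_of_le (by simp)
  rw [lc_of_mem h, leadK, LinearMap.comp_apply, AlgEquiv.toLinearMap_apply]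
  have : leadCoeff v 0 ⟨algebraMap k F c, h⟩ = algebraMap k v.ResidueField c := by
    rw [leadCoeff, LinearMap.comp_apply]
    show IsLocalRing.residue _ _ = _
    rw [IsScalarTower.algebraMap_apply k v.toValuationSubring v.ResidueField,
      IsLocalRing.ResidueField.algebraMap_eq]
    congr 1
    ext
    simp
  rw [this, AlgEquiv.commutes]
  rfl

theorem lc_one (v : Place k F) : lc v 0 (1 : F) = 1 := by
  simpa using lc_algebraMap v (1 : k)

theorem lc_prod {ι : Type*} (v : Place k F) (s : Finset ι) (n : ι → ℤ) (f : ι → F)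
    (hf : ∀ i ∈ s, f i ∈ ordGE v (n i)) :
    lc v (∑ i ∈ s, n i) (∏ i ∈ s, f i) = ∏ i ∈ s, lc v (n i) (f i) := by
  classical
  suffices h : ∏ i ∈ s, f i ∈ ordGE v (∑ i ∈ s, n i) ∧
      lc v (∑ i ∈ s, n i) (∏ i ∈ s, f i) = ∏ i ∈ s, lc v (n i) (f i) from h.2
  induction s using Finset.induction_on with
  | empty => simp [one_mem_ordGE, lc_one]
  | @insert a s has ih =>
    obtain ⟨hm, he⟩ := ih fun i hi => hf i (Finset.mem_insert_of_mem hi)
    have ha := hf a (Finset.mem_insert_self a s)
    rw [Finset.sum_insert has, Finset.prod_insert has, Finset.prod_insert has, lc_mul ha hm, he]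
    exact ⟨mul_mem_ordGE ha hm, rfl⟩

/-- Evaluation of a section of `O(D)` at `v`. -/
def evL (D : Divisor k F) (v : Place k F) : ↥(riemannRochSpace D) →ₗ[k] k :=
  leadK v (-D v) ∘ₗ Submodule.inclusion
    (fun _ hf => (FermatLib.Curve.mem_riemannRochSpace.mp hf) v)

theorem evL_apply (D : Divisor k F) (v : Place k F) (f : ↥(riemannRochSpace D)) :
    evL D v f = lc v (-D v) (f : F) := by
  rw [lc_of_mem ((FermatLib.Curve.mem_riemannRochSpace.mp f.2) v)]
  rfl

theorem evL_mul {D E : Divisor k F} (v : Place k F) {f g : F} (hf : f ∈ riemannRochSpace D)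
    (hg : g ∈ riemannRochSpace E) :
    evL (D + E) v ⟨f * g, mul_mem_rr hf hg⟩ = evL D v ⟨f, hf⟩ * evL E v ⟨g, hg⟩ := by
  simp only [evL_apply]
  rw [← lc_mul ((FermatLib.Curve.mem_riemannRochSpace.mp hf) v)
    ((FermatLib.Curve.mem_riemannRochSpace.mp hg) v), Finsupp.add_apply, neg_add]

theorem evL_eq_zero_iff {D : Divisor k F} {v : Place k F} (f : ↥(riemannRochSpace D)) :
    evL D v f = 0 ↔ (f : F) ∈ riemannRochSpace (D - Finsupp.single v 1) := by
  rw [evL_apply, lc_eq_zero_iff ((FermatLib.Curve.mem_riemannRochSpace.mp f.2) v),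
    FermatLib.Curve.mem_riemannRochSpace]
  constructor
  · intro h w
    rcases eq_or_ne w v with rfl | hw
    · simp only [Finsupp.sub_apply, Finsupp.single_eq_same]
      rwa [neg_sub, sub_eq_neg_add]
    · simpa [Finsupp.single_eq_of_ne hw] using
        (FermatLib.Curve.mem_riemannRochSpace.mp f.2) w
  · intro h
    have := h v
    simp only [Finsupp.sub_apply, Finsupp.single_eq_same] at this
    rwa [neg_sub, sub_eq_neg_add] at this

/-- A section vanishing at more places than its degree is zero. -/
theorem eq_zero_of_evL_eq_zero {D : Divisor k F} (f : ↥(riemannRochSpace D))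
    (S : Finset (Place k F)) (hS : Divisor.degree D < S.card)
    (h : ∀ v ∈ S, evL D v f = 0) : f = 0 := by
  classical
  set Z : Divisor k F := ∑ v ∈ S, Finsupp.single v 1
  have hZ : ∀ w, Z w = if w ∈ S then 1 else 0 := fun w => by
    simp [Z, Finsupp.finsetSum_apply, Finsupp.single_apply]
  have hmem : (f : F) ∈ riemannRochSpace (D - Z) := by
    rw [FermatLib.Curve.mem_riemannRochSpace]
    intro w
    rw [Finsupp.sub_apply, hZ]
    split_ifs with hw
    · have h' := (evL_eq_zero_iff f).mp (h w hw)
      simpa using (FermatLib.Curve.mem_riemannRochSpace.mp h') w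
    · simpa using (FermatLib.Curve.mem_riemannRochSpace.mp f.2) w
  rw [rr_eq_bot_of_neg, Submodule.mem_bot] at hmem
  · exact Subtype.ext hmem
  · simp only [Z, map_sub, map_sum, Divisor.degree_single,
      IsCurveOver.deg_eq_one_of_isAlgClosed, Nat.cast_one, Finset.sum_const, nsmul_eq_mul, mul_one]
    omega

/-! ### Dimensions -/

variable [HasLargeRR k F]

theorem finite_rr (D : Divisor k F) : Module.Finite k (riemannRochSpace D) := by
  classical
  obtain ⟨O⟩ := HasLargeRR.nonempty_place (k := k) (F := F)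
  set m : ℕ := (2 * (rrGenus k F : ℤ) + 1 - Divisor.degree D).toNat
  set E := D + Finsupp.single O (m : ℤ)
  have hle : riemannRochSpace D ≤ riemannRochSpace E := rr_mono fun v => by
    simp only [E, Finsupp.add_apply, Finsupp.single_apply]
    split_ifs <;> simp
  have hdE : 2 * (rrGenus k F : ℤ) ≤ Divisor.degree E := by
    simp only [E, map_add, Divisor.degree_single, IsCurveOver.deg_eq_one_of_isAlgClosed,
      Nat.cast_one, mul_one, m]
    omega
  have hfr := finrank_rr (D := E) (by omega)
  haveI : Module.Finite k (riemannRochSpace E) := Module.finite_of_finrank_pos (by omega)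
  exact Submodule.finiteDimensional_of_le hle

end Eval

end FermatLib.AV.MW
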