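import Mathlib
import Fermat.Agent.AV.MW.Setup

/-!
# Riemann inequality, base point freeness and multiplication of sections

The base point free pencil trick gives `L(A) * L(B) = L(A + B)` for `deg A ≥ 2g` and
`deg B ≥ deg A + 2g - 1`.
-/

set_option autoImplicit false

noncomputable section

open AlgebraicCurve FermatLib.Curve

namespace FermatLib.AV.MW

variable {k F : Type*} [Field k] [Field F] [Algebra k F] [IsAlgClosed k] [IsCurveOver k F]
  [HasLargeRR k F]

local notation "gen" => (rrGenus k F : ℤ)

theorem degree_single_one (v : Place k F) (n : ℤ) :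
    Divisor.degree (Finsupp.single v n : Divisor k F) = n := by
  simp [IsCurveOver.deg_eq_one_of_isAlgClosed v]

theorem finrank_sub_single_ge (D : Divisor k F) (v : Place k F) :
    Module.finrank k (riemannRochSpace D) ≤
      Module.finrank k (riemannRochSpace (D - Finsupp.single v 1)) + 1 := by
  haveI := finite_rr D
  have h := LinearMap.finrank_range_add_finrank_ker (evL D v)
  have h1 : Module.finrank k (LinearMap.range (evL D v)) ≤ 1 :=
    (Submodule.finrank_le _).trans (Module.finrank_self k).le
  haveI := finite_rr (D - Finsupp.single v 1)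
  have h2 : Module.finrank k (LinearMap.ker (evL D v)) ≤
      Module.finrank k (riemannRochSpace (D - Finsupp.single v 1)) := by
    refine LinearMap.finrank_le_finrank_of_injective
      (f := LinearMap.codRestrict (riemannRochSpace (D - Finsupp.single v 1))
        ((riemannRochSpace D).subtype ∘ₗ (LinearMap.ker (evL D v)).subtype)
        (fun x => (evL_eq_zero_iff x.1).mp x.2)) ?_
    intro x y hxy
    exact Subtype.ext (Subtype.ext (congrArg (fun z : riemannRochSpace _ => (z : F)) hxy))
  omega

/-- Riemann inequality. -/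
theorem riemann_ineq (D : Divisor k F) :
    Divisor.degree D + 1 - gen ≤ Module.finrank k (riemannRochSpace D) := by
  obtain ⟨O⟩ := HasLargeRR.nonempty_place (k := k) (F := F)
  suffices H : ∀ m : ℕ, ∀ D : Divisor k F, 2 * gen - 1 ≤ Divisor.degree D + m →
      Divisor.degree D + 1 - gen ≤ Module.finrank k (riemannRochSpace D) from
    H (2 * gen - 1 - Divisor.degree D).toNat D (by omega)
  intro m
  induction m with
  | zero => intro D h; rw [finrank_rr (by simpa using h)]
  | succ m ih =>
    intro D h
    have h1 := ih (D + Finsupp.single O 1)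
      (by rw [map_add, degree_single_one]; push_cast at h ⊢; linarith)
    have h2 := finrank_sub_single_ge (D + Finsupp.single O 1) O
    rw [add_sub_cancel_right] at h2
    rw [map_add, degree_single_one] at h1
    omega

/-- Effective members exist in degree at least `g`. -/
theorem exists_ne_zero_mem {D : Divisor k F} (hD : gen ≤ Divisor.degree D) :
    ∃ f ∈ riemannRochSpace D, f ≠ 0 := by
  have h := riemann_ineq D
  by_contra! hne
  have : riemannRochSpace D = ⊥ := by
    rw [eq_bot_iff]; intro f hf; exact (Submodule.mem_bot k).mpr (hne f hf)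
  rw [this, finrank_bot] at h
  omega

theorem evL_ne_zero {D : Divisor k F} (hD : 2 * gen ≤ Divisor.degree D) (v : Place k F) :
    evL D v ≠ 0 := by
  intro h0
  have hle : riemannRochSpace D ≤ riemannRochSpace (D - Finsupp.single v 1) := fun f hf =>
    (evL_eq_zero_iff ⟨f, hf⟩).mp (by rw [h0]; rfl)
  haveI := finite_rr (D - Finsupp.single v 1)
  have h1 := Submodule.finrank_mono hle
  have h2 := finrank_rr (D := D) (by omega)
  have h3 := finrank_rr (D := D - Finsupp.single v 1)
    (by rw [map_sub, degree_single_one]; omega)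
  rw [map_sub, degree_single_one] at h3
  omega

theorem exists_evL_ne_zero {D : Divisor k F} (hD : 2 * gen ≤ Divisor.degree D) (v : Place k F) :
    ∃ f, evL D v f ≠ 0 := by
  by_contra! h
  exact evL_ne_zero hD v (LinearMap.ext h)

/-- Distinct places are separated by sections in degree at least `2g + 1`. -/
theorem exists_evL_separate {D : Divisor k F} (hD : 2 * gen + 1 ≤ Divisor.degree D)
    {v w : Place k F} (h : v ≠ w) : ∃ f, evL D v f = 0 ∧ evL D w f ≠ 0 := by
  obtain ⟨f, hf⟩ := exists_evL_ne_zero (D := D - Finsupp.single v 1)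
    (by rw [map_sub, degree_single_one]; omega) w
  have hf' : (f : F) ∈ riemannRochSpace D := rr_mono (fun u => by
    rcases eq_or_ne u v with rfl | hu <;> simp [*]) f.2
  refine ⟨⟨f, hf'⟩, (evL_eq_zero_iff _).mpr f.2, ?_⟩
  rw [evL_apply] at hf ⊢
  simpa [Finsupp.single_eq_of_ne h.symm] using hf

theorem finite_zeros {D : Divisor k F} (f : ↥(riemannRochSpace D)) (hf : f ≠ 0) :
    {v | evL D v f = 0}.Finite := by
  obtain ⟨Z, hZ, hpos, -⟩ := exists_effective f.2 fun h => hf (Subtype.ext h)
  refine Z.support.finite_toSet.subset fun v hv => ?_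
  have h1 := mem_rr_iff.mp ((evL_eq_zero_iff f).mp hv)
  have h2 := h1.resolve_left (fun h => hf (Subtype.ext h)) v
  simp only [Finsupp.sub_apply, Finsupp.single_eq_same] at h2
  simp only [Finset.mem_coe, Finsupp.mem_support_iff, hZ]
  omega

/-- Over an infinite field a subspace contains a vector outside the kernels of finitely many
functionals not vanishing on it. -/
theorem exists_mem_forall_ne_zero {K E ι : Type*} [Field K] [Infinite K] [AddCommGroup E]
    [Module K E] [Finite ι] (W : Submodule K E) (φ : ι → E →ₗ[K] K)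
    (hφ : ∀ i, ∃ w ∈ W, φ i w ≠ 0) : ∃ x ∈ W, ∀ i, φ i x ≠ 0 := by
  by_contra h
  push Not at h
  obtain ⟨i, hi⟩ := Subspace.exists_eq_top_of_iUnion_eq_univ
    (p := fun i => LinearMap.ker ((φ i) ∘ₗ W.subtype)) (Set.eq_univ_of_forall fun x => by
      obtain ⟨i, hi⟩ := h x.1 x.2
      exact Set.mem_iUnion.mpr ⟨i, hi⟩)
  obtain ⟨w, hw, hne⟩ := hφ i
  exact hne (LinearMap.congr_fun (LinearMap.ker_eq_top.mp hi) ⟨w, hw⟩)

/-- A space of sections without base points contains two sections without a common zero. -/
theorem exists_pencil [Infinite k] {A : Divisor k F} {W : Submodule k ↥(riemannRochSpace A)}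
    (hW : ∀ v, ∃ f ∈ W, evL A v f ≠ 0) :
    ∃ f ∈ W, ∃ a ∈ W, f ≠ 0 ∧ ∀ v, evL A v f ≠ 0 ∨ evL A v a ≠ 0 := by
  obtain ⟨O⟩ := HasLargeRR.nonempty_place (k := k) (F := F)
  obtain ⟨f, hfW, hf⟩ := hW O
  have hf0 : f ≠ 0 := fun h => hf (by rw [h, map_zero])
  have : Finite {v | evL A v f = 0} := (finite_zeros f hf0).to_subtype
  obtain ⟨a, haW, ha⟩ := exists_mem_forall_ne_zero (E := ↥(riemannRochSpace A)) W
    (fun v : {v | evL A v f = 0} => evL A v.1) (fun v => hW v.1)
  refine ⟨f, hfW, a, haW, hf0, fun v => ?_⟩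
  rcases eq_or_ne (evL A v f) 0 with h | h
  · exact Or.inr (ha ⟨v, h⟩)
  · exact Or.inl h

/-- The base point free pencil trick. -/
theorem pencil_mul_eq {A B : Divisor k F} {f a : ↥(riemannRochSpace A)} (hf : f ≠ 0)
    (hA : 0 ≤ Divisor.degree A) (hBA : 2 * gen - 1 ≤ Divisor.degree B - Divisor.degree A)
    (hnc : ∀ v, evL A v f ≠ 0 ∨ evL A v a ≠ 0) :
    ∀ w ∈ riemannRochSpace (A + B), ∃ x ∈ riemannRochSpace B, ∃ y ∈ riemannRochSpace B,
      w = (f : F) * x + a * y := by
  haveI := finite_rr B
  haveI := finite_rr (B - A)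
  haveI := finite_rr (A + B)
  let φ : ↥(riemannRochSpace B) × ↥(riemannRochSpace B) →ₗ[k] ↥(riemannRochSpace (A + B)) :=
    LinearMap.codRestrict _ (LinearMap.coprod
        (LinearMap.mulLeft k (f : F) ∘ₗ (riemannRochSpace B).subtype)
        (LinearMap.mulLeft k (a : F) ∘ₗ (riemannRochSpace B).subtype))
      (fun z => by
        simpa using add_mem (mul_mem_rr f.2 z.1.2) (mul_mem_rr a.2 z.2.2))
  have hf0 : (f : F) ≠ 0 := fun h => hf (Subtype.ext h)
  have hker : ∀ z ∈ LinearMap.ker φ, -(z.2 : F) / f ∈ riemannRochSpace (B - A) := by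
    intro z hz
    have hz' : (f : F) * z.1 + a * z.2 = 0 := by
      simpa [φ] using congrArg (fun u : riemannRochSpace (A + B) => (u : F))
        (LinearMap.mem_ker.mp hz)
    refine mem_rr_iff.mpr ?_
    rcases eq_or_ne (z.2 : F) 0 with h2 | h2
    · left; simp [h2]
    right
    intro v
    have key : ∀ {s t : F} (hs : s ∈ riemannRochSpace A), s ≠ 0 → t ≠ 0 →
        t ∈ riemannRochSpace B → evL A v ⟨s, hs⟩ ≠ 0 → -(B - A) v ≤ v.ord (t / s) := by
      intro s t hs hs0 ht0 ht hev
      have e1 := (mem_rr_iff.mp hs).resolve_left hs0 v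
      have e2 := (mem_rr_iff.mp ht).resolve_left ht0 v
      rw [evL_apply, Ne, lc_eq_zero_iff ((FermatLib.Curve.mem_riemannRochSpace.mp hs) v),
        mem_ordGE_of_ne_zero hs0] at hev
      rw [ord_div v ht0 hs0, Finsupp.sub_apply]
      -- order exactly minimal
      omega
    have hord : v.ord (-(z.2 : F) / f) = v.ord ((z.2 : F) / f) := by rw [neg_div, ord_neg]
    rw [hord]
    by_cases hfv : evL A v f = 0
    · have hav := (hnc v).resolve_left (fun h => h hfv)
      have ha0 : (a : F) ≠ 0 := fun h => hav (by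
        rw [show a = 0 from Subtype.ext h, map_zero])
      have h1 : (z.1 : F) ≠ 0 := fun h => by
        rw [h, mul_zero, zero_add] at hz'
        exact (mul_ne_zero ha0 h2) hz'
      have heq : (z.2 : F) / f = -((z.1 : F) / a) := by
        field_simp
        linear_combination hz'
      rw [heq, ord_neg]
      exact key a.2 ha0 h1 z.1.2 hav
    · exact key f.2 hf0 h2 z.2.2 hfv
  have hkdim : Module.finrank k (LinearMap.ker φ) ≤
      Module.finrank k (riemannRochSpace (B - A)) := by
    refine LinearMap.finrank_le_finrank_of_injective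
      (f := LinearMap.codRestrict (riemannRochSpace (B - A))
        (-((LinearMap.mulRight k ((f : F))⁻¹) ∘ₗ (riemannRochSpace B).subtype ∘ₗ
          LinearMap.snd k _ _ ∘ₗ (LinearMap.ker φ).subtype))
        (fun z => by simpa [div_eq_mul_inv] using hker z.1 z.2)) ?_
    intro z z' hzz
    have h2 : ((z.1).2 : F) = (z'.1).2 := by
      simpa [hf0] using congrArg (fun u : riemannRochSpace (B - A) => (u : F)) hzz
    have ez := congrArg (fun u : riemannRochSpace (A + B) => (u : F)) (LinearMap.mem_ker.mp z.2)
    have ez' := congrArg (fun u : riemannRochSpace (A + B) => (u : F)) (LinearMap.mem_ker.mp z'.2)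
    simp only [φ, LinearMap.codRestrict_apply, LinearMap.coprod_apply, LinearMap.comp_apply,
      Submodule.coe_subtype, LinearMap.mulLeft_apply, ZeroMemClass.coe_zero, h2] at ez ez'
    have h1 : ((z.1).1 : F) = (z'.1).1 :=
      mul_left_cancel₀ hf0 (by linear_combination ez - ez')
    exact Subtype.ext (Prod.ext (Subtype.ext h1) (Subtype.ext h2))
  have hsum := LinearMap.finrank_range_add_finrank_ker φ
  rw [Module.finrank_prod] at hsum
  have hB := finrank_rr (D := B) (by omega)
  have hBA' := finrank_rr (D := B - A) (by rw [map_sub]; omega)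
  have hAB := finrank_rr (D := A + B) (by rw [map_add]; omega)
  rw [map_sub] at hBA'
  rw [map_add] at hAB
  have htop : LinearMap.range φ = ⊤ :=
    Submodule.eq_top_of_finrank_eq (le_antisymm (Submodule.finrank_le _) (by omega))
  intro w hw
  obtain ⟨⟨x, y⟩, hxy⟩ := LinearMap.range_eq_top.mp htop ⟨w, hw⟩
  exact ⟨x, x.2, y, y.2, by simpa [φ] using (congrArg Subtype.val hxy).symm⟩

theorem rr_mul_le (A B : Divisor k F) :
    riemannRochSpace A * riemannRochSpace B ≤ riemannRochSpace (A + B) :=
  Submodule.mul_le.mpr fun _ hf _ hg => mul_mem_rr hf hg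

/-- Multiplication of sections is surjective in large degree. -/
theorem rr_mul_eq [Infinite k] {A B : Divisor k F} (hA : 2 * gen ≤ Divisor.degree A)
    (hBA : 2 * gen - 1 ≤ Divisor.degree B - Divisor.degree A) :
    riemannRochSpace A * riemannRochSpace B = riemannRochSpace (A + B) := by
  refine le_antisymm (rr_mul_le A B) fun w hw => ?_
  obtain ⟨f, -, a, -, hf, hnc⟩ := exists_pencil (A := A) (W := ⊤) fun v => by
    obtain ⟨f, hf⟩ := exists_evL_ne_zero hA v
    exact ⟨f, trivial, hf⟩
  obtain ⟨x, hx, y, hy, rfl⟩ := pencil_mul_eq hf (by omega) hBA hnc w hw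
  exact add_mem (Submodule.mul_mem_mul f.2 hx) (Submodule.mul_mem_mul a.2 hy)

/-- Products of several base point free spaces with one large space fill up `L` of the sum. -/
theorem rr_prod_mul_eq [Infinite k] (l : List (Divisor k F)) {B : Divisor k F}
    (hB : 2 * gen ≤ Divisor.degree B)
    (hl : ∀ A ∈ l, 2 * gen ≤ Divisor.degree A ∧
      2 * gen - 1 ≤ Divisor.degree B - Divisor.degree A) :
    (l.map riemannRochSpace).prod * riemannRochSpace B = riemannRochSpace (l.sum + B) := by
  suffices H : (l.map riemannRochSpace).prod * riemannRochSpace B = riemannRochSpace (l.sum + B) ∧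
      Divisor.degree B ≤ Divisor.degree (l.sum + B) from H.1
  induction l with
  | nil => simp
  | cons A l ih =>
    obtain ⟨ih1, ih2⟩ := ih fun A' hA' => hl A' (List.mem_cons_of_mem _ hA')
    obtain ⟨h1, h2⟩ := hl A (List.mem_cons_self ..)
    rw [List.map_cons, List.prod_cons, List.sum_cons, mul_assoc, ih1, add_assoc]
    refine ⟨rr_mul_eq h1 (by linarith), ?_⟩
    rw [map_add Divisor.degree A]
    omega

end FermatLib.AV.MW

end
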