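import Mathlib
import Fermat.Agent.AV.MW.Mult

/-!
# Points of a projectively embedded curve and the multiprojective Nullstellensatz

A linear functional on `L(A)` compatible with multiplication is evaluation at a place; hence the
affine charts of products of the embedded curve are closed and, by Hilbert's Nullstellensatz,
multihomogeneous polynomials without common zero on tuples of places give identities
`∏ x_{i,b i}^{e i} = ∑ g_k ψ_k`.
-/

set_option autoImplicit false

noncomputable section

open AlgebraicCurve FermatLib.Curve MvPolynomial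

namespace FermatLib.AV.MW

variable {k F : Type*} [Field k] [Field F] [Algebra k F] [IsAlgClosed k] [IsCurveOver k F]

/-- `n` times the lowest order allowed in `L(A)`. -/
theorem lc_sum {ι : Type*} (v : Place k F) (n : ℤ) (s : Finset ι) (f : ι → F)
    (hf : ∀ i ∈ s, f i ∈ ordGE v n) :
    lc v n (∑ i ∈ s, f i) = ∑ i ∈ s, lc v n (f i) := by
  classical
  induction s using Finset.induction_on with
  | empty => simp [lc_of_mem (zero_mem (ordGE v n)), show (⟨0, zero_mem _⟩ : ↥(ordGE v n)) = 0 from rfl]
  | @insert a s has ih =>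
    rw [Finset.sum_insert has, Finset.sum_insert has, lc_add (hf a (Finset.mem_insert_self a s))
      (sum_mem fun i hi => hf i (Finset.mem_insert_of_mem hi)),
      ih fun i hi => hf i (Finset.mem_insert_of_mem hi)]

/-- A homogeneous relation between sections holds between their values at every place. -/
theorem eval_evL_eq_zero {A : Divisor k F} {ι : Type*} [Fintype ι] (s : ι → ↥(riemannRochSpace A))
    {n : ℕ} {p : MvPolynomial ι k} (hp : p.IsHomogeneous n)
    (h0 : MvPolynomial.aeval (fun j => (s j : F)) p = 0) (v : Place k F) :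
    MvPolynomial.eval (fun j => evL A v (s j)) p = 0 := by
  classical
  have hs : ∀ j, (s j : F) ∈ ordGE v (-A v) := fun j =>
    (FermatLib.Curve.mem_riemannRochSpace.mp (s j).2) v
  have hdeg : ∀ d ∈ p.support, ∑ j, (d j : ℤ) * (-A v) = (n : ℤ) * (-A v) := fun d hd => by
    have := hp (MvPolynomial.mem_support_iff.mp hd)
    rw [Finsupp.weight_apply, Finsupp.sum_fintype _ _ (fun _ => by simp)] at this
    rw [← Finset.sum_mul]
    congr 1
    exact_mod_cast (by simpa using this : ∑ j, d j = n)
  have hpow : ∀ (d : ι →₀ ℕ), ∀ j ∈ (Finset.univ : Finset ι),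
      (s j : F) ^ d j ∈ ordGE v ((d j : ℤ) * (-A v)) := fun d j _ => by
    induction d j with
    | zero => simp [one_mem_ordGE]
    | succ m ih => rw [pow_succ]; push_cast; rw [add_one_mul]; exact mul_mem_ordGE ih (hs j)
  have hlp : ∀ (j : ι) (m : ℕ), lc v ((m : ℤ) * (-A v)) ((s j : F) ^ m) = evL A v (s j) ^ m := by
    intro j m
    have := lc_prod v (Finset.range m) (fun _ => -A v) (fun _ => (s j : F)) (fun _ _ => hs j)
    simpa [evL_apply] using this
  have hterm : ∀ d ∈ p.support,
      algebraMap k F (p.coeff d) * ∏ j, (s j : F) ^ d j ∈ ordGE v ((n : ℤ) * (-A v)) ∧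
      lc v ((n : ℤ) * (-A v)) (algebraMap k F (p.coeff d) * ∏ j, (s j : F) ^ d j) =
        p.coeff d * ∏ j, evL A v (s j) ^ d j := by
    intro d hd
    have hprod : ∀ t : Finset ι,
        (∏ j ∈ t, (s j : F) ^ d j) ∈ ordGE v (∑ j ∈ t, (d j : ℤ) * (-A v)) := fun t => by
      induction t using Finset.induction_on with
      | empty => simp [one_mem_ordGE]
      | @insert a t hat ih =>
        rw [Finset.prod_insert hat, Finset.sum_insert hat]
        exact mul_mem_ordGE (hpow d a (Finset.mem_univ a)) ih
    have hc : algebraMap k F (p.coeff d) ∈ ordGE v 0 := mem_ordGE_of_le (by simp)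
    have hm := mul_mem_ordGE hc (hprod Finset.univ)
    rw [zero_add, hdeg d hd] at hm
    refine ⟨hm, ?_⟩
    have h1 := lc_mul hc (hprod Finset.univ)
    rw [zero_add, lc_algebraMap, lc_prod v Finset.univ (fun j => (d j : ℤ) * (-A v))
      (fun j => (s j : F) ^ d j) (hpow d), hdeg d hd] at h1
    rw [h1]
    simp only [hlp]
  rw [MvPolynomial.eval_eq']
  rw [MvPolynomial.aeval_def, MvPolynomial.eval₂_eq'] at h0
  rw [← Finset.sum_congr rfl fun d hd => (hterm d hd).2,
    ← lc_sum v _ _ _ fun d hd => (hterm d hd).1, h0,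
    lc_of_mem (zero_mem _)]
  exact map_zero (leadK v _)

variable [HasLargeRR k F]

/-- `L(A)^2 = L(2A)` in degree at least `4g + 1`. -/
theorem rr_sq_eq [Infinite k] {A : Divisor k F}
    (hA : 4 * (rrGenus k F : ℤ) + 1 ≤ Divisor.degree A) :
    riemannRochSpace A * riemannRochSpace A = riemannRochSpace (A + A) := by
  obtain ⟨O⟩ := HasLargeRR.nonempty_place (k := k) (F := F)
  set C : Divisor k F := Finsupp.single O (2 * (rrGenus k F : ℤ)) with hC
  have hCd : Divisor.degree C = 2 * (rrGenus k F : ℤ) := degree_single_one O _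
  have e1 : riemannRochSpace C * riemannRochSpace A = riemannRochSpace (C + A) :=
    rr_mul_eq hCd.ge (by omega)
  have e2 : riemannRochSpace (A - C) * riemannRochSpace (C + A) = riemannRochSpace (A + A) := by
    rw [rr_mul_eq (by rw [map_sub]; omega) (by rw [map_sub, map_add]; omega)]
    congr 1
    abel
  refine le_antisymm (rr_mul_le A A) ?_
  rw [← e2, ← e1, ← mul_assoc]
  refine mul_le_mul' ((rr_mul_le _ _).trans (le_of_eq ?_)) le_rfl
  congr 1
  abel

theorem exists_homogeneous_two {A : Divisor k F} {ι : Type*} [Fintype ι]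
    (s : Module.Basis ι k ↥(riemannRochSpace A)) {w : F}
    (hw : w ∈ riemannRochSpace A * riemannRochSpace A) :
    ∃ q : MvPolynomial ι k, q.IsHomogeneous 2 ∧ MvPolynomial.aeval (fun j => (s j : F)) q = w := by
  refine Submodule.mul_induction_on hw (fun x hx y hy => ?_) ?_
  ·
    refine ⟨(∑ j, C (s.repr ⟨x, hx⟩ j) * X j) * (∑ j, C (s.repr ⟨y, hy⟩ j) * X j), ?_, ?_⟩
    · exact ((IsHomogeneous.sum _ _ _ fun j _ => (isHomogeneous_X k j).C_mul _).mul
        (IsHomogeneous.sum _ _ _ fun j _ => (isHomogeneous_X k j).C_mul _))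
    · have key : ∀ z : ↥(riemannRochSpace A),
          MvPolynomial.aeval (fun j => (s j : F)) (∑ j, C (s.repr z j) * X j) = (z : F) := fun z => by
        simp only [map_sum, map_mul, aeval_C, aeval_X]
        conv_rhs => rw [← s.sum_repr z, Submodule.coe_sum]
        simp only [Submodule.coe_smul, Algebra.smul_def]
      rw [map_mul, key, key]
  · rintro x y ⟨q, hq, rfl⟩ ⟨q', hq', rfl⟩
    exact ⟨q + q', hq.add hq', map_add _ _ _⟩

/-- The points of the embedded curve in a chart: values satisfying all homogeneous cubic relations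
come from a place. -/
theorem exists_place_of_relations [Infinite k] {A : Divisor k F}
    (hA : 4 * (rrGenus k F : ℤ) + 1 ≤ Divisor.degree A) {ι : Type*} [Fintype ι]
    (s : Module.Basis ι k ↥(riemannRochSpace A)) (y : ι → k) (b : ι) (hy : y b = 1)
    (hrel : ∀ p : MvPolynomial ι k, p.IsHomogeneous 3 →
      MvPolynomial.aeval (fun j => (s j : F)) p = 0 → MvPolynomial.eval y p = 0) :
    ∃ v, evL A v (s b) ≠ 0 ∧ ∀ j, y j = evL A v (s j) / evL A v (s b) := by
  classical
  set lam : ↥(riemannRochSpace A) →ₗ[k] k := s.constr k y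
  have hlam : ∀ j, lam (s j) = y j := fun j => s.constr_basis k y j
  by_cases h : ∃ v, LinearMap.ker lam ≤ LinearMap.ker (evL A v)
  · obtain ⟨v, hv⟩ := h
    have hev : ∀ x, evL A v x = lam x * evL A v (s b) := fun x => by
      have hx : x - lam x • s b ∈ LinearMap.ker lam := by
        simp [hlam, hy]
      have := LinearMap.mem_ker.mp (hv hx)
      rwa [map_sub, map_smul, sub_eq_zero, smul_eq_mul] at this
    have hne : evL A v (s b) ≠ 0 := fun h0 =>
      evL_ne_zero (D := A) (by omega) v (LinearMap.ext fun x => by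
        rw [hev x, h0, mul_zero]; rfl)
    exact ⟨v, hne, fun j => by rw [hev (s j), hlam, mul_div_cancel_right₀ _ hne]⟩
  · exfalso
    push Not at h
    obtain ⟨f, hf, a, ha, hf0, hnc⟩ := exists_pencil (A := A) (W := LinearMap.ker lam) fun v => by
      obtain ⟨x, hx, hx'⟩ := SetLike.not_le_iff_exists.mp (h v)
      exact ⟨x, hx, hx'⟩
    have hb3 : (s b : F) * ((s b : F) * s b) ∈ riemannRochSpace (A + (A + A)) :=
      mul_mem_rr (s b).2 (mul_mem_rr (s b).2 (s b).2)
    obtain ⟨x, hx, z, hz, hw⟩ := pencil_mul_eq hf0 (by omega)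
      (by rw [map_add]; omega) hnc _ hb3
    rw [← rr_sq_eq hA] at hx hz
    obtain ⟨qx, hqx, hqx'⟩ := exists_homogeneous_two s hx
    obtain ⟨qz, hqz, hqz'⟩ := exists_homogeneous_two s hz
    set lf : MvPolynomial ι k := ∑ j, C (s.repr f j) * X j
    set la : MvPolynomial ι k := ∑ j, C (s.repr a j) * X j
    have hl : ∀ z : ↥(riemannRochSpace A),
        MvPolynomial.aeval (fun j => (s j : F)) (∑ j, C (s.repr z j) * X j) = (z : F) ∧
        MvPolynomial.eval y (∑ j, C (s.repr z j) * X j) = lam z ∧
        (∑ j, C (s.repr z j) * X j : MvPolynomial ι k).IsHomogeneous 1 := fun z => by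
      refine ⟨?_, ?_, IsHomogeneous.sum _ _ _ fun j _ => (isHomogeneous_X k j).C_mul _⟩
      · simp only [map_sum, map_mul, aeval_C, aeval_X]
        conv_rhs => rw [← s.sum_repr z, Submodule.coe_sum]
        simp only [Submodule.coe_smul, Algebra.smul_def]
      · simp only [map_sum, map_mul, eval_C, eval_X]
        conv_rhs => rw [← s.sum_repr z]
        simp only [map_sum, map_smul, hlam, smul_eq_mul]
    have hp : (lf * qx + la * qz - X b ^ 3).IsHomogeneous 3 :=
      ((hl f).2.2.mul hqx).add ((hl a).2.2.mul hqz) |>.sub ((isHomogeneous_X k b).pow 3)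
    have h0 := hrel _ hp (by
      rw [map_sub, map_add, map_mul, map_mul, map_pow, aeval_X, (hl f).1, (hl a).1, hqx', hqz',
        ← hw]
      ring)
    rw [map_sub, map_add, map_mul, map_mul, map_pow, eval_X, (hl f).2.1, (hl a).2.1,
      LinearMap.mem_ker.mp hf, LinearMap.mem_ker.mp ha, hy] at h0
    simp at h0

end FermatLib.AV.MW

end
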