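import Mathlib
import Fermat.Agent.AV.MW.Points

/-!
# The multiprojective Nullstellensatz on tuples of places

For finitely many factors `i : σ`, each embedded by a basis `s i` of `L(A i)`, multihomogeneous
polynomials `ψ` without common zero on tuples of places satisfy: for all large exponents `e` and
every chart `b`, `∏ i, x_{i,b i}^{e i} = ∑ g ψ` on every tuple of places, `g` multihomogeneous.
-/

set_option autoImplicit false

noncomputable section

open AlgebraicCurve FermatLib.Curve MvPolynomial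

namespace FermatLib.AV.MW

variable {k F : Type*} [Field k] [Field F] [Algebra k F] [IsAlgClosed k] [IsCurveOver k F]
variable {σ : Type*} [Fintype σ] [DecidableEq σ] {ι : σ → Type*} [∀ i, Fintype (ι i)]
  [∀ i, DecidableEq (ι i)]

/-- The multidegree weight on the variables `⟨i, j⟩`. -/
def multiWeight (ι : σ → Type*) : (Σ i, ι i) → (σ → ℕ) := fun x => Pi.single x.1 1

omit [Fintype σ] [∀ i, DecidableEq (ι i)] [∀ i, Fintype (ι i)] in
theorem weight_multiWeight_apply [Fintype (Σ i, ι i)] (d : (Σ i, ι i) →₀ ℕ) (i : σ) :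
    Finsupp.weight (multiWeight ι) d i = ∑ x : Σ i, ι i, if x.1 = i then d x else 0 := by
  rw [Finsupp.weight_apply, Finsupp.sum_fintype _ _ (fun _ => by simp), Finset.sum_apply]
  refine Finset.sum_congr rfl fun x _ => ?_
  simp only [Pi.smul_apply, multiWeight, smul_eq_mul, Pi.single_apply]
  split_ifs <;> simp_all

/-- A polynomial is multihomogeneous of multidegree `r`. -/
def IsMultiHom {R : Type*} [CommSemiring R] (p : MvPolynomial (Σ i, ι i) R) (r : σ → ℕ) : Prop :=
  IsWeightedHomogeneous (multiWeight ι) p r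

omit [∀ i, DecidableEq (ι i)] in
/-- Scaling law of multihomogeneous polynomials. -/
theorem IsMultiHom.eval_scale {p : MvPolynomial (Σ i, ι i) k} {r : σ → ℕ} (hp : IsMultiHom p r)
    (c : σ → k) (x : (Σ i, ι i) → k) :
    eval (fun v => c v.1 * x v) p = (∏ i, c i ^ r i) * eval x p := by
  rw [eval_eq', eval_eq', Finset.mul_sum]
  refine Finset.sum_congr rfl fun d hd => ?_
  have hw := hp (mem_support_iff.mp hd)
  have hr : ∀ i, ∑ j, d ⟨i, j⟩ = r i := fun i => by
    rw [← congrFun hw i, weight_multiWeight_apply, Fintype.sum_sigma,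
      Finset.sum_eq_single i (fun b _ hb => by simp [hb]) (by simp)]
    simp
  simp only [mul_pow, Finset.prod_mul_distrib]
  rw [Fintype.prod_sigma (fun v : Σ i, ι i => c v.1 ^ d v)]
  simp only [Finset.prod_pow_eq_pow_sum, hr]
  ring

variable {A : σ → Divisor k F} (s : ∀ i, Module.Basis (ι i) k ↥(riemannRochSpace (A i)))

/-- The coordinates of a tuple of places. -/
def pts (P : σ → Place k F) : (Σ i, ι i) → k := fun x => evL (A x.1) (P x.1) (s x.1 x.2)

/-- The affine chart `b` of the product of embedded curves. -/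
def chartSet (b : ∀ i, ι i) : Set ((Σ i, ι i) → k) :=
  {y | ∃ P : σ → Place k F, (∀ i, pts s P ⟨i, b i⟩ ≠ 0) ∧
    y = fun x => pts s P x / pts s P ⟨x.1, b x.1⟩}

variable [HasLargeRR k F]

/-- The chart is Zariski closed. -/
theorem zeroLocus_chartSet_subset (hA : ∀ i, 4 * (rrGenus k F : ℤ) + 1 ≤ Divisor.degree (A i))
    (b : ∀ i, ι i) {y : (Σ i, ι i) → k}
    (hy : y ∈ zeroLocus k (vanishingIdeal k (chartSet s b))) : y ∈ chartSet s b := by
  have hb : ∀ i, y ⟨i, b i⟩ = 1 := fun i => by
    have hm : (X ⟨i, b i⟩ - 1 : MvPolynomial (Σ i, ι i) k) ∈ vanishingIdeal k (chartSet s b) := by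
      rintro _ ⟨P, hP, rfl⟩
      simp [div_self (hP i)]
    simpa [sub_eq_zero] using hy _ hm
  have hrel : ∀ i, ∃ v, evL (A i) v (s i (b i)) ≠ 0 ∧
      ∀ j, y ⟨i, j⟩ = evL (A i) v (s i j) / evL (A i) v (s i (b i)) := fun i => by
    refine exists_place_of_relations (hA i) (s i) (fun j => y ⟨i, j⟩) (b i) (hb i) fun p hp h0 => ?_
    have hm : rename (Sigma.mk i) p ∈ vanishingIdeal k (chartSet s b) := by
      rintro _ ⟨P, hP, rfl⟩
      rw [MvPolynomial.aeval_eq_eval, MvPolynomial.eval_rename]
      have he := eval_evL_eq_zero (s i) hp h0 (P i)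
      have hsc : eval (fun j => (pts s P ⟨i, b i⟩)⁻¹ * evL (A i) (P i) (s i j)) p = 0 := by
        rw [eval_eq'] at he ⊢
        have : ∀ d ∈ p.support, p.coeff d * ∏ j,
            ((pts s P ⟨i, b i⟩)⁻¹ * evL (A i) (P i) (s i j)) ^ d j =
            (pts s P ⟨i, b i⟩)⁻¹ ^ 3 * (p.coeff d * ∏ j, evL (A i) (P i) (s i j) ^ d j) := by
          intro d hd
          have hdeg := hp (mem_support_iff.mp hd)
          rw [Finsupp.weight_apply, Finsupp.sum_fintype _ _ (fun _ => by simp)] at hdeg
          simp only [mul_pow, Finset.prod_mul_distrib, Finset.prod_pow_eq_pow_sum]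
          rw [show ∑ j, d j = 3 by simpa using hdeg]
          ring
        rw [Finset.sum_congr rfl this, ← Finset.mul_sum, he, mul_zero]
      convert hsc using 3
      funext j
      simp [pts, div_eq_inv_mul]
    have := hy _ hm
    rwa [MvPolynomial.aeval_eq_eval, MvPolynomial.eval_rename] at this
  choose P hP hPy using hrel
  refine ⟨P, hP, funext fun ⟨i, j⟩ => ?_⟩
  exact hPy i j

variable {κ : Type*} [Fintype κ]

/-- **Multiprojective Nullstellensatz on tuples of places.** -/
theorem exists_null_identity (hA : ∀ i, 4 * (rrGenus k F : ℤ) + 1 ≤ Divisor.degree (A i))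
    (ψ : κ → MvPolynomial (Σ i, ι i) k) (r : κ → σ → ℕ) (hψ : ∀ q, IsMultiHom (ψ q) (r q))
    (hnz : ∀ P : σ → Place k F, ∃ q, eval (pts s P) (ψ q) ≠ 0) :
    ∃ e₀ : σ → ℕ, ∀ e, e₀ ≤ e → (∀ q, r q ≤ e) ∧ ∀ b : ∀ i, ι i,
      ∃ g : κ → MvPolynomial (Σ i, ι i) k, (∀ q, IsMultiHom (g q) (e - r q)) ∧
        ∀ P : σ → Place k F,
          ∏ i, pts s P ⟨i, b i⟩ ^ e i = ∑ q, eval (pts s P) (g q) * eval (pts s P) (ψ q) := by
  classical
  have haff : ∀ b : ∀ i, ι i, ∃ g : κ → MvPolynomial (Σ i, ι i) k,
      ∀ y ∈ chartSet s b, ∑ q, eval y (g q) * eval y (ψ q) = 1 := by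
    intro b
    set J := vanishingIdeal k (chartSet s b) ⊔ Ideal.span (Set.range ψ) with hJ
    have hempty : zeroLocus k J = ∅ := by
      refine Set.eq_empty_of_forall_notMem fun y hy => ?_
      obtain ⟨P, hP, rfl⟩ := zeroLocus_chartSet_subset s hA b
        (y := y) (fun p hp => hy p (Ideal.mem_sup_left hp))
      obtain ⟨q, hq⟩ := hnz P
      have h0 := hy (ψ q) (Ideal.mem_sup_right (Ideal.subset_span ⟨q, rfl⟩))
      rw [MvPolynomial.aeval_eq_eval] at h0
      refine hq ?_
      have := (hψ q).eval_scale (fun i => pts s P ⟨i, b i⟩)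
        (fun x => pts s P x / pts s P ⟨x.1, b x.1⟩)
      rw [h0, mul_zero] at this
      convert this using 3
      funext x
      exact (mul_div_cancel₀ _ (hP x.1)).symm
    have h1 : (1 : MvPolynomial (Σ i, ι i) k) ∈ J := by
      have h := vanishingIdeal_zeroLocus_eq_radical (K := k) J
      rw [hempty] at h
      have h2 : J.radical = ⊤ := by
        rw [← h, eq_top_iff]
        intro p _ x hx
        exact absurd hx (Set.notMem_empty x)
      rw [Ideal.radical_eq_top] at h2
      rw [h2]; trivial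
    obtain ⟨v, hv, w, hw, hvw⟩ := Submodule.mem_sup.mp h1
    obtain ⟨g, rfl⟩ := (Ideal.mem_span_range_iff_exists_fun).mp hw
    refine ⟨g, fun y hy => ?_⟩
    have := congrArg (eval y) hvw
    rw [map_add, show eval y v = 0 from by simpa [MvPolynomial.aeval_eq_eval] using hv y hy,
      zero_add, map_one, map_sum] at this
    simpa using this
  choose g hg using haff
  set D : σ → ℕ := fun i => 1 + ∑ b : ∀ i, ι i, ∑ q, ∑ d ∈ (g b q).support,
    (Finsupp.weight (multiWeight ι) d i + r q i) + ∑ q, r q i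
  refine ⟨D, fun e he => ?_⟩
  have hr : ∀ q, r q ≤ e := fun q i => by
    show r q i ≤ e i
    have hle : r q i ≤ ∑ q, r q i :=
      Finset.single_le_sum (f := fun q => r q i) (fun _ _ => Nat.zero_le _) (Finset.mem_univ q)
    have := he i
    simp only [D] at this
    omega
  refine ⟨hr, fun b => ?_⟩
  have hbd : ∀ q, ∀ d ∈ (g b q).support, ∀ i,
      Finsupp.weight (multiWeight ι) d i + r q i + 1 ≤ e i := by
    intro q d hd i
    have h1 : Finsupp.weight (multiWeight ι) d i + r q i ≤
        ∑ b : ∀ i, ι i, ∑ q, ∑ d ∈ (g b q).support,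
          (Finsupp.weight (multiWeight ι) d i + r q i) := by
      refine le_trans ?_ (Finset.single_le_sum (fun _ _ => Nat.zero_le _) (Finset.mem_univ b))
      refine le_trans ?_ (Finset.single_le_sum (fun _ _ => Nat.zero_le _) (Finset.mem_univ q))
      exact Finset.single_le_sum (f := fun d => Finsupp.weight (multiWeight ι) d i + r q i)
        (fun _ _ => Nat.zero_le _) hd
    have := he i
    simp only [D] at this
    omega
  let pad : κ → ((Σ i, ι i) →₀ ℕ) → ((Σ i, ι i) →₀ ℕ) := fun q d =>
    ∑ i, Finsupp.single ⟨i, b i⟩ (e i - r q i - Finsupp.weight (multiWeight ι) d i)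
  refine ⟨fun q => ∑ d ∈ (g b q).support, monomial (d + pad q d) ((g b q).coeff d),
    fun q => ?_, fun P => ?_⟩
  · refine IsWeightedHomogeneous.sum _ _ _ fun d hd => isWeightedHomogeneous_monomial _ _ _ ?_
    funext j
    rw [map_add, map_sum, Pi.add_apply, Finset.sum_apply]
    simp only [Finsupp.weight_apply, Finsupp.sum_single_index, zero_smul, multiWeight,
      Pi.smul_apply, smul_eq_mul, Pi.single_apply]
    rw [Finset.sum_eq_single j (fun i _ hi => by simp [Ne.symm hi]) (by simp)]
    have := hbd q d hd j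
    simp only [Finsupp.weight_apply, multiWeight] at this
    simp only [Pi.sub_apply, mul_one, if_true]
    omega
  set x := pts s P
  have hterm : ∀ q, ∀ d ∈ (g b q).support, eval x (monomial (d + pad q d) ((g b q).coeff d)) =
      (g b q).coeff d * (∏ v, x v ^ d v) *
        ∏ i, x ⟨i, b i⟩ ^ (e i - r q i - Finsupp.weight (multiWeight ι) d i) := by
    intro q d _
    rw [eval_monomial, Finsupp.prod_fintype _ _ (fun _ => pow_zero _)]
    simp only [Finsupp.add_apply, pow_add, Finset.prod_mul_distrib, mul_assoc]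
    congr 2
    rw [Fintype.prod_sigma]
    refine Finset.prod_congr rfl fun i _ => ?_
    rw [Finset.prod_eq_single (b i)]
    · simp only [pad, Finsupp.finsetSum_apply]
      rw [Finset.sum_eq_single i (fun i' _ hi' => Finsupp.single_eq_of_ne
        (fun h => hi' (Sigma.mk.inj_iff.mp h).1.symm)) (by simp), Finsupp.single_eq_same]
    · intro j _ hj
      have : pad q d ⟨i, j⟩ = 0 := by
        simp only [pad, Finsupp.finsetSum_apply]
        refine Finset.sum_eq_zero fun i' _ => Finsupp.single_eq_of_ne ?_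
        intro h
        obtain ⟨rfl, h⟩ := Sigma.mk.inj_iff.mp h
        exact hj (eq_of_heq h)
      simp [this]
    · simp
  by_cases hz : ∀ i, x ⟨i, b i⟩ ≠ 0
  · have hy := hg b _ ⟨P, hz, rfl⟩
    set y : (Σ i, ι i) → k := fun v => x v / x ⟨v.1, b v.1⟩
    have hxy : x = fun v => x ⟨v.1, b v.1⟩ * y v := funext fun v =>
      (mul_div_cancel₀ _ (hz v.1)).symm
    have key : ∀ q, eval x (∑ d ∈ (g b q).support, monomial (d + pad q d) ((g b q).coeff d)) *
        eval x (ψ q) = (∏ i, x ⟨i, b i⟩ ^ e i) * (eval y (g b q) * eval y (ψ q)) := by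
      intro q
      have hpsi : eval x (ψ q) = (∏ i, x ⟨i, b i⟩ ^ r q i) * eval y (ψ q) := by
        conv_lhs => rw [hxy]
        exact (hψ q).eval_scale (fun i => x ⟨i, b i⟩) y
      rw [map_sum, Finset.sum_congr rfl (hterm q), hpsi, eval_eq' y (g b q), Finset.sum_mul,
        Finset.sum_mul, Finset.mul_sum]
      refine Finset.sum_congr rfl fun d hd => ?_
      have hpow : ∏ v, x v ^ d v =
          (∏ i, x ⟨i, b i⟩ ^ Finsupp.weight (multiWeight ι) d i) * ∏ v, y v ^ d v := by
        conv_lhs => rw [hxy]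
        simp only [mul_pow, Finset.prod_mul_distrib]
        rw [Fintype.prod_sigma (fun v : Σ i, ι i => x ⟨v.1, b v.1⟩ ^ d v)]
        simp only [Finset.prod_pow_eq_pow_sum]
        congr 1
        refine Finset.prod_congr rfl fun i _ => ?_
        congr 1
        rw [weight_multiWeight_apply, Fintype.sum_sigma,
          Finset.sum_eq_single i (fun c _ hc => by simp [hc]) (by simp)]
        simp
      have hexp : ∏ i, x ⟨i, b i⟩ ^ e i =
          (∏ i, x ⟨i, b i⟩ ^ Finsupp.weight (multiWeight ι) d i) *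
          (∏ i, x ⟨i, b i⟩ ^ (e i - r q i - Finsupp.weight (multiWeight ι) d i)) *
          (∏ i, x ⟨i, b i⟩ ^ r q i) := by
        rw [← Finset.prod_mul_distrib, ← Finset.prod_mul_distrib]
        refine Finset.prod_congr rfl fun i _ => ?_
        rw [← pow_add, ← pow_add]
        congr 1
        have := hbd q d hd i
        omega
      rw [hpow, hexp]
      ring
    rw [Finset.sum_congr rfl fun q _ => key q, ← Finset.mul_sum, hy, mul_one]
  · push Not at hz
    obtain ⟨i, hi⟩ := hz
    have hei : 0 < e i := by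
      have := he i
      simp only [D] at this
      omega
    rw [Finset.prod_eq_zero (Finset.mem_univ i) (by rw [hi, zero_pow hei.ne']),
      eq_comm]
    refine Finset.sum_eq_zero fun q _ => ?_
    rw [map_sum, Finset.sum_congr rfl (hterm q),
      Finset.sum_eq_zero fun d hd => ?_, zero_mul]
    have := hbd q d hd i
    rw [Finset.prod_eq_zero (Finset.mem_univ i) (f := fun j => x ⟨j, b j⟩ ^
      (e j - r q j - Finsupp.weight (multiWeight ι) d j))
      (by show x ⟨i, b i⟩ ^ _ = 0; rw [hi, zero_pow (by omega)]), mul_zero]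

end FermatLib.AV.MW

end
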