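import Mathlib
import Fermat.Agent.AV.MW.NullIdentity

/-!
# Polynomial families of sections

For a tuple `P` of places (collisions allowed) the space `L(N - ∑ P i)` is spanned by sections
whose coordinates are multihomogeneous polynomials in the coordinates of the `P i`.  This makes
`L(M - ∑ P i) ≠ 0` an algebraic condition on the tuple.
-/

set_option autoImplicit false

noncomputable section

open AlgebraicCurve FermatLib.Curve MvPolynomial

namespace FermatLib.AV.MW

variable {k F : Type*} [Field k] [Field F] [Algebra k F]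

/-- The divisor of a tuple of places. -/
def tupleDiv {σ : Type*} [Fintype σ] (P : σ → Place k F) : Divisor k F :=
  ∑ i, Finsupp.single (P i) 1

theorem tupleDiv_nonneg {σ : Type*} [Fintype σ] (P : σ → Place k F) (v : Place k F) :
    0 ≤ tupleDiv P v := by
  classical
  rw [tupleDiv, Finsupp.finsetSum_apply]
  exact Finset.sum_nonneg fun i _ => by rw [Finsupp.single_apply]; split_ifs <;> simp

variable [IsAlgClosed k] [IsCurveOver k F]

theorem degree_tupleDiv {σ : Type*} [Fintype σ] (P : σ → Place k F) :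
    Divisor.degree (tupleDiv P) = Fintype.card σ := by
  simp [tupleDiv, map_sum, Divisor.degree_single, IsCurveOver.deg_eq_one_of_isAlgClosed]

/-- The combinations `λ a s_b - λ b s_a` span the kernel of a nonzero functional. -/
theorem ker_eq_span_wedge {K V ι : Type*} [Field K] [AddCommGroup V] [Module K V] [Fintype ι]
    (s : Module.Basis ι K V) (lam : V →ₗ[K] K) (hlam : lam ≠ 0) :
    LinearMap.ker lam =
      Submodule.span K (Set.range fun ab : ι × ι => lam (s ab.1) • s ab.2 - lam (s ab.2) • s ab.1) := by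
  refine le_antisymm (fun x hx => ?_) (Submodule.span_le.mpr ?_)
  · obtain ⟨a, ha⟩ : ∃ a, lam (s a) ≠ 0 := by
      by_contra h
      push Not at h
      exact hlam (s.ext fun i => by simp [h])
    have hx' : x = (lam (s a))⁻¹ • ∑ b, s.repr x b • (lam (s a) • s b - lam (s b) • s a) := by
      simp only [smul_sub, Finset.sum_sub_distrib, smul_smul]
      rw [← Finset.sum_smul (f := fun b => s.repr x b * lam (s b)),
        show ∑ b, s.repr x b * lam (s b) = lam x by
          conv_rhs => rw [← s.sum_repr x]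
          simp only [map_sum, map_smul, smul_eq_mul],
        LinearMap.mem_ker.mp hx, zero_smul, smul_zero, sub_zero, Finset.smul_sum]
      simp only [smul_smul]
      conv_lhs => rw [← s.sum_repr x]
      refine Finset.sum_congr rfl fun b _ => ?_
      congr 1
      field_simp
    rw [hx']
    exact Submodule.smul_mem _ _ (Submodule.sum_mem _ fun b _ =>
      Submodule.smul_mem _ _ (Submodule.subset_span ⟨(a, b), rfl⟩))
  · rintro _ ⟨⟨a, b⟩, rfl⟩
    simp [mul_comm]

/-! ### Coordinates of polynomial families -/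

section Coords

variable {V : Type*} {ι : Type*} [Fintype ι] {L : Submodule k F} (sN : Module.Basis ι k ↥L)

open scoped Classical in
/-- Coordinate of an element of `F`, zero off `L`. -/
def coordOn (x : F) (j : ι) : k := if h : x ∈ L then sN.repr ⟨x, h⟩ j else 0

omit [IsAlgClosed k] [IsCurveOver k F] in
theorem coordOn_coe (x : ↥L) (j : ι) : coordOn sN (x : F) j = sN.repr x j := by
  simp [coordOn]

/-- The `j`-th coordinate of a polynomial family in `L`. -/
def coordPoly (p : MvPolynomial V F) (j : ι) : MvPolynomial V k :=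
  ∑ d ∈ p.support, monomial d (coordOn sN (p.coeff d) j)

omit [IsAlgClosed k] [IsCurveOver k F] in
theorem coordPoly_spec {p : MvPolynomial V F} (hp : ∀ d, p.coeff d ∈ L) (x : V → k) :
    ∃ h : eval (algebraMap k F ∘ x) p ∈ L, ∀ j,
      eval x (coordPoly sN p j) = sN.repr ⟨_, h⟩ j := by
  classical
  have e : eval (algebraMap k F ∘ x) p =
      ((∑ d ∈ p.support, (d.prod fun v m => x v ^ m) • (⟨p.coeff d, hp d⟩ : ↥L) : ↥L) : F) := by
    rw [Submodule.coe_sum, eval_eq]
    refine Finset.sum_congr rfl fun d _ => ?_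
    rw [Submodule.coe_smul, Algebra.smul_def, Finsupp.prod, map_prod]
    simp [mul_comm]
  have hmem : eval (algebraMap k F ∘ x) p ∈ L := e ▸ Submodule.coe_mem _
  refine ⟨hmem, fun j => ?_⟩
  have e' : (⟨_, hmem⟩ : ↥L) =
      ∑ d ∈ p.support, (d.prod fun v m => x v ^ m) • (⟨p.coeff d, hp d⟩ : ↥L) := Subtype.ext e
  rw [e']
  simp only [coordPoly, map_sum, eval_monomial, map_smul, Finsupp.coe_finsetSum, Finset.sum_apply,
    Finsupp.smul_apply, smul_eq_mul]
  refine Finset.sum_congr rfl fun d _ => ?_
  rw [← coordOn_coe sN (⟨p.coeff d, hp d⟩ : ↥L) j, mul_comm]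

omit [IsAlgClosed k] [IsCurveOver k F] in
theorem coordPoly_isWeightedHomogeneous {M : Type*} [AddCommMonoid M] {w : V → M} {m : M}
    {p : MvPolynomial V F} (hp : p.IsWeightedHomogeneous w m) (j : ι) :
    (coordPoly sN p j).IsWeightedHomogeneous w m :=
  IsWeightedHomogeneous.sum _ _ _ fun _ hd =>
    isWeightedHomogeneous_monomial _ _ _ (hp (MvPolynomial.mem_support_iff.mp hd))

end Coords

/-! ### The spanning family -/

variable {σ : Type*} [Fintype σ] [DecidableEq σ]
variable {A B N : Divisor k F} {ιA ιB : Type*} [Fintype ιA] [DecidableEq ιA] [Fintype ιB]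
  (sA : Module.Basis ιA k ↥(riemannRochSpace A)) (sB : Module.Basis ιB k ↥(riemannRochSpace B))

/-- Index set of the spanning family. -/
abbrev PsiIx (σ ιA ιB : Type*) : Type _ := ιB × (σ → ιA × ιA)

/-- The coordinates of a tuple, all embedded by `sA`. -/
def ptsC (P : σ → Place k F) : (Σ _ : σ, ιA) → k := pts (fun _ : σ => sA) P

omit [Fintype σ] [DecidableEq σ] [Fintype ιA] [DecidableEq ιA] in
theorem ptsC_apply (P : σ → Place k F) (i : σ) (a : ιA) :
    ptsC sA P ⟨i, a⟩ = evL A (P i) (sA a) := rfl

/-- `t * ∏ i, (x_{i a} s_b - x_{i b} s_a)`, as a polynomial over `F`. -/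
def psiPoly (β : PsiIx σ ιA ιB) : MvPolynomial (Σ _ : σ, ιA) F :=
  C (sB β.1 : F) * ∏ i, (C (sA (β.2 i).2 : F) * X ⟨i, (β.2 i).1⟩ -
    C (sA (β.2 i).1 : F) * X ⟨i, (β.2 i).2⟩)

/-- The value of the spanning family at a tuple of places. -/
def psiVal (P : σ → Place k F) (β : PsiIx σ ιA ιB) : F :=
  (sB β.1 : F) * ∏ i, ((evL A (P i) (sA (β.2 i).1) • sA (β.2 i).2 -
    evL A (P i) (sA (β.2 i).2) • sA (β.2 i).1 : ↥(riemannRochSpace A)) : F)

omit [DecidableEq σ] [DecidableEq ιA] [Fintype ιA] [Fintype ιB] in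
theorem eval_psiPoly (P : σ → Place k F) (β : PsiIx σ ιA ιB) :
    eval (algebraMap k F ∘ ptsC sA P) (psiPoly sA sB β) = psiVal sA sB P β := by
  simp only [psiPoly, psiVal, map_mul, eval_C, map_prod, map_sub, eval_X, Function.comp_apply,
    ptsC_apply]
  congr 1
  refine Finset.prod_congr rfl fun i _ => ?_
  rw [Submodule.coe_sub, Submodule.coe_smul, Submodule.coe_smul, Algebra.smul_def,
    Algebra.smul_def]
  ring

theorem sum_pi_single_one : ∑ i : σ, (Pi.single i 1 : σ → ℕ) = 1 := by
  funext j
  simp [Finset.sum_apply, Pi.single_apply]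

omit [IsAlgClosed k] [IsCurveOver k F] [DecidableEq ιA] [Fintype ιA] [Fintype ιB] in
theorem psiPoly_isMultiHom (β : PsiIx σ ιA ιB) : IsMultiHom (psiPoly sA sB β) (1 : σ → ℕ) := by
  have h : (psiPoly sA sB β).IsWeightedHomogeneous (multiWeight (fun _ : σ => ιA))
      (0 + ∑ i : σ, (Pi.single i 1 : σ → ℕ)) := by
    refine (isWeightedHomogeneous_C _ _).mul (IsWeightedHomogeneous.prod _ _ _ fun i _ => ?_)
    refine Submodule.sub_mem (weightedHomogeneousSubmodule F _ _) ?_ ?_ <;>
    · rw [mem_weightedHomogeneousSubmodule, show (Pi.single i 1 : σ → ℕ) = 0 + Pi.single i 1 by simp]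
      exact (isWeightedHomogeneous_C _ _).mul (isWeightedHomogeneous_X _ _ _)
  rwa [zero_add, sum_pi_single_one] at h

variable [HasLargeRR k F]

omit [DecidableEq σ] in
theorem psiPoly_coeff_mem (hN : N = (Fintype.card σ) • A + B) (β : PsiIx σ ιA ιB) (d) :
    (psiPoly sA sB β).coeff d ∈ riemannRochSpace N := by
  classical
  suffices H : ∀ t : Finset σ, ∀ d, (∏ i ∈ t, (C (sA (β.2 i).2 : F) * X ⟨i, (β.2 i).1⟩ -
      C (sA (β.2 i).1 : F) * X ⟨i, (β.2 i).2⟩ : MvPolynomial (Σ _ : σ, ιA) F)).coeff d ∈
        riemannRochSpace (t.card • A) by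
    rw [psiPoly, coeff_C_mul, hN, add_comm]
    exact mul_mem_rr (sB β.1).2 (by simpa using H Finset.univ d)
  intro t
  induction t using Finset.induction_on with
  | empty =>
    intro d
    rw [Finset.prod_empty, coeff_one, Finset.card_empty, zero_smul]
    split_ifs
    · exact one_mem_rr fun v => le_rfl
    · exact zero_mem _
  | @insert i t hi ih =>
    intro d
    rw [Finset.prod_insert hi, Finset.card_insert_of_notMem hi, succ_nsmul', coeff_mul]
    refine Submodule.sum_mem _ fun x _ => mul_mem_rr ?_ (ih x.2)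
    simp only [coeff_sub, coeff_C_mul, coeff_X]
    refine Submodule.sub_mem _ ?_ ?_ <;>
    · split_ifs
      · rw [mul_one]; exact (sA _).2
      · rw [mul_zero]; exact zero_mem _

omit [DecidableEq σ] in
/-- The spanning family spans `L(N - ∑ P i)`. -/
theorem span_psiVal [Infinite k] (hA : 2 * (rrGenus k F : ℤ) + 1 ≤ Divisor.degree A)
    (hB : Divisor.degree A + 2 * (rrGenus k F : ℤ) ≤ Divisor.degree B)
    (hN : N = (Fintype.card σ) • A + B) (P : σ → Place k F) :
    Submodule.span k (Set.range (psiVal sA sB P)) = riemannRochSpace (N - tupleDiv P) := by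
  classical
  set AP : σ → Divisor k F := fun i => A - Finsupp.single (P i) 1
  have hdeg : ∀ i, Divisor.degree (AP i) = Divisor.degree A - 1 := fun i => by
    simp only [AP, map_sub, degree_single_one]
  set w : σ → ιA × ιA → F := fun i ab =>
    ((evL A (P i) (sA ab.1) • sA ab.2 - evL A (P i) (sA ab.2) • sA ab.1 :
      ↥(riemannRochSpace A)) : F)
  have hw : ∀ i, riemannRochSpace (AP i) = Submodule.span k (Set.range (w i)) := fun i => by
    have h1 : riemannRochSpace (AP i) =
        Submodule.map (riemannRochSpace A).subtype (LinearMap.ker (evL A (P i))) := by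
      refine le_antisymm (fun f hf => ?_) ?_
      · have hf' : f ∈ riemannRochSpace A := rr_mono (fun v => by
          simp only [AP, Finsupp.sub_apply, Finsupp.single_apply]; split_ifs <;> simp) hf
        exact ⟨⟨f, hf'⟩, (evL_eq_zero_iff _).mpr hf, rfl⟩
      · rintro _ ⟨f, hf, rfl⟩
        exact (evL_eq_zero_iff f).mp hf
    rw [h1, ker_eq_span_wedge sA _ (evL_ne_zero (by omega) _), Submodule.map_span,
      ← Set.range_comp]
    rfl
  have hprod : ∀ t : Finset σ, (∏ i ∈ t, riemannRochSpace (AP i)) * riemannRochSpace B =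
      riemannRochSpace ((∑ i ∈ t, AP i) + B) := fun t => by
    have h := rr_prod_mul_eq (t.toList.map AP) (B := B) (by omega) (fun D hD => by
      obtain ⟨i, -, rfl⟩ := List.mem_map.mp hD
      rw [hdeg]
      omega)
    rwa [List.map_map, Finset.prod_map_toList, Finset.sum_map_toList] at h
  have hB' : riemannRochSpace B = Submodule.span k (Set.range fun b => (sB b : F)) := by
    have := congrArg (Submodule.map (riemannRochSpace B).subtype) sB.span_eq
    rw [Submodule.map_top, Submodule.range_subtype, Submodule.map_span, ← Set.range_comp] at this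
    exact this.symm
  have hsum : (∑ i, AP i) + B = N - tupleDiv P := by
    simp only [AP, Finset.sum_sub_distrib, Finset.sum_const, Finset.card_univ, tupleDiv, hN]
    abel
  rw [← hsum, ← hprod Finset.univ]
  refine le_antisymm (Submodule.span_le.mpr ?_) ?_
  · rintro _ ⟨β, rfl⟩
    show (sB β.1 : F) * ∏ i, w i (β.2 i) ∈ _
    rw [mul_comm (sB β.1 : F)]
    refine Submodule.mul_mem_mul ?_ (sB β.1).2
    rw [Finset.prod_congr rfl (fun i _ => hw i), Submodule.prod_span]
    exact Submodule.subset_span (Set.mem_finsetProd Finset.univ _ _ |>.mpr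
      ⟨fun i => w i (β.2 i), fun _ => ⟨_, rfl⟩, rfl⟩)
  · rw [Finset.prod_congr rfl (fun i _ => hw i), hB', Submodule.prod_span,
      Submodule.span_mul_span]
    refine Submodule.span_mono ?_
    rintro _ ⟨u, hu, _, ⟨b, rfl⟩, rfl⟩
    obtain ⟨f, hf, rfl⟩ := Set.mem_finsetProd Finset.univ _ u |>.mp hu
    choose c hc using fun i => hf (Finset.mem_univ i)
    exact ⟨(b, c), by show (sB b : F) * ∏ i, w i (c i) = _; rw [mul_comm]; simp only [hc]⟩

variable {ιN : Type*} [Fintype ιN] (sN : Module.Basis ιN k ↥(riemannRochSpace N))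

/-- Coordinates of the spanning family as multihomogeneous polynomials. -/
def psiCoord (β : PsiIx σ ιA ιB) (j : ιN) : MvPolynomial (Σ _ : σ, ιA) k :=
  coordPoly sN (psiPoly sA sB β) j

omit [HasLargeRR k F] in
theorem psiCoord_isMultiHom (β : PsiIx σ ιA ιB) (j : ιN) :
    IsMultiHom (psiCoord sA sB sN β j) (1 : σ → ℕ) :=
  coordPoly_isWeightedHomogeneous sN (psiPoly_isMultiHom sA sB β) j

theorem psiVal_mem (hN : N = (Fintype.card σ) • A + B) (P : σ → Place k F) (β : PsiIx σ ιA ιB) :
    ∃ h : psiVal sA sB P β ∈ riemannRochSpace N, ∀ j,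
      eval (ptsC sA P) (psiCoord sA sB sN β j) = sN.repr ⟨_, h⟩ j := by
  obtain ⟨h, hh⟩ := coordPoly_spec sN (p := psiPoly sA sB β)
    (fun d => psiPoly_coeff_mem sA sB hN β d) (ptsC sA P)
  rw [eval_psiPoly] at h
  refine ⟨h, fun j => ?_⟩
  rw [psiCoord, hh j]
  congr 2
  exact Subtype.ext (eval_psiPoly sA sB P β)

end FermatLib.AV.MW

end
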