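import Mathlib
import Fermat.Agent.AV.MW.Sections
import Fermat.Agent.Curve.FunctionField
import Fermat.Agent.Curve.KaehlerDivisor

/-!
# The moving lemma

Every divisor of degree at least `2g + 1` is linearly equivalent to a sum of distinct places
avoiding a given finite set: choose a pencil without base points and avoid the finitely many
values at ramified or forbidden places.
-/

set_option autoImplicit false

noncomputable section

open AlgebraicCurve FermatLib.Curve
open scoped IntermediateField

namespace FermatLib.AV.MW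

variable {k F : Type*} [Field k] [Field F] [Algebra k F] [IsAlgClosed k] [IsCurveOver k F]
  [HasLargeRR k F]

theorem transcendental_of_forall_ne {z : F} (hz : ∀ c : k, z ≠ algebraMap k F c) :
    Transcendental k z := by
  intro halg
  have hd : (minpoly k z).degree = 1 :=
    IsAlgClosed.degree_eq_one_of_irreducible k (minpoly.irreducible halg.isIntegral)
  obtain ⟨c, hc⟩ := minpoly.degree_eq_one_iff.mp hd
  exact hz c hc.symm

theorem pencil_ratio_ne_const {D : Divisor k F} (hD : 0 < Divisor.degree D)
    {f a : ↥(riemannRochSpace D)} (hf : f ≠ 0) (hnc : ∀ v, evL D v f ≠ 0 ∨ evL D v a ≠ 0)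
    (c : k) : (a : F) / f ≠ algebraMap k F c := by
  intro h
  have hf0 : (f : F) ≠ 0 := fun e => hf (Subtype.ext e)
  obtain ⟨Z, hZ, hpos, hdeg⟩ := exists_effective f.2 hf0
  obtain ⟨v, hv⟩ : ∃ v, 0 < Z v := by
    by_contra hne
    push Not at hne
    have : Z = 0 := Finsupp.ext fun v => le_antisymm (hne v) (hpos v)
    rw [this, map_zero] at hdeg
    omega
  have hev : evL D v f = 0 := by
    rw [evL_apply, lc_eq_zero_iff ((FermatLib.Curve.mem_riemannRochSpace.mp f.2) v),
      mem_ordGE_of_ne_zero hf0]
    rw [hZ] at hv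
    omega
  have ha : a = c • f := Subtype.ext (by
    rw [Submodule.coe_smul, Algebra.smul_def, ← h, div_mul_cancel₀ _ hf0])
  rcases hnc v with h1 | h1
  · exact h1 hev
  · exact h1 (by rw [ha, map_smul, hev, smul_zero])

variable [CharZero k] [IsFunctionField k F]

/-- Almost all values of a nonconstant function are taken with multiplicity one. -/
theorem finite_ramified {z : F} (hz : Transcendental k z) :
    {v : Place k F | ∃ c : k, 2 ≤ v.ord (z - algebraMap k F c)}.Finite := by
  haveI : CharZero F := charZero_of_injective_algebraMap (algebraMap k F).injective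
  haveI := finiteDimensional_adjoin_of_transcendental (K := k) (F := F) hz
  haveI : CharZero k⟮z⟯ := charZero_of_injective_algebraMap (algebraMap k k⟮z⟯).injective
  haveI : Algebra.IsSeparable k⟮z⟯ F := Algebra.IsAlgebraic.isSeparable_of_perfectField
  refine (finite_ordDifferential_D_ne_zero hz
    IsCurveOver.forall_deg_eq_one_of_isAlgClosed).subset fun v ⟨c, hc⟩ => ?_
  simp only [Set.mem_ofPred_eq]
  rw [ordDifferential_D_of_pos v c (by omega)]
  omega

/-- **Moving lemma**: a reduced member of `|D|` avoiding a finite set of places. -/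
theorem exists_reduced_member (D : Divisor k F)
    (hD : 2 * (rrGenus k F : ℤ) + 1 ≤ Divisor.degree D) (S : Set (Place k F)) (hS : S.Finite) :
    ∃ (f : F) (Z : Finset (Place k F)), f ∈ riemannRochSpace D ∧ f ≠ 0 ∧
      (∀ v ∈ Z, v ∉ S) ∧ (Z.card : ℤ) = Divisor.degree D ∧
      ∀ v, v.ord f + D v = (∑ w ∈ Z, Finsupp.single w (1 : ℤ) : Divisor k F) v := by
  classical
  have : Infinite k := IsAlgClosed.instInfinite
  obtain ⟨f₀, -, a, -, hf₀, hnc⟩ := exists_pencil (A := D) (W := ⊤) fun v => by
    obtain ⟨f, hf⟩ := exists_evL_ne_zero (D := D) (by omega) v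
    exact ⟨f, trivial, hf⟩
  have hratio := pencil_ratio_ne_const (by omega) hf₀ hnc
  have hram := finite_ramified (transcendental_of_forall_ne hratio)
  obtain ⟨t, ht⟩ := (((hS.union hram).image fun v => evL D v a / evL D v f₀)).infinite_compl.nonempty
  set g : ↥(riemannRochSpace D) := a - t • f₀ with hg
  have hf00 : (f₀ : F) ≠ 0 := fun e => hf₀ (Subtype.ext e)
  have hg0 : (g : F) ≠ 0 := fun e => hratio t (by
    rw [div_eq_iff hf00, ← Algebra.smul_def]
    exact sub_eq_zero.mp (by simpa [hg] using e))
  obtain ⟨Z, hZ, hpos, hdeg⟩ := exists_effective g.2 hg0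
  have hzero : ∀ v, 0 < Z v → evL D v f₀ ≠ 0 ∧ evL D v a / evL D v f₀ = t := by
    intro v hv
    have hev : evL D v g = 0 := by
      rw [evL_apply, lc_eq_zero_iff ((FermatLib.Curve.mem_riemannRochSpace.mp g.2) v),
        mem_ordGE_of_ne_zero hg0]
      rw [hZ] at hv
      omega
    rw [hg, map_sub, map_smul, smul_eq_mul, sub_eq_zero] at hev
    have hne : evL D v f₀ ≠ 0 := by
      rcases hnc v with h | h
      · exact h
      · intro e; exact h (by rw [hev, e, mul_zero])
    exact ⟨hne, by rw [hev, mul_div_cancel_right₀ _ hne]⟩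
  have hle : ∀ v, Z v ≤ 1 := by
    intro v
    by_contra hv
    push Not at hv
    obtain ⟨hne, hval⟩ := hzero v (by omega)
    have hordf : v.ord (f₀ : F) = -D v := by
      have h1 := (mem_rr_iff.mp f₀.2).resolve_left hf00 v
      rw [evL_apply, Ne, lc_eq_zero_iff ((FermatLib.Curve.mem_riemannRochSpace.mp f₀.2) v),
        mem_ordGE_of_ne_zero hf00] at hne
      omega
    refine ht ⟨v, Or.inr ⟨t, ?_⟩, hval⟩
    have e : (a : F) / f₀ - algebraMap k F t = (g : F) / f₀ := by
      rw [hg, Submodule.coe_sub, Submodule.coe_smul, Algebra.smul_def]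
      field_simp
    rw [e, ord_div v hg0 hf00]
    rw [hZ] at hv
    omega
  refine ⟨g, Z.support, g.2, hg0, fun v hv hvS => ?_, ?_, fun v => ?_⟩
  · have h1 : 0 < Z v := lt_of_le_of_ne (hpos v) (Ne.symm (Finsupp.mem_support_iff.mp hv))
    exact ht ⟨v, Or.inl hvS, (hzero v h1).2⟩
  · have e : Z = ∑ w ∈ Z.support, Finsupp.single w (1 : ℤ) := by
      conv_lhs => rw [← Z.sum_single, Finsupp.sum]
      refine Finset.sum_congr rfl fun v hv => ?_
      have := Finsupp.mem_support_iff.mp hv
      rw [show Z v = 1 by have := hle v; have := hpos v; omega]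
    rw [← hdeg]
    conv_rhs => rw [e]
    simp [map_sum, IsCurveOver.deg_eq_one_of_isAlgClosed]
  · rw [← hZ, Finsupp.finsetSum_apply]
    simp only [Finsupp.single_apply, Finset.sum_ite_eq']
    split_ifs with hv
    · have := Finsupp.mem_support_iff.mp hv
      have := hle v
      have := hpos v
      omega
    · exact Finsupp.notMem_support_iff.mp hv

end FermatLib.AV.MW

end
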