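import Mathlib
import Fermat.Agent.AV.MW.Moving

/-!
# Classes of tuples of places

`pc O P = [∑ P i - card • O]` in `Pic⁰`, its additivity, the criterion for it to vanish, existence
of representatives and nonspecial tuples.
-/

set_option autoImplicit false

noncomputable section

open AlgebraicCurve FermatLib.Curve

namespace FermatLib.AV.MW

variable {k F : Type*} [Field k] [Field F] [Algebra k F] [IsAlgClosed k] [IsCurveOver k F]

/-- The class `[∑ P i - card • O]`. -/
def pc (O : Place k F) {σ : Type*} [Fintype σ] (P : σ → Place k F) : Pic0 k F :=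
  Pic0.mk ⟨tupleDiv P - Finsupp.single O (Fintype.card σ : ℤ), Divisor.mem_degZero.mpr (by
    rw [map_sub, degree_tupleDiv, Divisor.degree_single, IsCurveOver.deg_eq_one_of_isAlgClosed]
    simp)⟩

theorem pic0_mk_eq_mk_iff {D E : Divisor.degZero (K := k) (F := F)} :
    Pic0.mk D = Pic0.mk E ↔ Divisor.IsPrincipal ((E : Divisor k F) - (D : Divisor k F)) := by
  rw [Pic0.mk, Pic0.mk, QuotientAddGroup.eq, AddSubgroup.mem_addSubgroupOf, Divisor.mem_principal,
    AddSubgroup.coe_add, AddSubgroup.coe_neg, neg_add_eq_sub]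

theorem tupleDiv_sumElim {σ τ : Type*} [Fintype σ] [Fintype τ] (P : σ → Place k F)
    (Q : τ → Place k F) : tupleDiv (Sum.elim P Q) = tupleDiv P + tupleDiv Q := by
  simp [tupleDiv, Fintype.sum_sum_type]

theorem pc_sumElim (O : Place k F) {σ τ : Type*} [Fintype σ] [Fintype τ] (P : σ → Place k F)
    (Q : τ → Place k F) : pc O (Sum.elim P Q) = pc O P + pc O Q := by
  rw [pc, pc, pc, ← Pic0.mk_add]
  congr 1
  ext1
  simp only [AddSubgroup.coe_add, tupleDiv_sumElim, Fintype.card_sum, Nat.cast_add,
    Finsupp.single_add]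
  abel

theorem pc_eq_zero_iff (O : Place k F) {σ : Type*} [Fintype σ] (P : σ → Place k F) :
    pc O P = 0 ↔
      riemannRochSpace (Finsupp.single O (Fintype.card σ : ℤ) - tupleDiv P) ≠ ⊥ := by
  have hdeg : Divisor.degree (Finsupp.single O (Fintype.card σ : ℤ) - tupleDiv P) = 0 := by
    rw [map_sub, degree_tupleDiv, Divisor.degree_single, IsCurveOver.deg_eq_one_of_isAlgClosed]
    simp
  rw [show (0 : Pic0 k F) = Pic0.mk 0 from rfl, pc, pic0_mk_eq_mk_iff]
  simp only [ZeroMemClass.coe_zero, zero_sub, neg_sub]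
  constructor
  · rintro ⟨f, hf, h⟩ hbot
    have hmem : f⁻¹ ∈ riemannRochSpace (Finsupp.single O (Fintype.card σ : ℤ) - tupleDiv P) :=
      mem_rr_iff.mpr (Or.inr fun v => by rw [v.ord_inv, ← h v])
    rw [hbot, Submodule.mem_bot] at hmem
    exact inv_ne_zero hf hmem
  · intro hne
    obtain ⟨f, hfm, hf⟩ := Submodule.exists_mem_ne_zero_of_ne_bot hne
    obtain ⟨Z, hZ, hpos, hZdeg⟩ := exists_effective hfm hf
    rw [hdeg] at hZdeg
    refine ⟨f⁻¹, inv_ne_zero hf, fun v => ?_⟩
    have hz : Z v = 0 := by
      by_contra hv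
      have hle : Divisor.degree (Finsupp.single v (1 : ℤ)) ≤ Divisor.degree Z :=
        degree_mono IsCurveOver.forall_deg_eq_one_of_isAlgClosed fun w => by
          rcases eq_or_ne w v with rfl | hw
          · rw [Finsupp.single_eq_same]
            have := hpos w
            omega
          · rw [Finsupp.single_eq_of_ne hw]
            exact hpos w
      rw [hZdeg, Divisor.degree_single, IsCurveOver.deg_eq_one_of_isAlgClosed] at hle
      simp at hle
    rw [hZ] at hz
    rw [v.ord_inv]
    omega

/-- An effective divisor is the divisor of a tuple. -/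
theorem exists_tuple_of_effective {Z : Divisor k F} (hZ : ∀ v, 0 ≤ Z v) {d : ℕ}
    (hd : Divisor.degree Z = d) : ∃ P : Fin d → Place k F, tupleDiv P = Z := by
  classical
  induction d generalizing Z with
  | zero =>
    refine ⟨Fin.elim0, ?_⟩
    have hZ0 : Z = 0 := by
      by_contra hne
      obtain ⟨v, hv⟩ := Finsupp.support_nonempty_iff.mpr hne
      have hle : Divisor.degree (Finsupp.single v (1 : ℤ)) ≤ Divisor.degree Z :=
        degree_mono IsCurveOver.forall_deg_eq_one_of_isAlgClosed fun w => by
          rcases eq_or_ne w v with rfl | hw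
          · rw [Finsupp.single_eq_same]
            have := hZ w
            have := Finsupp.mem_support_iff.mp hv
            omega
          · rw [Finsupp.single_eq_of_ne hw]
            exact hZ w
      rw [hd, Divisor.degree_single, IsCurveOver.deg_eq_one_of_isAlgClosed] at hle
      simp at hle
    simp [tupleDiv, hZ0]
  | succ d ih =>
    obtain ⟨v, hv⟩ : Z.support.Nonempty := by
      rw [Finsupp.support_nonempty_iff]
      intro h0
      rw [h0, map_zero] at hd
      omega
    obtain ⟨P, hP⟩ := ih (Z := Z - Finsupp.single v 1) (fun w => by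
      rw [Finsupp.sub_apply]
      rcases eq_or_ne w v with rfl | hw
      · rw [Finsupp.single_eq_same]
        have := hZ w
        have := Finsupp.mem_support_iff.mp hv
        omega
      · rw [Finsupp.single_eq_of_ne hw, sub_zero]
        exact hZ w)
      (by rw [map_sub, hd, Divisor.degree_single, IsCurveOver.deg_eq_one_of_isAlgClosed]; simp)
    refine ⟨Fin.cons v P, ?_⟩
    rw [tupleDiv, Fin.sum_univ_succ]
    simp only [Fin.cons_zero, Fin.cons_succ]
    rw [show ∑ i, Finsupp.single (P i) (1 : ℤ) = tupleDiv P from rfl, hP]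
    abel

variable [HasLargeRR k F]

/-- Every class is represented by `g` places. -/
theorem exists_rep_genus (O : Place k F) (x : Pic0 k F) :
    ∃ P : Fin (rrGenus k F) → Place k F, pc O P = x := by
  obtain ⟨⟨D, hD⟩, rfl⟩ := Pic0.mk_surjective x
  have hdeg : Divisor.degree (D + Finsupp.single O (rrGenus k F : ℤ)) = rrGenus k F := by
    rw [map_add, Divisor.mem_degZero.mp hD, degree_single_one, zero_add]
  obtain ⟨f, hf, hf0⟩ := exists_ne_zero_mem hdeg.ge
  obtain ⟨Z, hZ, hpos, hZdeg⟩ := exists_effective hf hf0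
  obtain ⟨P, hP⟩ := exists_tuple_of_effective hpos (hZdeg.trans hdeg)
  refine ⟨P, pic0_mk_eq_mk_iff.mpr ⟨f⁻¹, inv_ne_zero hf0, fun v => ?_⟩⟩
  simp only [hP, Fintype.card_fin, Finsupp.sub_apply, hZ, Finsupp.add_apply, v.ord_inv]
  omega

/-- Every class is represented by `d ≥ 2g + 1` distinct places avoiding a finite set. -/
theorem exists_rep_reduced [CharZero k] [IsFunctionField k F] (O : Place k F) (d : ℕ)
    (hd : 2 * rrGenus k F + 1 ≤ d) (x : Pic0 k F) (S : Set (Place k F)) (hS : S.Finite) :
    ∃ P : Fin d → Place k F, Function.Injective P ∧ (∀ i, P i ∉ S) ∧ pc O P = x := by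
  classical
  obtain ⟨⟨D, hD⟩, rfl⟩ := Pic0.mk_surjective x
  have hdeg : Divisor.degree (D + Finsupp.single O (d : ℤ)) = d := by
    rw [map_add, Divisor.mem_degZero.mp hD, degree_single_one, zero_add]
  obtain ⟨f, Z, -, hf0, hZS, hcard, hdiv⟩ :=
    exists_reduced_member (D + Finsupp.single O (d : ℤ)) (by omega) S hS
  rw [hdeg, Nat.cast_inj] at hcard
  let e := (Z.equivFinOfCardEq hcard).symm
  refine ⟨fun i => (e i : Place k F), Subtype.val_injective.comp e.injective,
    fun i => hZS _ (e i).2, pic0_mk_eq_mk_iff.mpr ⟨f⁻¹, inv_ne_zero hf0, fun v => ?_⟩⟩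
  have hT : tupleDiv (fun i => (e i : Place k F)) = ∑ w ∈ Z, Finsupp.single w (1 : ℤ) := by
    rw [tupleDiv, Equiv.sum_comp e (fun w => Finsupp.single (w : Place k F) (1 : ℤ)),
      ← Finset.sum_coe_sort Z]
  simp only [hT, Fintype.card_fin, Finsupp.sub_apply, v.ord_inv]
  have := hdiv v
  rw [Finsupp.add_apply] at this
  omega

end FermatLib.AV.MW

end
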