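import Mathlib
import Fermat.Agent.AV.MW.Classes
import Fermat.Prelude.Def_AlgebraicCurve_BaseChangeGalois

/-!
# Semilinear automorphisms and evaluation

`evO O t n v` is evaluation on `L(n O)` normalised by the function `t`: off `O` it is the value,
at `O` it is the value of `f * t ^ n`.  It commutes with semilinear automorphisms fixing `O`, `t`.
-/

set_option autoImplicit false

noncomputable section

open AlgebraicCurve FermatLib.Curve

namespace FermatLib.AV.MW

variable {k F : Type*} [Field k] [Field F] [Algebra k F]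

theorem place_ext_ord {v w : Place k F} (h : ∀ f, v.ord f = w.ord f) : v = w := by
  refine Place.ext (SetLike.ext fun f => ?_)
  rw [mem_valuationSubring_iff, mem_valuationSubring_iff, mem_ordGE, mem_ordGE, h]

theorem smul_mem_ordGE (g : SemilinearAut k F) {v : Place k F} {n : ℤ} {f : F}
    (hf : f ∈ ordGE v n) : g • f ∈ ordGE (g • v) n := by
  rw [mem_ordGE] at hf ⊢
  exact hf.imp (fun h => by rw [h, smul_zero]) fun h => by rwa [SemilinearAut.ord_smul]

theorem smul_mem_rr (g : SemilinearAut k F) {D : Divisor k F} {f : F}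
    (hf : f ∈ riemannRochSpace D) : g • f ∈ riemannRochSpace (g • D) := by
  rw [FermatLib.Curve.mem_riemannRochSpace] at hf ⊢
  intro w
  have h := smul_mem_ordGE g (hf (g⁻¹ • w))
  rwa [smul_inv_smul, ← SemilinearAut.divisor_smul_apply] at h

theorem smul_single_of_fixed (g : SemilinearAut k F) {O : Place k F} (hO : g • O = O) (n : ℤ) :
    g • Finsupp.single O n = (Finsupp.single O n : Divisor k F) := by
  rw [SemilinearAut.smul_single, hO]

theorem smul_mem_rr_single (g : SemilinearAut k F) {O : Place k F} (hO : g • O = O) (n : ℤ)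
    {f : F} (hf : f ∈ riemannRochSpace (Finsupp.single O n)) :
    g • f ∈ riemannRochSpace (Finsupp.single O n) := by
  have h := smul_mem_rr g hf
  rwa [smul_single_of_fixed g hO] at h

variable [IsAlgClosed k] [IsCurveOver k F]

theorem lc_smul (g : SemilinearAut k F) {v : Place k F} {f : F} (hf : f ∈ ordGE v 0) :
    lc (g • v) 0 (g • f) = SemilinearAut.baseAut g (lc v 0 f) := by
  set c := lc v 0 f with hc
  have hcm : ∀ (w : Place k F) (b : k), algebraMap k F b ∈ ordGE w 0 := fun w b =>
    mem_ordGE_of_le (by simp)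
  have hsub : f - algebraMap k F c ∈ ordGE v 0 := sub_mem hf (hcm v c)
  have h0 : f - algebraMap k F c ∈ ordGE v (0 + 1) := by
    refine (lc_eq_zero_iff hsub).mp ?_
    have h := lc_add hsub (hcm v c)
    rw [sub_add_cancel, lc_algebraMap, ← hc] at h
    linear_combination -h
  have h1 := smul_mem_ordGE g h0
  rw [SemilinearAut.smul_def, map_sub, SemilinearAut.commutes, zero_add] at h1
  have hm := ordGE_anti (v := g • v) (zero_le_one (α := ℤ)) h1
  have h := lc_add hm (hcm (g • v) (SemilinearAut.baseAut g c))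
  rw [sub_add_cancel, (lc_eq_zero_iff hm).mpr (by simpa using h1), lc_algebraMap, zero_add] at h
  exact h

open scoped Classical in
/-- Evaluation on `L(n O)` normalised by `t`. -/
def evO (O : Place k F) (t : F) (n : ℕ) (v : Place k F) :
    ↥(riemannRochSpace (Finsupp.single O (n : ℤ))) →ₗ[k] k :=
  (if v = O then lc O 1 t else 1) ^ n • evL (Finsupp.single O (n : ℤ)) v

variable {O : Place k F} {t : F}

theorem evO_of_ne {n : ℕ} {v : Place k F} (hv : v ≠ O)
    (f : ↥(riemannRochSpace (Finsupp.single O (n : ℤ)))) :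
    evO O t n v f = lc v 0 (f : F) := by
  rw [evO, if_neg hv, one_pow, one_smul, evL_apply, Finsupp.single_eq_of_ne hv, neg_zero]

theorem mul_pow_mem_ordGE_zero (ht : t ∈ ordGE O 1) {n : ℕ} {f : F}
    (hf : f ∈ ordGE O (-(n : ℤ))) : f * t ^ n ∈ ordGE O 0 := by
  have h : ∀ m : ℕ, t ^ m ∈ ordGE O (m : ℤ) := fun m => by
    induction m with
    | zero => simpa using one_mem_ordGE
    | succ m ih => rw [pow_succ, Nat.cast_succ]; exact mul_mem_ordGE ih ht
  simpa using mul_mem_ordGE hf (h n)

theorem evO_self (ht : t ∈ ordGE O 1) {n : ℕ}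
    (f : ↥(riemannRochSpace (Finsupp.single O (n : ℤ)))) :
    evO O t n O f = lc O 0 ((f : F) * t ^ n) := by
  have hf : (f : F) ∈ ordGE O (-(n : ℤ)) := by
    simpa using (FermatLib.Curve.mem_riemannRochSpace.mp f.2) O
  have h := lc_prod O (Finset.univ : Finset (Fin n)) (fun _ => (1 : ℤ)) (fun _ => t)
    (fun _ _ => ht)
  simp only [Finset.sum_const, Finset.card_univ, Fintype.card_fin, nsmul_one,
    Finset.prod_const] at h
  have htn : t ^ n ∈ ordGE O (n : ℤ) := by
    have hpow : ∀ m : ℕ, t ^ m ∈ ordGE O (m : ℤ) := fun m => by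
      induction m with
      | zero => simpa using one_mem_ordGE
      | succ m ih => rw [pow_succ, Nat.cast_succ]; exact mul_mem_ordGE ih ht
    exact hpow n
  have h2 := lc_mul hf htn
  rw [neg_add_cancel] at h2
  rw [evO, if_pos rfl, LinearMap.smul_apply, smul_eq_mul, evL_apply, Finsupp.single_eq_same, h2,
    h, mul_comm]

theorem evO_eq_mul_evL (n : ℕ) (v : Place k F) (ht : t ∈ ordGE O 1) (ht1 : t ∉ ordGE O 2) :
    ∃ μ : k, μ ≠ 0 ∧ ∀ f, evO O t n v f = μ * evL (Finsupp.single O (n : ℤ)) v f := by
  classical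
  refine ⟨(if v = O then lc O 1 t else 1) ^ n, pow_ne_zero _ ?_, fun f => rfl⟩
  split_ifs
  · exact fun h => ht1 ((lc_eq_zero_iff ht).mp h)
  · exact one_ne_zero

/-- **Equivariance** of the normalised evaluation. -/
theorem evO_smul (g : SemilinearAut k F) (hO : g • O = O) (htg : g • t = t) (ht : t ∈ ordGE O 1)
    (n : ℕ) (v : Place k F) (f : ↥(riemannRochSpace (Finsupp.single O (n : ℤ)))) :
    evO O t n (g • v) ⟨g • (f : F), smul_mem_rr_single g hO n f.2⟩ =
      SemilinearAut.baseAut g (evO O t n v f) := by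
  have hf := FermatLib.Curve.mem_riemannRochSpace.mp f.2
  rcases eq_or_ne v O with rfl | hv
  · rw [hO, evO_self ht, evO_self ht]
    have hfO : (f : F) ∈ ordGE v (-(n : ℤ)) := by simpa using hf v
    conv_rhs => rw [← lc_smul g (mul_pow_mem_ordGE_zero ht hfO)]
    rw [hO, smul_mul', smul_pow', htg]
  · have hgv : g • v ≠ O := fun e => hv (smul_left_cancel g (e.trans hO.symm))
    rw [evO_of_ne hgv, evO_of_ne hv]
    refine lc_smul g ?_
    simpa [Finsupp.single_eq_of_ne hv] using hf v

theorem smul_tupleDiv (g : SemilinearAut k F) {σ : Type*} [Fintype σ] (P : σ → Place k F) :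
    g • tupleDiv P = tupleDiv (fun i => g • P i) := by
  simp [tupleDiv, Finset.smul_sum]

theorem smul_pc (g : SemilinearAut k F) (hO : g • O = O) {σ : Type*} [Fintype σ]
    (P : σ → Place k F) : g • pc O P = pc O (fun i => g • P i) := by
  rw [pc, pc, SemilinearAut.pic0_smul_mk]
  refine congrArg Pic0.mk (Subtype.ext ?_)
  rw [SemilinearAut.coe_degZeroSMulHom, smul_sub, smul_tupleDiv, smul_single_of_fixed g hO]

variable [HasLargeRR k F]

/-- Two places with proportional evaluation vectors coincide. -/
theorem eq_of_evL_proportional {D : Divisor k F} (hD : 2 * (rrGenus k F : ℤ) + 1 ≤ Divisor.degree D)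
    {ι : Type*} [Finite ι] (b : Module.Basis ι k ↥(riemannRochSpace D)) {v w : Place k F} {c : k}
    (h : ∀ i, evL D w (b i) = c * evL D v (b i)) : v = w := by
  by_contra hne
  obtain ⟨f, hf, hfw⟩ := exists_evL_separate hD hne
  apply hfw
  have : evL D w = c • evL D v := b.ext fun i => by simp [h i]
  rw [this, LinearMap.smul_apply, hf, smul_zero]

end FermatLib.AV.MW

end
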