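import Mathlib
import Fermat.Agent.AV.MW.Galois
import Fermat.Agent.Curve.RiemannRoch
import Fermat.Agent.Modular.PlaceBase
import Fermat.Agent.Igusa.OrderPlace
import Fermat.Prelude.Def_ModularCurve_ArithmeticGalois

/-!
# The curve `X₀(N)` over `ℚ̄` as input of the height machine

The cusp at infinity `cuspPl N`, the Galois action on places, the rational basis `cuspBasis N n`
of `L(n ∞)`, the rational function `cuspT N` of order one at `∞`, the equivariant evaluation
`cuspEv N n` and the openness of stabilisers of points and classes.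
-/

set_option autoImplicit false

noncomputable section

open AlgebraicCurve ModularCurve FermatLib.Curve

namespace FermatLib.AV.MW

local notation "Qb" => AlgebraicClosure ℚ
local notation "Γℚ" => (AlgebraicClosure ℚ ≃ₐ[ℚ] AlgebraicClosure ℚ)

variable (N : ℕ)

/-- The function field of `X₀(N)` over `ℚ̄`. -/
abbrev FX0 : IntermediateField Qb (LaurentSeries Qb) := modularFunctionFieldBar N

/-- The cusp at infinity. -/
def cuspPl : Place Qb (FX0 N) :=
  (FermatLib.Igusa.exists_isOrderPlace_baseChange Qb N).choose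

theorem cuspPl_ord (x : FX0 N) : (cuspPl N).ord x = (x : LaurentSeries Qb).order :=
  (FermatLib.Igusa.exists_isOrderPlace_baseChange Qb N).choose_spec x

section
variable [NeZero N]

instance isFunctionField_FX0 : IsFunctionField Qb (FX0 N) :=
  haveI := FermatLib.Modular.finiteDimensional_adjoin_jElem Qb N
  IsFunctionField.of_transcendental (FermatLib.Modular.transcendental_jElem Qb N)

instance isCurveOver_FX0 : IsCurveOver Qb (FX0 N) :=
  FermatLib.Modular.isCurveOver_modularFunctionFieldOver N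

instance hasLargeRR_FX0 : HasLargeRR Qb (FX0 N) where
  nonempty_place := ⟨cuspPl N⟩
  exists_genus := ⟨genusFF Qb (FX0 N), fun _ hD =>
    finrank_riemannRochSpace_of_lt_degree (by omega)⟩

end

/-- The Galois action on the function field. -/
def galAct (σ : Γℚ) : SemilinearAut Qb (FX0 N) :=
  arithmeticGalois (modularFunctionFieldFull N) σ

theorem baseAut_galAct (σ : Γℚ) (a : Qb) : SemilinearAut.baseAut (galAct N σ) a = σ a := rfl

theorem coeff_galAct_smul (σ : Γℚ) (x : FX0 N) (n : ℤ) :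
    ((galAct N σ • x : FX0 N) : LaurentSeries Qb).coeff n =
      σ ((x : LaurentSeries Qb).coeff n) := rfl

theorem smul_JZero (σ : Γℚ) (x : JZero N) : σ • x = galAct N σ • x := rfl

theorem order_galAct_smul (σ : Γℚ) (x : FX0 N) :
    ((galAct N σ • x : FX0 N) : LaurentSeries Qb).order = (x : LaurentSeries Qb).order := by
  rcases eq_or_ne x 0 with rfl | hx
  · rw [smul_zero]
  have hx' : (x : LaurentSeries Qb) ≠ 0 := by simpa using hx
  have h0 : ((galAct N σ • x : FX0 N) : LaurentSeries Qb) ≠ 0 := by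
    simpa [smul_eq_zero_iff_eq] using hx
  refine le_antisymm (HahnSeries.order_le_of_coeff_ne_zero ?_)
    (HahnSeries.order_le_of_coeff_ne_zero ?_)
  · rw [coeff_galAct_smul, map_ne_zero]
    exact mt HahnSeries.coeff_order_eq_zero.mp hx'
  · intro h
    have h' := mt HahnSeries.coeff_order_eq_zero.mp h0
    rw [coeff_galAct_smul, h, map_zero] at h'
    exact h' rfl

theorem galAct_cuspPl (σ : Γℚ) : galAct N σ • cuspPl N = cuspPl N := by
  refine place_ext_ord fun f => ?_
  have h := SemilinearAut.ord_smul (galAct N σ) (cuspPl N) ((galAct N σ)⁻¹ • f)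
  rw [smul_inv_smul] at h
  rw [h, cuspPl_ord, cuspPl_ord, ← order_galAct_smul N σ, smul_inv_smul]

theorem isAlgebraic_Qbar : Algebra.IsAlgebraic ℚ Qb := AlgebraicClosure.isAlgebraic ℚ

theorem isGalois_Qbar : IsGalois ℚ Qb :=
  have := isAlgebraic_Qbar
  have : IsAlgClosure ℚ Qb := ⟨inferInstance, inferInstance⟩
  have : Normal ℚ Qb := IsAlgClosure.normal ℚ Qb
  { }

theorem galAct_fixed {z : Qb} (h : ∀ σ : Γℚ, σ z = z) : ∃ q : ℚ, (q : Qb) = z := by
  have := isGalois_Qbar
  obtain ⟨q, hq⟩ := IntermediateField.mem_bot.mp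
    ((InfiniteGalois.mem_bot_iff_fixed z).mpr h)
  exact ⟨q, by simpa using hq⟩

variable [NeZero N]

/-- The space of functions with pole of order at most `n` at `∞`. -/
abbrev cuspL (n : ℕ) : Submodule Qb (FX0 N) :=
  riemannRochSpace (Finsupp.single (cuspPl N) (n : ℤ))

/-- A pole order attained in `L(n ∞)`. -/
def IsPoleOrder (n : ℕ) (m : Fin (n + 1)) : Prop :=
  ∃ f ∈ cuspL N n, f ≠ 0 ∧ (cuspPl N).ord f = -(m : ℤ)

open scoped Classical in
/-- The pole orders attained in `L(n ∞)`. -/
def poleSet (n : ℕ) : Finset (Fin (n + 1)) := Finset.univ.filter (IsPoleOrder N n)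

theorem coeff_smul_FX0 (c : Qb) (x : FX0 N) (n : ℤ) :
    ((c • x : FX0 N) : LaurentSeries Qb).coeff n = c * (x : LaurentSeries Qb).coeff n := by
  rw [Algebra.smul_def, MulMemClass.coe_mul]
  show (algebraMap Qb (LaurentSeries Qb) c * (x : LaurentSeries Qb)).coeff n = _
  rw [algebraMap_laurentSeries_eq_single, HahnSeries.coeff_single_zero_mul]

/-- The coefficients at the attained pole orders. -/
def poleCoeff (n : ℕ) : cuspL N n →ₗ[Qb] (poleSet N n → Qb) where
  toFun f m := ((f : FX0 N) : LaurentSeries Qb).coeff (-((m : Fin (n + 1)) : ℤ))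
  map_add' f g := funext fun m => by simp
  map_smul' c f := funext fun m => coeff_smul_FX0 N c f _

theorem exists_mem_poleSet {n : ℕ} {f : FX0 N} (hf : f ∈ cuspL N n) (hf0 : f ≠ 0) :
    ∃ m ∈ poleSet N n, (f : LaurentSeries Qb).order = -((m : Fin (n + 1)) : ℤ) := by
  classical
  have h1 := (mem_rr_iff.mp hf).resolve_left hf0
  have hO := h1 (cuspPl N)
  rw [Finsupp.single_eq_same] at hO
  have h2 : (cuspPl N).ord f ≤ 0 := by
    by_contra hpos
    have hb : riemannRochSpace
        (-Finsupp.single (cuspPl N) (1 : ℤ) : Divisor Qb (FX0 N)) = ⊥ :=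
      rr_eq_bot_of_neg (by rw [map_neg, degree_single_one]; omega)
    refine hf0 ((Submodule.mem_bot Qb).mp (hb ▸ mem_rr_iff.mpr (Or.inr fun v => ?_)))
    rw [Finsupp.neg_apply, neg_neg]
    rcases eq_or_ne v (cuspPl N) with rfl | hv
    · rw [Finsupp.single_eq_same]; omega
    · rw [Finsupp.single_eq_of_ne hv]
      have := h1 v
      rwa [Finsupp.single_eq_of_ne hv, neg_zero] at this
  refine ⟨⟨(-(cuspPl N).ord f).toNat, by omega⟩, Finset.mem_filter.mpr
    ⟨Finset.mem_univ _, f, hf, hf0, ?_⟩, ?_⟩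
  · show (cuspPl N).ord f = -(((-(cuspPl N).ord f).toNat : ℕ) : ℤ)
    omega
  · show (f : LaurentSeries Qb).order = -(((-(cuspPl N).ord f).toNat : ℕ) : ℤ)
    rw [← cuspPl_ord]
    omega

theorem poleCoeff_injective (n : ℕ) : Function.Injective (poleCoeff N n) := by
  rw [← LinearMap.ker_eq_bot, Submodule.eq_bot_iff]
  intro f hf
  by_contra h0
  have hf0 : (f : FX0 N) ≠ 0 := fun e => h0 (Subtype.ext e)
  obtain ⟨m, hm, hord⟩ := exists_mem_poleSet N f.2 hf0
  have h := congrFun (LinearMap.mem_ker.mp hf) ⟨m, hm⟩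
  have h' : ((f : FX0 N) : LaurentSeries Qb).coeff (-((m : Fin (n + 1)) : ℤ)) = 0 := h
  rw [← hord] at h'
  exact hf0 (Subtype.ext (HahnSeries.coeff_order_eq_zero.mp h'))

theorem poleCoeff_surjective (n : ℕ) : Function.Surjective (poleCoeff N n) := by
  classical
  rw [← LinearMap.range_eq_top, eq_top_iff, ← (Pi.basisFun Qb (poleSet N n)).span_eq,
    Submodule.span_le]
  rintro _ ⟨m, rfl⟩
  rw [Pi.basisFun_apply]
  suffices h : ∀ d : ℕ, ∀ m : poleSet N n, ((m : Fin (n + 1)) : ℕ) < d →
      (Pi.single m 1 : poleSet N n → Qb) ∈ LinearMap.range (poleCoeff N n) from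
    h _ m (Nat.lt_succ_self _)
  intro d
  induction d with
  | zero => exact fun m hm => absurd hm (Nat.not_lt_zero _)
  | succ d ih =>
    intro m hm
    obtain ⟨f, hf, hf0, hord⟩ := (Finset.mem_filter.mp m.2).2
    have hne : poleCoeff N n ⟨f, hf⟩ m ≠ 0 := by
      show ((f : FX0 N) : LaurentSeries Qb).coeff _ ≠ 0
      rw [← hord, cuspPl_ord]
      exact mt HahnSeries.coeff_order_eq_zero.mp (by simpa using hf0)
    have hdec : poleCoeff N n ⟨f, hf⟩ - ∑ m' ∈ Finset.univ.erase m,
        poleCoeff N n ⟨f, hf⟩ m' • (Pi.single m' 1 : poleSet N n → Qb) =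
        poleCoeff N n ⟨f, hf⟩ m • (Pi.single m 1 : poleSet N n → Qb) := by
      rw [sub_eq_iff_eq_add, Finset.add_sum_erase _ (fun m' => poleCoeff N n ⟨f, hf⟩ m' •
        (Pi.single m' 1 : poleSet N n → Qb)) (Finset.mem_univ m)]
      funext j
      simp [Finset.sum_apply, Pi.single_apply]
    refine (Submodule.smul_mem_iff _ hne).mp ?_
    rw [← hdec]
    refine Submodule.sub_mem _ (LinearMap.mem_range_self _ _) (Submodule.sum_mem _ fun m' hm' => ?_)
    by_cases hlt : ((m' : Fin (n + 1)) : ℕ) < ((m : Fin (n + 1)) : ℕ)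
    · exact Submodule.smul_mem _ _ (ih m' (by omega))
    · have hz : poleCoeff N n ⟨f, hf⟩ m' = 0 := by
        refine HahnSeries.coeff_eq_zero_of_lt_order ?_
        rw [← cuspPl_ord, hord]
        have : ((m' : Fin (n + 1)) : ℕ) ≠ ((m : Fin (n + 1)) : ℕ) := fun e =>
          (Finset.mem_erase.mp hm').1 (Subtype.ext (Fin.ext e))
        omega
      rw [hz, zero_smul]
      exact Submodule.zero_mem _

/-- Coordinates in the attained pole orders. -/
def poleEquiv (n : ℕ) : cuspL N n ≃ₗ[Qb] (poleSet N n → Qb) :=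
  LinearEquiv.ofBijective (poleCoeff N n) ⟨poleCoeff_injective N n, poleCoeff_surjective N n⟩

/-- `dim L(n ∞)`. -/
def cuspDim (n : ℕ) : ℕ := (poleSet N n).card

/-- The rational basis of `L(n ∞)`. -/
def cuspBasis (n : ℕ) : Module.Basis (Fin (cuspDim N n)) Qb (cuspL N n) :=
  (Module.Basis.ofEquivFun (poleEquiv N n)).reindex (poleSet N n).equivFin

theorem galAct_cuspBasis (σ : Γℚ) (n : ℕ) (a : Fin (cuspDim N n)) :
    galAct N σ • (cuspBasis N n a : FX0 N) = cuspBasis N n a := by
  classical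
  set f := cuspBasis N n a
  have h : (⟨galAct N σ • (f : FX0 N), smul_mem_rr_single _ (galAct_cuspPl N σ) _ f.2⟩ :
      cuspL N n) = f := by
    refine poleCoeff_injective N n (funext fun m => ?_)
    have hv : poleCoeff N n f m = if (poleSet N n).equivFin m = a then 1 else 0 := by
      have : poleCoeff N n f = poleEquiv N n f := rfl
      rw [this]
      simp only [f, cuspBasis, Module.Basis.reindex_apply, Module.Basis.coe_ofEquivFun,
        LinearEquiv.apply_symm_apply, Pi.single_apply, Equiv.eq_symm_apply]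
      split_ifs <;> first | rfl | contradiction
    show ((galAct N σ • (f : FX0 N) : FX0 N) : LaurentSeries Qb).coeff _ = _
    rw [coeff_galAct_smul]
    change σ (poleCoeff N n f m) = poleCoeff N n f m
    rw [hv]
    split_ifs <;> simp
  exact congrArg Subtype.val h

theorem exists_fixed_ord_eq (n : ℕ) (hn : 2 * rrGenus Qb (FX0 N) ≤ n) :
    ∃ f : FX0 N, f ≠ 0 ∧ (∀ σ, galAct N σ • f = f) ∧ (cuspPl N).ord f = -(n : ℤ) := by
  obtain ⟨a, ha⟩ : ∃ a, evL (Finsupp.single (cuspPl N) (n : ℤ)) (cuspPl N) (cuspBasis N n a) ≠ 0 := by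
    by_contra h
    push Not at h
    refine evL_ne_zero (D := Finsupp.single (cuspPl N) (n : ℤ)) (by
      rw [degree_single_one]; omega) (cuspPl N) ((cuspBasis N n).ext fun a => ?_)
    simpa using h a
  have hf0 : (cuspBasis N n a : FX0 N) ≠ 0 := fun e => ha (by
    rw [show cuspBasis N n a = 0 from Subtype.ext e, map_zero])
  refine ⟨_, hf0, fun σ => galAct_cuspBasis N σ n a, ?_⟩
  have hf := (FermatLib.Curve.mem_riemannRochSpace.mp (cuspBasis N n a).2) (cuspPl N)
  rw [evL_apply] at ha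
  have h1 := mt (lc_eq_zero_iff hf).mpr ha
  rw [Finsupp.single_eq_same] at hf h1
  rw [mem_ordGE_of_ne_zero hf0] at hf h1
  omega

theorem exists_cuspT : ∃ t : FX0 N, (∀ σ, galAct N σ • t = t) ∧ (cuspPl N).ord t = 1 := by
  obtain ⟨f, hf0, hf, hford⟩ := exists_fixed_ord_eq N (2 * rrGenus Qb (FX0 N)) le_rfl
  obtain ⟨h, hh0, hh, hhord⟩ := exists_fixed_ord_eq N (2 * rrGenus Qb (FX0 N) + 1) (by omega)
  refine ⟨f / h, fun σ => ?_, ?_⟩
  · rw [SemilinearAut.smul_def, map_div₀, ← SemilinearAut.smul_def, ← SemilinearAut.smul_def,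
      hf σ, hh σ]
  · rw [FermatLib.Curve.ord_div _ hf0 hh0, hford, hhord]
    omega

/-- A rational function of order one at `∞`. -/
def cuspT : FX0 N := (exists_cuspT N).choose

theorem galAct_cuspT (σ : Γℚ) : galAct N σ • cuspT N = cuspT N := (exists_cuspT N).choose_spec.1 σ

theorem cuspT_mem : cuspT N ∈ ordGE (cuspPl N) 1 :=
  mem_ordGE_of_le (exists_cuspT N).choose_spec.2.ge

theorem cuspT_not_mem : cuspT N ∉ ordGE (cuspPl N) 2 := by
  have h := (exists_cuspT N).choose_spec.2
  have h0 : cuspT N ≠ 0 := fun e => by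
    rw [show (exists_cuspT N).choose = cuspT N from rfl, e, Place.ord_zero] at h
    exact zero_ne_one h
  rw [mem_ordGE_of_ne_zero h0]
  change (cuspPl N).ord (cuspT N) = 1 at h
  omega

/-- Coordinates of the point `v` in the rational basis of `L(n ∞)`. -/
def cuspEv (n : ℕ) (v : Place Qb (FX0 N)) : Fin (cuspDim N n) → Qb :=
  fun a => evO (cuspPl N) (cuspT N) n v (cuspBasis N n a)

theorem cuspEv_galAct (σ : Γℚ) (n : ℕ) (v : Place Qb (FX0 N)) (a : Fin (cuspDim N n)) :
    cuspEv N n (galAct N σ • v) a = σ (cuspEv N n v a) := by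
  have h := evO_smul (galAct N σ) (galAct_cuspPl N σ) (galAct_cuspT N σ) (cuspT_mem N) n v
    (cuspBasis N n a)
  rw [baseAut_galAct] at h
  rw [cuspEv, cuspEv, ← h]
  congr 1
  exact Subtype.ext (galAct_cuspBasis N σ n a).symm

theorem cuspEv_injective {n : ℕ} (hn : 2 * rrGenus Qb (FX0 N) + 1 ≤ n)
    {v w : Place Qb (FX0 N)} (h : cuspEv N n v = cuspEv N n w) : v = w := by
  obtain ⟨μ, hμ, he⟩ := evO_eq_mul_evL n v (cuspT_mem N) (cuspT_not_mem N)
  obtain ⟨μ', hμ', he'⟩ := evO_eq_mul_evL n w (cuspT_mem N) (cuspT_not_mem N)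
  refine eq_of_evL_proportional (D := Finsupp.single (cuspPl N) (n : ℤ))
    (by rw [degree_single_one]; omega) (cuspBasis N n) (c := μ'⁻¹ * μ) fun a => ?_
  have h1 : μ * evL _ v (cuspBasis N n a) = μ' * evL _ w (cuspBasis N n a) := by
    rw [← he, ← he']
    exact congrFun h a
  rw [mul_assoc, h1, ← mul_assoc, inv_mul_cancel₀ hμ', one_mul]

/-- Points have open stabiliser. -/
theorem exists_open_fix_place (v : Place Qb (FX0 N)) :
    ∃ E : IntermediateField ℚ Qb, FiniteDimensional ℚ E ∧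
      ∀ σ ∈ E.fixingSubgroup, galAct N σ • v = v := by
  set n := 2 * rrGenus Qb (FX0 N) + 1
  have := isAlgebraic_Qbar
  refine ⟨IntermediateField.adjoin ℚ (Set.range (cuspEv N n v)),
    IntermediateField.finiteDimensional_adjoin fun x _ =>
      (Algebra.IsAlgebraic.isAlgebraic x).isIntegral, fun σ hσ => ?_⟩
  refine cuspEv_injective N (n := n) le_rfl (funext fun a => ?_)
  rw [cuspEv_galAct]
  exact (IntermediateField.mem_fixingSubgroup_iff _ σ).mp hσ _
    (IntermediateField.subset_adjoin ℚ _ ⟨a, rfl⟩)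

/-- Classes have open stabiliser. -/
theorem exists_open_fix_class (x : JZero N) :
    ∃ E : IntermediateField ℚ Qb, FiniteDimensional ℚ E ∧
      ∀ σ ∈ E.fixingSubgroup, σ • x = x := by
  classical
  obtain ⟨P, hP⟩ := exists_rep_genus (cuspPl N) x
  choose E hE hfix using fun i => exists_open_fix_place N (P i)
  haveI := hE
  refine ⟨⨆ i, E i, IntermediateField.finiteDimensional_iSup_of_finite, fun σ hσ => ?_⟩
  rw [smul_JZero, ← hP, smul_pc _ (galAct_cuspPl N σ)]
  congr 1
  funext i
  exact hfix i σ (IntermediateField.fixingSubgroup_antitone (le_iSup E i) hσ)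

theorem isOpen_stabilizer (x : JZero N) :
    IsOpen (MulAction.stabilizer Γℚ x : Set Γℚ) := by
  obtain ⟨E, hE, hfix⟩ := exists_open_fix_class N x
  haveI := hE
  exact Subgroup.isOpen_mono (H₁ := E.fixingSubgroup)
    (fun σ hσ => MulAction.mem_stabilizer_iff.mpr (hfix σ hσ)) E.fixingSubgroup_isOpen

end FermatLib.AV.MW

end
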