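import Mathlib
import Fermat.Agent.AV.MW.Sections

/-!
# `L(D₀ - ∑ P i) ≠ 0` is a closed condition on tuples of places

`exists_degeneracy_forms_id`: multihomogeneous forms vanishing simultaneously at a tuple exactly
when some nonzero section of `D₀` vanishes on the divisor of the tuple.
-/

set_option autoImplicit false

noncomputable section

open AlgebraicCurve FermatLib.Curve MvPolynomial

namespace FermatLib.AV.MW

/-- Linearly independent vectors have a nonvanishing maximal minor. -/
theorem exists_minor_ne_zero {K ι J : Type*} [Field K] [Fintype ι] [DecidableEq ι] [Finite J]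
    (M : ι → J → K) (h : LinearIndependent K M) :
    ∃ π : ι → J, (Matrix.of fun a b => M a (π b)).det ≠ 0 := by
  obtain ⟨_⟩ := nonempty_fintype J
  let col : J → (ι → K) := fun j a => M a j
  have hspan : Submodule.span K (Set.range col) = ⊤ := by
    by_contra hne
    obtain ⟨φ, hφ0, hφ⟩ := Submodule.exists_dual_map_eq_bot_of_lt_top (lt_of_le_of_ne le_top hne)
      inferInstance
    have hker : ∀ j, φ (col j) = 0 := fun j => by
      have : φ (col j) ∈ Submodule.map φ (Submodule.span K (Set.range col)) :=
        ⟨_, Submodule.subset_span ⟨j, rfl⟩, rfl⟩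
      rwa [hφ, Submodule.mem_bot] at this
    classical
    refine hφ0 (LinearMap.pi_ext fun a c => ?_)
    have h0 : ∑ b, φ (Pi.single b 1) • M b = 0 := by
      funext j
      simp only [Finset.sum_apply, Pi.smul_apply, smul_eq_mul, Pi.zero_apply]
      rw [← hker j]
      conv_rhs => rw [show col j = ∑ b, M b j • (Pi.single b (1 : K) : ι → K) from by
        funext x; simp [col, Finset.sum_apply, Pi.single_apply]]
      simp only [map_sum, map_smul, smul_eq_mul]
      exact Finset.sum_congr rfl fun b _ => mul_comm _ _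
    have := Fintype.linearIndependent_iff.mp h (fun b => φ (Pi.single b 1)) h0 a
    rw [show (Pi.single a c : ι → K) = c • Pi.single a 1 by
      funext x; simp [Pi.single_apply], map_smul, this, smul_zero]
    rfl
  obtain ⟨κ, e, -, hsp, hli⟩ := exists_linearIndependent' K col
  have hfin : Module.finrank K (ι → K) = Fintype.card ι := Module.finrank_fintype_fun_eq_card K
  haveI : Finite κ := Finite.of_injective e hli.injective.of_comp
  haveI := Fintype.ofFinite κ
  have hcard : Fintype.card κ = Fintype.card ι := by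
    rw [← hfin, ← Module.finrank_eq_card_basis (Module.Basis.mk hli (by rw [hsp, hspan]))]
  let eq := Fintype.equivOfCardEq hcard.symm
  refine ⟨e ∘ eq, ?_⟩
  have hli' : LinearIndependent K fun b : ι => fun a => M a (e (eq b)) := hli.comp eq eq.injective
  intro hdet
  have := Matrix.linearIndependent_cols_iff_isUnit
    (A := Matrix.of fun a b => M a (e (eq b))) |>.mp hli'
  rw [Matrix.isUnit_iff_isUnit_det] at this
  exact this.ne_zero hdet

theorem linearIndependent_of_minor_ne_zero {K ι J : Type*} [Field K] [Fintype ι] [DecidableEq ι]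
    (M : ι → J → K) (π : ι → J) (h : (Matrix.of fun a b => M a (π b)).det ≠ 0) :
    LinearIndependent K M := by
  have h1 : LinearIndependent K (Matrix.of fun a b => M a (π b)).row :=
    Matrix.linearIndependent_rows_iff_isUnit.mpr
      (by rw [Matrix.isUnit_iff_isUnit_det]; exact h.isUnit)
  exact LinearIndependent.of_comp (LinearMap.funLeft K K π) h1

section LinearAlgebra

variable {K V W ι₀ ιN PI : Type*} [Field K] [AddCommGroup V] [Module K V] [AddCommGroup W]
  [Module K W] [Fintype ι₀] [DecidableEq ι₀] [Fintype ιN] [Fintype PI]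
  (T : Fin 2 → V →ₗ[K] W) (v : PI → W) (s₀ : Module.Basis ι₀ K V) (sN : Module.Basis ιN K W)

/-- The rows whose independence says that no nonzero `h` has `T m h ∈ span (range v)`. -/
def minorEntry {r : ℕ} (ρ : Fin 2 → Fin r → PI) :
    ι₀ ⊕ (Fin 2 × Fin r) → Fin 2 × ιN → K :=
  Sum.elim (fun l j => sN.repr (T j.1 (s₀ l)) j.2)
    (fun mi j => if mi.1 = j.1 then sN.repr (v (ρ mi.1 mi.2)) j.2 else 0)

theorem exists_minor_iff (S : Submodule K W) (hspan : Submodule.span K (Set.range v) = S) {r : ℕ}
    (hr : Module.finrank K S = r) :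
    (∃ q : (Fin 2 → Fin r → PI) × (ι₀ ⊕ (Fin 2 × Fin r) → Fin 2 × ιN),
      (Matrix.of fun a b => minorEntry T v s₀ sN q.1 a (q.2 b)).det ≠ 0) ↔
    ∀ h : V, (∀ m, T m h ∈ S) → h = 0 := by
  classical
  have : Module.Finite K W := Module.Finite.of_basis sN
  have hrel : ∀ ρ (w : ι₀ ⊕ (Fin 2 × Fin r) → K), (∑ x, w x • minorEntry T v s₀ sN ρ x = 0) ↔
      ∀ m : Fin 2, T m (∑ l, w (Sum.inl l) • s₀ l) + ∑ i, w (Sum.inr (m, i)) • v (ρ m i) = 0 := by
    intro ρ w
    have hval : ∀ m j, (∑ x, w x • minorEntry T v s₀ sN ρ x) (m, j) = sN.repr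
        (T m (∑ l, w (Sum.inl l) • s₀ l) + ∑ i, w (Sum.inr (m, i)) • v (ρ m i)) j := fun m j => by
      simp only [Finset.sum_apply, Pi.smul_apply, smul_eq_mul, Fintype.sum_sum_type,
        Fintype.sum_prod_type, minorEntry, Sum.elim_inl, Sum.elim_inr, map_add, map_sum, map_smul,
        Finsupp.add_apply, Finsupp.coe_finsetSum, Finsupp.smul_apply]
      simp
    constructor
    · intro h m
      exact sN.ext_elem fun j => by rw [← hval, h]; simp
    · intro h
      funext ⟨m, j⟩
      rw [hval, h m]
      simp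
  constructor
  · rintro ⟨⟨ρ, π⟩, hq⟩ h hh
    have hli := linearIndependent_of_minor_ne_zero _ π hq
    have hρ : ∀ m, LinearIndependent K fun i => v (ρ m i) := fun m => by
      rw [Fintype.linearIndependent_iff]
      intro g hg i
      have h0 := Fintype.linearIndependent_iff.mp hli
        (Sum.elim 0 fun mi => if mi.1 = m then g mi.2 else 0) ((hrel ρ _).mpr fun m' => ?_)
        (Sum.inr (m, i))
      · simpa using h0
      · rcases eq_or_ne m' m with rfl | hne
        · simpa using hg
        · simp [hne]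
    have hfull : ∀ m, Submodule.span K (Set.range fun i => v (ρ m i)) = S := fun m => by
      refine Submodule.eq_of_le_of_finrank_eq ?_ ?_
      · rw [← hspan]
        exact Submodule.span_mono (Set.range_subset_iff.mpr fun i => ⟨ρ m i, rfl⟩)
      · rw [finrank_span_eq_card (hρ m), Fintype.card_fin, hr]
    choose c hc using fun m => Submodule.mem_span_range_iff_exists_fun K |>.mp
      ((hfull m).symm ▸ hh m)
    have h0 := Fintype.linearIndependent_iff.mp hli
      (Sum.elim (fun l => s₀.repr h l) fun mi => -c mi.1 mi.2) ((hrel ρ _).mpr fun m => ?_)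
    · rw [← s₀.sum_repr h]
      exact Finset.sum_eq_zero fun l _ => by
        rw [show s₀.repr h l = 0 from h0 (Sum.inl l), zero_smul]
    · simp only [Sum.elim_inl, Sum.elim_inr, s₀.sum_repr, neg_smul, Finset.sum_neg_distrib, hc m,
        add_neg_cancel]
  · intro hbot
    obtain ⟨e, he⟩ : ∃ e : Fin r → PI, LinearIndependent K fun i => v (e i) := by
      obtain ⟨κ', e', -, hs', hl'⟩ := exists_linearIndependent' K v
      have : Finite κ' := Finite.of_injective e' hl'.injective.of_comp
      have := Fintype.ofFinite κ'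
      have hcard : Fintype.card κ' = r := by
        rw [← hr, ← hspan, ← hs', finrank_span_eq_card hl']
      let eq := Fintype.equivFinOfCardEq hcard
      exact ⟨e' ∘ eq.symm, hl'.comp _ eq.symm.injective⟩
    have hli : LinearIndependent K (minorEntry T v s₀ sN fun _ => e) := by
      rw [Fintype.linearIndependent_iff]
      intro w hw
      have hw' := (hrel _ w).mp hw
      have hz : ∑ l, w (Sum.inl l) • s₀ l = 0 := hbot _ fun m => by
        rw [eq_neg_of_add_eq_zero_left (hw' m), ← hspan]
        exact Submodule.neg_mem _ (Submodule.sum_mem _ fun i _ => Submodule.smul_mem _ _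
          (Submodule.subset_span ⟨_, rfl⟩))
      rintro (l | ⟨m, i⟩)
      · exact Fintype.linearIndependent_iff.mp s₀.linearIndependent _ hz l
      · refine Fintype.linearIndependent_iff.mp he (fun i => w (Sum.inr (m, i))) ?_ i
        simpa [hz] using hw' m
    obtain ⟨π, hπ⟩ := exists_minor_ne_zero _ hli
    exact ⟨(fun _ => e, π), hπ⟩

end LinearAlgebra

variable {k F : Type*} [Field k] [Field F] [Algebra k F] [IsAlgClosed k] [IsCurveOver k F]
  [HasLargeRR k F]
variable {σ : Type} [Fintype σ] [DecidableEq σ]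

theorem mem_sub_tuple_iff {C D₀ N : Divisor k F} (hN : N = C + D₀)
    (u : Fin 2 → ↥(riemannRochSpace C)) (hu : ∀ v, evL C v (u 0) ≠ 0 ∨ evL C v (u 1) ≠ 0)
    (P : σ → Place k F) {h : F} (hh : h ∈ riemannRochSpace D₀) :
    h ∈ riemannRochSpace (D₀ - tupleDiv P) ↔
      ∀ m, (u m : F) * h ∈ riemannRochSpace (N - tupleDiv P) := by
  constructor
  · intro h' m
    rw [hN, add_sub_assoc]
    exact mul_mem_rr (u m).2 h'
  · intro hm
    rcases eq_or_ne h 0 with rfl | h0
    · exact zero_mem _
    refine mem_rr_iff.mpr (Or.inr fun v => ?_)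
    obtain ⟨m, hev⟩ : ∃ m, evL C v (u m) ≠ 0 := by
      rcases hu v with h1 | h1
      exacts [⟨0, h1⟩, ⟨1, h1⟩]
    have hu0 : (u m : F) ≠ 0 := fun e => hev (by
      rw [show u m = 0 from Subtype.ext e, map_zero])
    have h1 := (mem_rr_iff.mp (hm m)).resolve_left (mul_ne_zero hu0 h0) v
    have h2 := (mem_rr_iff.mp (u m).2).resolve_left hu0 v
    rw [evL_apply, Ne, lc_eq_zero_iff ((FermatLib.Curve.mem_riemannRochSpace.mp (u m).2) v),
      mem_ordGE_of_ne_zero hu0] at hev
    rw [v.ord_mul hu0 h0, hN, Finsupp.sub_apply, Finsupp.add_apply] at h1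
    rw [Finsupp.sub_apply]
    omega

variable {A : Divisor k F} {ιA : Type} [Fintype ιA] [DecidableEq ιA]
  (sA : Module.Basis ιA k ↥(riemannRochSpace A))

omit [DecidableEq σ] in
theorem finrank_sub_tuple (N : Divisor k F) (P : σ → Place k F)
    (hN : 2 * (rrGenus k F : ℤ) - 1 ≤ Divisor.degree N - Fintype.card σ) :
    (Module.finrank k (riemannRochSpace (N - tupleDiv P)) : ℤ) =
      Divisor.degree N - Fintype.card σ + 1 - rrGenus k F := by
  have hd : Divisor.degree (N - tupleDiv P) = Divisor.degree N - Fintype.card σ := by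
    rw [map_sub, degree_tupleDiv]
  rw [finrank_rr (hd ▸ hN), hd]

/-- Degeneracy forms for an arbitrary tuple. -/
theorem exists_degeneracy_forms_id [Infinite k]
    (hA : 2 * (rrGenus k F : ℤ) + 1 ≤ Divisor.degree A) (D₀ : Divisor k F) :
    ∃ (κ : Type) (_ : Fintype κ) (ψ : κ → MvPolynomial (Σ _ : σ, ιA) k) (r : κ → σ → ℕ),
      (∀ q, IsMultiHom (ψ q) (r q)) ∧
        ∀ P : σ → Place k F,
          (∃ q, eval (ptsC sA P) (ψ q) ≠ 0) ↔ riemannRochSpace (D₀ - tupleDiv P) = ⊥ := by
  classical
  obtain ⟨O⟩ := HasLargeRR.nonempty_place (k := k) (F := F)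
  set c : ℕ := ((Fintype.card σ + 1 : ℤ) * Divisor.degree A + 2 * rrGenus k F + Fintype.card σ
    - min (Divisor.degree D₀) 0).toNat with hc
  set C : Divisor k F := Finsupp.single O (c : ℤ)
  set N : Divisor k F := C + D₀ with hNC
  set B : Divisor k F := N - Fintype.card σ • A with hBdef
  have hN : N = Fintype.card σ • A + B := by rw [hBdef]; abel
  have hA0 : 0 ≤ Divisor.degree A := by omega
  have hσ0 : (0 : ℤ) ≤ (Fintype.card σ : ℤ) * Divisor.degree A := by positivity
  have hcc : (Fintype.card σ + 1 : ℤ) * Divisor.degree A + 2 * rrGenus k F + Fintype.card σ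
      - min (Divisor.degree D₀) 0 ≤ (c : ℤ) := Int.self_le_toNat _
  rw [add_one_mul] at hcc
  have hCd : Divisor.degree C = c := degree_single_one O _
  have hNd : Divisor.degree N = c + Divisor.degree D₀ := by rw [map_add, hCd]
  have hBd : Divisor.degree B = Divisor.degree N - Fintype.card σ * Divisor.degree A := by
    rw [hBdef, map_sub, map_nsmul, nsmul_eq_mul]
  haveI := finite_rr N
  haveI := finite_rr B
  haveI := finite_rr D₀
  let sB := Module.finBasis k (riemannRochSpace B)
  let sN := Module.finBasis k (riemannRochSpace N)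
  let s0 := Module.finBasis k (riemannRochSpace D₀)
  obtain ⟨u0, -, u1, -, -, hu⟩ := exists_pencil (A := C) (W := ⊤) fun v => by
    obtain ⟨f, hf⟩ := exists_evL_ne_zero (D := C) (by omega) v
    exact ⟨f, trivial, hf⟩
  let u : Fin 2 → ↥(riemannRochSpace C) := ![u0, u1]
  set r : ℕ := (Divisor.degree N - Fintype.card σ + 1 - rrGenus k F).toNat
  have hr : ∀ P : σ → Place k F,
      Module.finrank k (riemannRochSpace (N - tupleDiv P)) = r := fun P => by
    have := finrank_sub_tuple N P (by omega)
    omega
  let PI := PsiIx σ ιA (Fin (Module.finrank k (riemannRochSpace B)))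
  let J := Fin 2 × Fin (Module.finrank k (riemannRochSpace N))
  let Row := Fin (Module.finrank k (riemannRochSpace D₀)) ⊕ (Fin 2 × Fin r)
  let ent : (Fin 2 → Fin r → PI) → Row → J → MvPolynomial (Σ _ : σ, ιA) k := fun ρ x j =>
    match x with
    | Sum.inl l => MvPolynomial.C
        (sN.repr ⟨(u j.1 : F) * s0 l, mul_mem_rr (u j.1).2 (s0 l).2⟩ j.2)
    | Sum.inr mi => if mi.1 = j.1 then psiCoord sA sB sN (ρ mi.1 mi.2) j.2 else 0
  let deg : Row → σ → ℕ := Sum.elim (fun _ => 0) (fun _ => 1)
  refine ⟨(Fin 2 → Fin r → PI) × (Row → J), inferInstance,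
    fun q => (Matrix.of fun a b => ent q.1 a (q.2 b)).det, fun _ => ∑ a, deg a, fun q => ?_,
    fun P => ?_⟩
  · have hent : ∀ a j, (ent q.1 a j).IsWeightedHomogeneous (multiWeight fun _ : σ => ιA)
        (deg a) := by
      rintro (l | mi) j
      · exact isWeightedHomogeneous_C _ _
      · simp only [ent, deg, Sum.elim_inr]
        split_ifs
        · exact psiCoord_isMultiHom sA sB sN _ _
        · exact isWeightedHomogeneous_zero _ _ _
    show IsWeightedHomogeneous (multiWeight fun _ : σ => ιA)
      (Matrix.of fun a b => ent q.1 a (q.2 b)).det (∑ a, deg a)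
    rw [Matrix.det_apply]
    refine IsWeightedHomogeneous.sum _ _ _ fun g _ => ?_
    rw [← mem_weightedHomogeneousSubmodule]
    refine Submodule.smul_of_tower_mem _ _ ?_
    rw [mem_weightedHomogeneousSubmodule, ← Equiv.sum_comp g deg]
    exact IsWeightedHomogeneous.prod _ _ _ fun a _ => hent _ _
  have hψ : ∀ β, ∃ h : psiVal sA sB P β ∈ riemannRochSpace N, ∀ j,
      eval (ptsC sA P) (psiCoord sA sB sN β j) = sN.repr ⟨_, h⟩ j := psiVal_mem sA sB sN hN P
  have hsp : Submodule.span k (Set.range (psiVal sA sB P)) =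
      riemannRochSpace (N - tupleDiv P) := span_psiVal sA sB hA (by omega) hN P
  let vN : PI → ↥(riemannRochSpace N) := fun β => ⟨psiVal sA sB P β, (hψ β).choose⟩
  let T : Fin 2 → ↥(riemannRochSpace D₀) →ₗ[k] ↥(riemannRochSpace N) := fun m =>
    LinearMap.codRestrict _ (LinearMap.mulLeft k (u m : F) ∘ₗ (riemannRochSpace D₀).subtype)
      fun h => mul_mem_rr (u m).2 h.2
  set S : Submodule k ↥(riemannRochSpace N) :=
    (riemannRochSpace (N - tupleDiv P)).comap (riemannRochSpace N).subtype with hS
  have hle : riemannRochSpace (N - tupleDiv P) ≤ riemannRochSpace N := rr_mono fun v => by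
    rw [Finsupp.sub_apply]; linarith [tupleDiv_nonneg P v]
  have hspan : Submodule.span k (Set.range vN) = S := by
    refine Submodule.map_injective_of_injective (riemannRochSpace N).injective_subtype ?_
    rw [Submodule.map_span, hS, Submodule.map_comap_subtype, inf_eq_right.mpr hle, ← hsp,
      ← Set.range_comp]
    rfl
  have hSr : Module.finrank k S = r := by
    rw [← hr P]
    exact (Submodule.comapSubtypeEquivOfLe hle).finrank_eq
  have key := exists_minor_iff T vN s0 sN S hspan hSr
  refine (exists_congr fun q => ?_).trans (key.trans ⟨fun h => ?_, fun h x hx => ?_⟩)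
  · rw [RingHom.map_det]
    refine not_congr (Iff.of_eq (congrArg (fun M => Matrix.det M = 0) ?_))
    ext x y
    simp only [RingHom.mapMatrix_apply, Matrix.map_apply, Matrix.of_apply]
    rcases x with l | ⟨m, i⟩
    · exact eval_C _
    · simp only [ent, minorEntry, Sum.elim_inr]
      split_ifs
      · exact (hψ _).choose_spec _
      · exact map_zero _
  · rw [eq_bot_iff]
    intro x hx
    have hx0 : x ∈ riemannRochSpace D₀ :=
      rr_mono (fun v => by rw [Finsupp.sub_apply]; linarith [tupleDiv_nonneg P v]) hx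
    have hm := (mem_sub_tuple_iff hNC u (by simpa [u] using hu) P hx0).mp hx
    exact congrArg Subtype.val (h ⟨x, hx0⟩ hm)
  · refine Subtype.ext ?_
    have hm : (x : F) ∈ riemannRochSpace (D₀ - tupleDiv P) :=
      (mem_sub_tuple_iff hNC u (by simpa [u] using hu) P x.2).mpr hx
    rwa [h, Submodule.mem_bot] at hm

end FermatLib.AV.MW

end
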