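import Mathlib
import Fermat.Agent.Mazur.GunitKummerRam

/-!
# Ramification of square roots over a number field

If a square root of `a ∈ F` is fixed by the inertia elements over `F` at the places above `l`,
then `a` has even valuation at the primes of `F` above `l`.
-/

set_option autoImplicit false
set_option linter.style.haveILetI false

noncomputable section

open NumberField IsDedekindDomain
open scoped Pointwise

namespace FermatLib.AV.MW

local notation "Qb" => AlgebraicClosure ℚ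

theorem two_dvd_log_valuation_of_inertia_fixed (F : IntermediateField ℚ Qb) [NumberField F]
    [IsGalois ℚ F] {l : ℕ} (hl : l.Prime) (v : HeightOneSpectrum (𝓞 F))
    (hlv : (l : 𝓞 F) ∈ v.asIdeal) {a : F} (ha : a ≠ 0) {α : Qb} (hα : α ^ 2 = (a : Qb))
    (hfix : ∀ A : ValuationSubring Qb, A.LiesOverPrime l →
      ∀ σ ∈ A.inertiaSubgroupIn ℚ, σ ∈ F.fixingSubgroup → σ α = α) :
    2 ∣ WithZero.log (v.valuation F a) := by
  haveI := FermatLib.Mazur.isGalois_qbar
  haveI : Algebra.IsAlgebraic ℚ Qb := AlgebraicClosure.isAlgebraic ℚ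
  let M₀ : IntermediateField ℚ Qb := F ⊔ IntermediateField.adjoin ℚ {α}
  haveI : FiniteDimensional ℚ (IntermediateField.adjoin ℚ {α}) :=
    IntermediateField.adjoin.finiteDimensional (Algebra.IsAlgebraic.isAlgebraic α).isIntegral
  haveI : FiniteDimensional ℚ M₀ := IntermediateField.finiteDimensional_sup _ _
  let M : IntermediateField ℚ Qb := IntermediateField.normalClosure ℚ M₀ Qb
  haveI : FiniteDimensional ℚ M := normalClosure.is_finiteDimensional ℚ M₀ Qb
  haveI : IsGalois ℚ M := IsGalois.normalClosure ℚ M₀ Qb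
  haveI : NumberField M := ⟨⟩
  have hFM : F ≤ M := le_sup_left.trans (IntermediateField.le_normalClosure M₀)
  have hαM : α ∈ M := IntermediateField.le_normalClosure M₀
    ((le_sup_right : _ ≤ M₀) (IntermediateField.mem_adjoin_simple_self ℚ α))
  letI : Algebra F M := (IntermediateField.inclusion hFM).toRingHom.toAlgebra
  haveI : IsScalarTower ℚ F M := IsScalarTower.of_algebraMap_eq fun _ => rfl
  haveI : FiniteDimensional F M := FiniteDimensional.right ℚ F M
  haveI : IsGalois F M := IsGalois.tower_top_of_isGalois ℚ F M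
  -- a prime of `M` over `v`
  obtain ⟨P, hPmax, hPv⟩ := Ideal.exists_maximal_ideal_liesOver_of_isIntegral (S := 𝓞 M) v.asIdeal
  haveI := hPmax
  haveI := hPv
  have hP0 : P ≠ ⊥ := Ideal.ne_bot_of_liesOver_of_ne_bot v.ne_bot P
  let w : HeightOneSpectrum (𝓞 M) := ⟨P, hPmax.isPrime, hP0⟩
  have hlP : (l : 𝓞 M) ∈ P := by
    have h := (Ideal.mem_of_liesOver P v.asIdeal (l : 𝓞 F)).mp hlv
    simpa using h
  let J := P.inertia Gal(M/F)
  -- inertia over `F` fixes the root
  let αM : M := ⟨α, hαM⟩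
  have hJ : ∀ τ ∈ J, τ αM = αM := by
    intro τ hτ
    obtain ⟨A, hA, σ, hσ, hσM⟩ := FermatLib.EC.exists_inertia_lift M hl P hlP
      (τ.restrictScalars ℚ) (fun c c' hcc' => by
        have : c' = τ • c := RingOfIntegers.ext hcc'
        rw [this]
        exact hτ c)
    have hσF : σ ∈ F.fixingSubgroup := (IntermediateField.mem_fixingSubgroup_iff _ σ).mpr fun x hx => by
      have h := hσM ⟨x, hFM hx⟩
      rw [show (τ.restrictScalars ℚ) ⟨x, hFM hx⟩ = τ (algebraMap F M ⟨x, hx⟩) from rfl,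
        AlgEquiv.commutes] at h
      exact h
    exact Subtype.ext ((hσM αM).symm.trans (hfix A hA σ hσ hσF))
  let E : IntermediateField F M := FixedPoints.intermediateField J
  haveI : NumberField E := NumberField.of_module_finite F E
  haveI : IsGaloisGroup J E M := IsGaloisGroup.subgroup Gal(M/F) F M J
  haveI : IsGaloisGroup J (𝓞 E) (𝓞 M) := IsGaloisGroup.of_isFractionRing J (𝓞 E) (𝓞 M) E M
  haveI : IsGaloisGroup Gal(M/F) (𝓞 F) (𝓞 M) :=
    IsGaloisGroup.of_isFractionRing Gal(M/F) (𝓞 F) (𝓞 M) F M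
  let 𝔭 : Ideal (𝓞 E) := P.under (𝓞 E)
  haveI : 𝔭.IsPrime := Ideal.IsPrime.under (𝓞 E) P
  haveI : 𝔭.LiesOver v.asIdeal := Ideal.LiesOver.tower_bot P 𝔭 v.asIdeal
  have h𝔭0 : 𝔭 ≠ ⊥ := Ideal.ne_bot_of_liesOver_of_ne_bot v.ne_bot 𝔭
  let wE : HeightOneSpectrum (𝓞 E) := ⟨𝔭, inferInstance, h𝔭0⟩
  haveI : 𝔭.IsMaximal := Ideal.IsPrime.isMaximal inferInstance h𝔭0
  haveI := v.isMaximal
  haveI : Finite (𝓞 F ⧸ v.asIdeal) := Ideal.finiteQuotientOfFreeOfNeBot _ v.ne_bot
  haveI : Finite (𝓞 E ⧸ 𝔭) := Ideal.finiteQuotientOfFreeOfNeBot _ h𝔭0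
  have htopJ : P.inertia J = ⊤ := by
    rw [eq_top_iff]
    intro σ _ x
    exact σ.2 x
  -- both ramification indices are the order of `J`
  have he₁ : v.asIdeal.ramificationIdx' P = Nat.card J := by
    have h := Ideal.card_inertia_eq_ramificationIdxIn (G := Gal(M/F)) v.asIdeal P
    rw [Ideal.ramificationIdxIn_eq_ramificationIdx v.asIdeal P Gal(M/F)] at h
    rw [h, Ideal.ramificationIdx'_eq_ramificationIdx v.asIdeal P v.ne_bot]
  have he₂ : 𝔭.ramificationIdx' P = Nat.card J := by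
    have h := Ideal.card_inertia_eq_ramificationIdxIn (G := J) 𝔭 P
    rw [htopJ, Subgroup.card_top, Ideal.ramificationIdxIn_eq_ramificationIdx 𝔭 P J] at h
    rw [h, Ideal.ramificationIdx'_eq_ramificationIdx 𝔭 P h𝔭0]
  haveI : w.asIdeal.LiesOver v.asIdeal := hPv
  haveI : w.asIdeal.LiesOver wE.asIdeal := ⟨rfl⟩
  have hαE : αM ∈ E := fun σ => hJ σ σ.2
  have h₁ := HeightOneSpectrum.valuation_liesOver (K := F) M v w a
  have h₂ := HeightOneSpectrum.valuation_liesOver (K := E) M wE w ⟨αM, hαE⟩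
  have hsq : algebraMap F M a = (algebraMap E M ⟨αM, hαE⟩) ^ 2 := Subtype.ext hα.symm
  rw [hsq, map_pow, ← h₂] at h₁
  have hα0 : (⟨αM, hαE⟩ : E) ≠ 0 := fun h0 => by
    have h1 := congrArg (fun z : E => ((z : M) : Qb)) h0
    change α = 0 at h1
    rw [h1, zero_pow two_ne_zero, eq_comm, ZeroMemClass.coe_eq_zero] at hα
    exact ha hα
  have h := congrArg WithZero.log h₁
  simp only [WithZero.log_pow, nsmul_eq_mul] at h
  rw [show w.asIdeal = P from rfl, show wE.asIdeal = 𝔭 from rfl, he₁, he₂] at h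
  refine ⟨WithZero.log (wE.valuation E ⟨αM, hαE⟩), mul_left_cancel₀
    (Nat.cast_ne_zero.mpr (Nat.card_pos (α := J)).ne') ?_⟩
  push_cast at h
  linarith

end FermatLib.AV.MW

end
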