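import Mathlib
import Fermat.Agent.AV.MW.CuspBasis
import Fermat.Agent.Curve.JacUniformization
import Fermat.Agent.Curve.ConstExt.ComplexTransfer
import Fermat.Agent.Curve.Descent.LaurentExt

/-!
# Finite torsion and divisibility of `J₀(N)(ℚ̄)`

Over `ℂ` the group `Pic⁰` is a complex torus; torsion and divisibility descend to `ℚ̄` since a
class with finitely many conjugates over `ℚ̄` is defined over `ℚ̄`.
-/

set_option autoImplicit false

noncomputable section

open AlgebraicCurve ModularCurve FermatLib.Curve
open scoped IntermediateField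

namespace FermatLib.AV.MW

theorem essFiniteType_of_isFunctionField (K F : Type*) [Field K] [Field F] [Algebra K F]
    [h : IsFunctionField K F] : Algebra.EssFiniteType K F := by
  obtain ⟨x, -, hfin⟩ := h.exists_transcendental
  haveI := hfin
  haveI : Algebra.EssFiniteType K K⟮x⟯ :=
    IntermediateField.essFiniteType_iff.mpr (IntermediateField.fg_adjoin_of_finite (Set.finite_singleton x))
  exact Algebra.EssFiniteType.comp K K⟮x⟯ F

section Complex

variable (E : Type*) [Field E] [Algebra ℂ E] [IsFunctionField ℂ E]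

theorem natCard_torsion_complex {n : ℕ} (hn : n ≠ 0) :
    Nat.card (Pic0.torsion ℂ E n) = n ^ (2 * genusFF ℂ E) := by
  haveI := isCurveOver_of_isFunctionField (K := ℂ) (F := E)
  haveI := essFiniteType_of_isFunctionField ℂ E
  rw [← jacCard_torsion_complex (riemannEquation ℂ E) hn]
  refine Nat.card_congr (Equiv.subtypeEquivRight fun x => ?_)
  rw [Pic0.mem_torsion, natCast_zsmul]

theorem exists_nsmul_eq_complex {n : ℕ} (hn : n ≠ 0) (y : Pic0 ℂ E) : ∃ x, n • x = y := by
  haveI := isCurveOver_of_isFunctionField (K := ℂ) (F := E)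
  haveI := essFiniteType_of_isFunctionField ℂ E
  obtain ⟨ψ, -, R, hcov⟩ := jacExists_uniformization (riemannEquation ℂ E)
  obtain ⟨z, -, rfl⟩ := hcov y
  refine ⟨ψ ((n : ℂ)⁻¹ • z), ?_⟩
  rw [← map_nsmul, ← Nat.cast_smul_eq_nsmul ℂ, smul_inv_smul₀ (Nat.cast_ne_zero.mpr hn)]

end Complex

section Descent

variable {K L F E : Type*} [Field K] [Field L] [Algebra K L] [Field F] [Algebra K F]
  [Field E] [Algebra L E] {i : F →+* E} [IsAlgClosed K] [IsAlgClosed L] [IsFunctionField K F]
  [IsFunctionField L E]

/-- Divisibility descends along constant extensions with finite torsion. -/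
theorem exists_nsmul_eq_of_constExt (h : IsConstantExtension K L i) {n : ℕ}
    (hfin : Finite (Pic0.torsion L E n)) (hdiv : ∀ y : Pic0 L E, ∃ x, n • x = y) (y : Pic0 K F) :
    ∃ x, n • x = y := by
  obtain ⟨c, hc⟩ := hdiv (h.pic0Map y)
  obtain ⟨N, hN⟩ := exists_finrank_riemannRochSpace_eq L E
  have hmem : c ∈ h.pic0Map.range := by
    refine h.mem_range_pic0Map_of_finite_orbit (IsConstantExtension.exists_riemannRochSpace_ne_bot hN) ?_
    refine ((Set.toFinite (Pic0.torsion L E n : Set (Pic0 L E))).image (· + c)).subset ?_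
    rintro _ ⟨σ, rfl⟩
    refine ⟨h.extAut σ • c - c, ?_, sub_add_cancel _ _⟩
    have hfix : h.extAut σ • h.pic0Map y = h.pic0Map y := by
      simpa using h.smul_pic0Map 1 (h.extAut σ)
        (fun f => by rw [h.extAut_smul_map, one_smul]) y
    show _ ∈ Pic0.torsion L E n
    have e : n • (h.extAut σ • c) = h.extAut σ • (n • c) :=
      (map_nsmul (DistribSMul.toAddMonoidHom (Pic0 L E) (h.extAut σ)) n c).symm
    rw [Pic0.mem_torsion, natCast_zsmul, nsmul_sub, e, hc, hfix, sub_self]
  obtain ⟨x, rfl⟩ := hmem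
  haveI : ∀ D : Divisor L E, FiniteDimensional L (riemannRochSpace D) := finite_riemannRochSpace
  exact ⟨x, h.pic0Map_injective (by rw [map_nsmul, hc])⟩

end Descent

section Modular

local notation "Qb" => AlgebraicClosure ℚ

variable (N : ℕ) [NeZero N]

/-- The function field of `X₀(N)` over `ℂ` as base change from `ℚ̄`. -/
theorem isFunctionField_baseChange (L : Type*) [Field L] [Algebra ℚ L] :
    IsFunctionField L (laurentBaseChange L (modularFunctionFieldFull N)) :=
  haveI := FermatLib.Modular.finiteDimensional_adjoin_jElem L N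
  IsFunctionField.of_transcendental (FermatLib.Modular.transcendental_jElem L N)

/-- **Finiteness of the torsion of `J₀(N)`.** -/
theorem finite_torsion_JZero {n : ℕ} (hn : n ≠ 0) : Finite (Pic0.torsion Qb (FX0 N) n) := by
  refine Nat.finite_of_card_ne_zero ?_
  rw [natCard_torsion_eq_pow_of_complex hn fun E _ _ _ => natCard_torsion_complex E hn]
  exact pow_ne_zero _ hn

theorem finite_nsmul_eq_zero {n : ℕ} (hn : n ≠ 0) : {x : JZero N | n • x = 0}.Finite := by
  haveI := finite_torsion_JZero N hn
  refine (Set.toFinite (Pic0.torsion Qb (FX0 N) n : Set (JZero N))).subset fun x hx => ?_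
  show x ∈ Pic0.torsion Qb (FX0 N) n
  rw [Pic0.mem_torsion, natCast_zsmul]
  exact hx

/-- **Divisibility of `J₀(N)(ℚ̄)`.** -/
theorem exists_nsmul_eq_JZero {n : ℕ} (hn : n ≠ 0) (y : JZero N) : ∃ x, n • x = y := by
  letI := qbarAlgebraComplex
  haveI := isFunctionField_baseChange N ℂ
  refine exists_nsmul_eq_of_constExt
    (isConstantExtension_baseChangeMap Qb ℂ (modularFunctionFieldFull N))
    (Nat.finite_of_card_ne_zero ?_) (exists_nsmul_eq_complex _ hn) y
  rw [natCard_torsion_complex _ hn]
  exact pow_ne_zero _ hn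

end Modular

end FermatLib.AV.MW

end
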