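import Mathlib
import Fermat.Agent.AV.MW.CuspBasis
import Fermat.Agent.AV.MW.Degeneracy
import Fermat.Agent.AV.MW.Torsion
import Fermat.Agent.EC.InertiaIntegers

/-!
# Good reduction of halving

If `σ Q - Q = T` is a nonzero class of order two, the conditions "the tuple represents `0`" and
"the tuple represents `-T`" exclude each other; the resulting null identity shows that `σ` is not
congruent to the identity at almost every prime.  Hence inertia fixes halves of rational points at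
all but finitely many primes.
-/

set_option autoImplicit false

noncomputable section

open AlgebraicCurve ModularCurve FermatLib.Curve MvPolynomial

namespace FermatLib.AV.MW

section Forms

variable {k F : Type*} [Field k] [Field F] [Algebra k F] [IsAlgClosed k] [IsCurveOver k F]
  [HasLargeRR k F]

/-- The tuples not representing `-x` are cut out by multihomogeneous forms. -/
theorem exists_class_forms [Infinite k] (O : Place k F) {A : Divisor k F} {ιA : Type} [Fintype ιA]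
    (sA : Module.Basis ιA k ↥(riemannRochSpace A))
    (hA : 2 * (rrGenus k F : ℤ) + 1 ≤ Divisor.degree A) (x : Pic0 k F) {σ : Type} [Fintype σ]
    [DecidableEq σ] :
    ∃ (κ : Type) (_ : Fintype κ) (ψ : κ → MvPolynomial (Σ _ : σ, ιA) k) (r : κ → σ → ℕ),
      (∀ q, IsMultiHom (ψ q) (r q)) ∧
        ∀ R : σ → Place k F, (∃ q, eval (ptsC sA R) (ψ q) ≠ 0) ↔ pc O R + x ≠ 0 := by
  classical
  obtain ⟨E, rfl⟩ := exists_rep_genus O x
  obtain ⟨κ, hκ, ψ, r, hψ, h⟩ := exists_degeneracy_forms_id (σ := σ) sA hA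
    (Finsupp.single O ((Fintype.card σ + rrGenus k F : ℕ) : ℤ) - tupleDiv E)
  refine ⟨κ, hκ, ψ, r, hψ, fun R => (h R).trans ?_⟩
  rw [← pc_sumElim, Ne, pc_eq_zero_iff, not_not, tupleDiv_sumElim, Fintype.card_sum,
    Fintype.card_fin, sub_sub, add_comm (tupleDiv E) (tupleDiv R)]

theorem eval_scale_eq_of_forall_eq {σ : Type} [Fintype σ] {ι : σ → Type} [∀ i, Fintype (ι i)]
    [DecidableEq σ] {p : MvPolynomial (Σ i, ι i) k} {r : σ → ℕ} (hp : IsMultiHom p r)
    (c : σ → k) {x y : (Σ i, ι i) → k} (hy : ∀ v, y v = c v.1 * x v) :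
    eval y p = (∏ i, c i ^ r i) * eval x p := by
  rw [← hp.eval_scale c x]
  congr 1
  exact congrArg _ (funext hy)

/-- A null identity holds at every rescaling of the coordinates of a tuple. -/
theorem null_identity_scale {σ : Type} [Fintype σ] [DecidableEq σ] {ι : Type} [Fintype ι]
    {κ : Type} [Fintype κ] {ψ g : κ → MvPolynomial (Σ _ : σ, ι) k} {r : κ → σ → ℕ} {e : σ → ℕ}
    (hψ : ∀ q, IsMultiHom (ψ q) (r q)) (hg : ∀ q, IsMultiHom (g q) (e - r q))
    (hle : ∀ q, r q ≤ e) {b : σ → ι} {x y : (Σ _ : σ, ι) → k}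
    (h : ∏ i, x ⟨i, b i⟩ ^ e i = ∑ q, eval x (g q) * eval x (ψ q)) (c : σ → k)
    (hy : ∀ v, y v = c v.1 * x v) :
    ∏ i, y ⟨i, b i⟩ ^ e i = ∑ q, eval y (g q) * eval y (ψ q) := by
  have hL : ∏ i, y ⟨i, b i⟩ ^ e i = (∏ i, c i ^ e i) * ∏ i, x ⟨i, b i⟩ ^ e i := by
    rw [← Finset.prod_mul_distrib]
    exact Finset.prod_congr rfl fun i _ => by rw [hy, mul_pow]
  rw [hL, h, Finset.mul_sum]
  refine Finset.sum_congr rfl fun q _ => ?_
  rw [eval_scale_eq_of_forall_eq (hg q) c hy, eval_scale_eq_of_forall_eq (hψ q) c hy,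
    mul_mul_mul_comm, ← Finset.prod_mul_distrib]
  congr 1
  refine Finset.prod_congr rfl fun i _ => ?_
  rw [← pow_add, Pi.sub_apply, Nat.sub_add_cancel (hle q i)]

end Forms

section Arith

local notation "Qb" => AlgebraicClosure ℚ

/-- A natural number prime to `q` is a unit in a valuation ring over `q`. -/
theorem inv_natCast_mem {A : ValuationSubring Qb} {q : ℕ} (hq : q.Prime) (hA : A.LiesOverPrime q)
    {m : ℕ} (hm : ¬ q ∣ m) : ((m : Qb))⁻¹ ∈ A := by
  have hu : IsUnit (m : A) := by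
    by_contra h
    have h1 : (m : A) ∈ IsLocalRing.maximalIdeal A := (IsLocalRing.mem_maximalIdeal _).mpr h
    have h2 : (q : A) ∈ IsLocalRing.maximalIdeal A := by
      rw [← A.coe_mem_nonunits_iff]; push_cast; exact hA
    obtain ⟨x, y, hxy⟩ := (Nat.isCoprime_iff_coprime.mpr
      ((Nat.Prime.coprime_iff_not_dvd hq).mpr hm))
    apply (IsLocalRing.maximalIdeal.isMaximal A).ne_top
    rw [Ideal.eq_top_iff_one]
    have h := congrArg (fun z : ℤ => (z : A)) hxy
    simp only [Int.cast_add, Int.cast_mul, Int.cast_natCast, Int.cast_one] at h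
    rw [← h]
    exact add_mem (Ideal.mul_mem_left _ _ h2) (Ideal.mul_mem_left _ _ h1)
  obtain ⟨w, hw⟩ := hu.exists_left_inv
  have hw' : (w : Qb) * (m : Qb) = 1 := by simpa using congrArg Subtype.val hw
  rw [← eq_inv_of_mul_eq_one_left hw']
  exact w.2

/-- Finitely many algebraic numbers are integral at almost all primes. -/
theorem exists_bad_nat {ι : Type*} [Finite ι] (c : ι → Qb) :
    ∃ M : ℕ, M ≠ 0 ∧ ∀ q : ℕ, q.Prime → ¬ q ∣ M → ∀ A : ValuationSubring Qb,
      A.LiesOverPrime q → ∀ i, c i ∈ A := by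
  classical
  have := Fintype.ofFinite ι
  have hone : ∀ i, ∃ m : ℤ, m ≠ 0 ∧ IsIntegral ℤ ((m : Qb) * c i) := fun i => by
    obtain ⟨m, hm, hint⟩ := IsAlgebraic.exists_integral_multiple (R := ℤ)
      ((IsFractionRing.isAlgebraic_iff ℤ ℚ Qb).mpr
        ((AlgebraicClosure.isAlgebraic ℚ).isAlgebraic (c i)))
    exact ⟨m, hm, by simpa [Algebra.smul_def] using hint⟩
  choose m hm hint using hone
  refine ⟨∏ i, (m i).natAbs, Finset.prod_ne_zero_iff.mpr fun i _ => Int.natAbs_ne_zero.mpr (hm i),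
    fun q hq hqM A hA i => ?_⟩
  have hi : ¬ q ∣ (m i).natAbs := fun h => hqM (h.trans (Finset.dvd_prod_of_mem _ (Finset.mem_univ i)))
  have h1 := mul_mem (inv_natCast_mem hq hA hi)
    (FermatLib.EC.integral_mem_valuationSubring A (hint i))
  have hm0 : ((m i).natAbs : Qb) ≠ 0 := Nat.cast_ne_zero.mpr (Int.natAbs_ne_zero.mpr (hm i))
  rcases Int.natAbs_eq (m i) with e | e
  · have e' : (m i : Qb) = ((m i).natAbs : Qb) := (congrArg Int.cast e).trans (Int.cast_natCast _)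
    rw [e', inv_mul_cancel_left₀ hm0] at h1
    exact h1
  · have e' : (m i : Qb) = -((m i).natAbs : Qb) :=
      (congrArg Int.cast e).trans (by rw [Int.cast_neg, Int.cast_natCast])
    rw [e', neg_mul, mul_neg, inv_mul_cancel_left₀ hm0] at h1
    simpa using neg_mem h1

/-- A nonzero vector can be scaled to a primitive integral one. -/
theorem exists_normalize (A : ValuationSubring Qb) {ι : Type*} [Finite ι] {x : ι → Qb}
    (hx : ∃ i, x i ≠ 0) : ∃ j, x j ≠ 0 ∧ ∀ i, x i / x j ∈ A := by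
  classical
  have := Fintype.ofFinite ι
  obtain ⟨i₀, hi₀⟩ := hx
  have : Nonempty ι := ⟨i₀⟩
  obtain ⟨j, -, hj⟩ := Finset.exists_max_image Finset.univ (fun i => A.valuation (x i))
    ⟨i₀, Finset.mem_univ _⟩
  have hj0 : x j ≠ 0 := by
    intro h
    have := hj i₀ (Finset.mem_univ _)
    rw [h, map_zero, le_zero_iff, map_eq_zero] at this
    exact hi₀ this
  refine ⟨j, hj0, fun i => (A.valuation_le_one_iff _).mp ?_⟩
  rw [map_div₀]
  exact div_le_one_of_le₀ (hj i (Finset.mem_univ _)) zero_le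

theorem exists_map_eq_of_coeff_mem {σ : Type*} {R : ValuationSubring Qb}
    (p : MvPolynomial σ Qb) (h : ∀ m ∈ p.support, p.coeff m ∈ R) :
    ∃ p' : MvPolynomial σ R, p'.map R.subtype = p := by
  classical
  refine ⟨∑ m ∈ p.support.attach, monomial m.1 ⟨p.coeff m.1, h m.1 m.2⟩, ?_⟩
  rw [map_sum]
  simp only [map_monomial]
  exact (Finset.sum_attach p.support (fun m => monomial m (p.coeff m))).trans
    (support_sum_monomial_coeff p)

end Arith

section Curve

local notation "Qb" => AlgebraicClosure ℚ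
local notation "Γℚ" => (AlgebraicClosure ℚ ≃ₐ[ℚ] AlgebraicClosure ℚ)

variable (N : ℕ) [NeZero N]

/-- At almost all primes inertia does not translate a class by a given class `T` of order two. -/
theorem exists_bad_nat_translation (T : JZero N) (hT2 : 2 • T = 0) (hT : T ≠ 0) :
    ∃ M : ℕ, M ≠ 0 ∧ ∀ q : ℕ, q.Prime → ¬ q ∣ M → ∀ A : ValuationSubring Qb, A.LiesOverPrime q →
      ∀ σ ∈ A.inertiaSubgroupIn ℚ, ∀ Q : JZero N, σ • Q - Q ≠ T := by
  classical
  set O := cuspPl N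
  set g := rrGenus Qb (FX0 N)
  set a := 4 * g + 1 with ha
  have : Infinite Qb := IsAlgClosed.instInfinite
  have hdeg : Divisor.degree (Finsupp.single O (a : ℤ) : Divisor Qb (FX0 N)) = a :=
    degree_single_one _ _
  let sA := cuspBasis N a
  obtain ⟨κ₁, _, ψ₁, r₁, hψ₁, h₁⟩ := exists_class_forms O (σ := Fin g ⊕ Fin g) sA
    (by rw [hdeg]; omega) (0 : JZero N)
  obtain ⟨κ₂, _, ψ₂, r₂, hψ₂, h₂⟩ := exists_class_forms O (σ := Fin g ⊕ Fin g) sA
    (by rw [hdeg]; omega) T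
  let ψ := Sum.elim ψ₁ ψ₂
  let r := Sum.elim r₁ r₂
  have hψ : ∀ q, IsMultiHom (ψ q) (r q) := fun q => by cases q <;> simp [ψ, r, hψ₁, hψ₂]
  have hnz : ∀ R : Fin g ⊕ Fin g → Place Qb (FX0 N), ∃ q, eval (ptsC sA R) (ψ q) ≠ 0 := by
    intro R
    rcases ne_or_eq (pc O R + 0) 0 with h | h
    · obtain ⟨q, hq⟩ := (h₁ R).mpr h
      exact ⟨Sum.inl q, hq⟩
    · obtain ⟨q, hq⟩ := (h₂ R).mpr (by rw [add_zero] at h; rwa [h, zero_add])
      exact ⟨Sum.inr q, hq⟩
  obtain ⟨e, he⟩ := exists_null_identity (fun _ : Fin g ⊕ Fin g => sA)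
    (fun _ => by rw [hdeg]; omega) ψ r hψ hnz
  obtain ⟨hle, hid⟩ := he e le_rfl
  choose G hG hGid using hid
  let P : κ₁ ⊕ κ₂ ⊕ ((Fin g ⊕ Fin g → Fin (cuspDim N a)) × (κ₁ ⊕ κ₂)) →
      MvPolynomial (Σ _ : Fin g ⊕ Fin g, Fin (cuspDim N a)) Qb :=
    Sum.elim ψ₁ (Sum.elim ψ₂ fun bq => G bq.1 bq.2)
  obtain ⟨M, hM, hint⟩ := exists_bad_nat fun im : Σ i, (P i).support => (P im.1).coeff im.2.1
  refine ⟨M, hM, fun q hq hqM A hA σ hσ Q hQ => ?_⟩
  -- the tuples `R₀ = (E, E'')` and `R = (σ E, E'')`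
  obtain ⟨E, hE⟩ := exists_rep_genus O Q
  obtain ⟨E'', hE''⟩ := exists_rep_genus O (-Q)
  let R₀ : Fin g ⊕ Fin g → Place Qb (FX0 N) := Sum.elim E E''
  let R : Fin g ⊕ Fin g → Place Qb (FX0 N) := Sum.elim (fun i => galAct N σ • E i) E''
  have hR₀ : pc O R₀ = 0 := by rw [pc_sumElim, hE, hE'', add_neg_cancel]
  have hR : pc O R = T := by
    rw [pc_sumElim, ← smul_pc _ (galAct_cuspPl N σ), hE, hE'', ← smul_JZero, ← sub_eq_add_neg, hQ]
  -- normalised coordinates
  let x : (Fin g ⊕ Fin g → Place Qb (FX0 N)) → (Σ _ : Fin g ⊕ Fin g, Fin (cuspDim N a)) → Qb :=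
    fun R v => cuspEv N a (R v.1) v.2
  have hne : ∀ i, ∃ l, cuspEv N a (R₀ i) l ≠ 0 := by
    intro i
    obtain ⟨μ, hμ, hev⟩ := evO_eq_mul_evL a (R₀ i) (cuspT_mem N) (cuspT_not_mem N)
    by_contra h
    push Not at h
    refine evL_ne_zero (D := Finsupp.single O (a : ℤ)) (by rw [hdeg]; omega) (R₀ i)
      (sA.ext fun l => ?_)
    simpa [cuspEv, hev, hμ, O, sA] using h l
  choose j hj0 hj using fun i => exists_normalize A (hne i)
  have hμ : ∀ (R : Fin g ⊕ Fin g → Place Qb (FX0 N)), ∃ μ : Fin g ⊕ Fin g → Qb, (∀ i, μ i ≠ 0) ∧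
      ∀ v, x R v = μ v.1 * ptsC sA R v := by
    intro R
    choose μ hμ0 hμ using fun i => evO_eq_mul_evL a (R i) (cuspT_mem N) (cuspT_not_mem N)
    exact ⟨μ, hμ0, fun v => hμ v.1 (sA v.2)⟩
  obtain ⟨μ₀, -, hμ₀⟩ := hμ R₀
  obtain ⟨μ, -, hμR⟩ := hμ R
  let u : (Σ _ : Fin g ⊕ Fin g, Fin (cuspDim N a)) → Qb := fun v => x R₀ v / x R₀ ⟨v.1, j v.1⟩
  have hu : ∀ v, u v ∈ A := fun v => hj v.1 v.2
  let y : (Σ _ : Fin g ⊕ Fin g, Fin (cuspDim N a)) → Qb :=
    fun v => Sum.elim (fun _ => σ (u v)) (fun _ => u v) v.1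
  have hinert := fun {z : Qb} (hz : z ∈ A) =>
    FermatLib.EC.sub_mem_nonunits_of_mem_inertiaSubgroupIn A hσ hz
  have hyu : ∀ v, y v - u v ∈ A.nonunits := by
    rintro ⟨i | i, l⟩
    · exact hinert (hu _)
    · show u _ - u _ ∈ _
      rw [sub_self, show (0 : Qb) = ((0 : A) : Qb) from rfl, A.coe_mem_nonunits_iff]
      exact zero_mem _
  have hy : ∀ v, y v ∈ A := fun v => by
    simpa using add_mem (A.nonunits_subset (hyu v)) (hu v)
  let c : Fin g ⊕ Fin g → Qb := fun i => μ i / Sum.elim (fun l => σ (x R₀ ⟨Sum.inl l, j (Sum.inl l)⟩))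
    (fun l => x R₀ ⟨Sum.inr l, j (Sum.inr l)⟩) i
  have hyc : ∀ v, y v = c v.1 * ptsC sA R v := by
    rintro ⟨i | i, l⟩
    · simp only [y, u, c, Sum.elim_inl, map_div₀, div_mul_eq_mul_div]
      rw [show μ (Sum.inl i) * ptsC sA R ⟨Sum.inl i, l⟩ = x R ⟨Sum.inl i, l⟩ from (hμR _).symm]
      congr 1
      exact (cuspEv_galAct N σ a (E i) l).symm
    · simp only [y, u, c, Sum.elim_inr, div_mul_eq_mul_div]
      rw [show μ (Sum.inr i) * ptsC sA R ⟨Sum.inr i, l⟩ = x R ⟨Sum.inr i, l⟩ from (hμR _).symm]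
      rfl
  let c₀ : Fin g ⊕ Fin g → Qb := fun i => μ₀ i / x R₀ ⟨i, j i⟩
  have huc : ∀ v, u v = c₀ v.1 * ptsC sA R₀ v := fun v => by
    simp only [u, c₀, div_mul_eq_mul_div, ← hμ₀]
  -- vanishing of the forms
  have hz₁ : ∀ q, eval u (ψ₁ q) = 0 := fun q => by
    rw [eval_scale_eq_of_forall_eq (hψ₁ q) c₀ huc]
    refine mul_eq_zero_of_right _ ?_
    by_contra h
    exact (h₁ R₀).mp ⟨q, h⟩ (by rw [hR₀, add_zero])
  have hz₂ : ∀ q, eval y (ψ₂ q) = 0 := fun q => by
    rw [eval_scale_eq_of_forall_eq (hψ₂ q) c hyc]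
    refine mul_eq_zero_of_right _ ?_
    by_contra h
    exact (h₂ R).mp ⟨q, h⟩ (by rw [hR, ← two_nsmul, hT2])
  have hone := null_identity_scale hψ (hG j) hle (hGid j R) c hyc
  have hyj : ∀ i, y ⟨i, j i⟩ = 1 := fun i => by
    have h1 : u ⟨i, j i⟩ = 1 := div_self (hj0 i)
    cases i <;> simp [y, h1]
  simp only [hyj, one_pow, Finset.prod_const_one, Fintype.sum_sum_type, ψ, Sum.elim_inl,
    Sum.elim_inr, hz₂, mul_zero, Finset.sum_const_zero, add_zero] at hone
  -- reduce modulo the maximal ideal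
  choose P' hP' using fun i => exists_map_eq_of_coeff_mem (R := A) (P i)
    fun m hm => hint q hq hqM A hA ⟨i, m, hm⟩
  let yA : (Σ _ : Fin g ⊕ Fin g, Fin (cuspDim N a)) → A := fun v => ⟨y v, hy v⟩
  let uA : (Σ _ : Fin g ⊕ Fin g, Fin (cuspDim N a)) → A := fun v => ⟨u v, hu v⟩
  have hev : ∀ i (z : (Σ _ : Fin g ⊕ Fin g, Fin (cuspDim N a)) → A),
      eval (fun v => ((z v : A) : Qb)) (P i) = ((eval z (P' i) : A) : Qb) := fun i z => by
    rw [← hP' i, eval_map]
    exact (hom_eval₂ (P' i) (RingHom.id A) A.subtype z).symm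
  have hres : ∀ i, IsLocalRing.residue A (eval yA (P' i)) =
      IsLocalRing.residue A (eval uA (P' i)) := by
    intro i
    have he : ∀ z : (Σ _ : Fin g ⊕ Fin g, Fin (cuspDim N a)) → A,
        IsLocalRing.residue A (eval z (P' i)) =
          eval₂ (IsLocalRing.residue A) (fun v => IsLocalRing.residue A (z v)) (P' i) :=
      fun z => hom_eval₂ (P' i) (RingHom.id A) _ z
    rw [he, he]
    congr 1
    funext v
    rw [← sub_eq_zero, ← map_sub, IsLocalRing.residue_eq_zero_iff, ← A.coe_mem_nonunits_iff]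
    exact hyu v
  have h0 : ∀ q, IsLocalRing.residue A (eval yA (P' (Sum.inl q))) = 0 := fun q => by
    rw [hres]
    have : (eval uA (P' (Sum.inl q)) : A) = 0 := Subtype.ext (by
      rw [← hev]; exact hz₁ q)
    rw [this, map_zero]
  have hA1 : (1 : A) = ∑ q, eval yA (P' (Sum.inr (Sum.inr (j, Sum.inl q)))) *
      eval yA (P' (Sum.inl q)) := Subtype.ext (by
    push_cast
    simp only [← hev]
    exact hone)
  have := congrArg (IsLocalRing.residue A) hA1
  simp [h0] at this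

/-- **Halves are unramified**: at almost all primes inertia fixes every half of a class it fixes. -/
theorem exists_bad_nat_half :
    ∃ M : ℕ, M ≠ 0 ∧ ∀ q : ℕ, q.Prime → ¬ q ∣ M → ∀ A : ValuationSubring Qb, A.LiesOverPrime q →
      ∀ σ ∈ A.inertiaSubgroupIn ℚ, ∀ Q : JZero N, σ • (2 • Q) = 2 • Q → σ • Q = Q := by
  classical
  let Ts := (finite_nsmul_eq_zero N (n := 2) two_ne_zero).toFinset.filter (· ≠ 0)
  have hTs : ∀ T ∈ Ts, 2 • T = 0 ∧ T ≠ 0 := fun T hT =>
    ⟨(finite_nsmul_eq_zero N (n := 2) two_ne_zero).mem_toFinset.mp (Finset.mem_filter.mp hT).1,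
      (Finset.mem_filter.mp hT).2⟩
  choose M hM hgood using fun T : Ts => exists_bad_nat_translation N T (hTs T T.2).1 (hTs T T.2).2
  refine ⟨∏ T, M T, Finset.prod_ne_zero_iff.mpr fun T _ => hM T, fun q hq hqM A hA σ hσ Q hQ => ?_⟩
  by_contra hne
  have h2 : 2 • (σ • Q - Q) = 0 := by
    rw [nsmul_sub, show 2 • (σ • Q) = σ • (2 • Q) from
      (map_nsmul (DistribSMul.toAddMonoidHom (JZero N) σ) 2 Q).symm, hQ, sub_self]
  have hmem : σ • Q - Q ∈ Ts :=
    Finset.mem_filter.mpr ⟨(Set.Finite.mem_toFinset _).mpr h2, sub_ne_zero.mpr hne⟩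
  exact hgood ⟨_, hmem⟩ q hq (fun h => hqM (h.trans (Finset.dvd_prod_of_mem _ (Finset.mem_univ _))))
    A hA σ hσ Q rfl

end Curve

end FermatLib.AV.MW

end
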