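import Mathlib
import Fermat.Agent.CFT.IdeleFieldUnits

/-!
# Square classes with even valuations outside a finite set of primes

For a number field `K` and a finite set `s` of primes, only finitely many classes in `Kˣ/Kˣ²` have
even valuation at all primes outside `s`.
-/

set_option autoImplicit false

noncomputable section

open NumberField IsDedekindDomain FermatLib.CFT
open scoped nonZeroDivisors

namespace FermatLib.AV.MW

variable (K : Type) [Field K] [NumberField K]

/-- Enlarging by the primes of class representatives, every exponent vector is realised. -/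
theorem exists_finset_valLog_surjective : ∃ B : Finset (HeightOneSpectrum (𝓞 K)),
    ∀ v, ∃ z : LUnits K, ∀ w ∉ (B : Set (HeightOneSpectrum (𝓞 K))), valLog w z =
      (open scoped Classical in if w = v then (1 : ℤ) else 0) := by
  classical
  choose A hA using ClassGroup.mk0_surjective (R := 𝓞 K)
  have hB : {w : HeightOneSpectrum (𝓞 K) | ∃ c, (A c : Ideal (𝓞 K)) ≤ w.asIdeal}.Finite := by
    rw [show {w : HeightOneSpectrum (𝓞 K) | ∃ c, (A c : Ideal (𝓞 K)) ≤ w.asIdeal} =
      ⋃ c, {w | (A c : Ideal (𝓞 K)) ≤ w.asIdeal} by ext; simp]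
    refine Set.finite_iUnion fun c => ?_
    refine (Ideal.finite_factors (nonZeroDivisors.ne_zero (A c).2)).subset fun w hw => ?_
    exact Ideal.dvd_iff_le.2 hw
  refine ⟨hB.toFinset, fun v => ?_⟩
  obtain ⟨x, hx⟩ := exists_valLog_of_class (v := v) (n := 1) (hA _).symm
  exact ⟨x, fun w hw => by simpa using hx w fun hle => hw (by simpa using ⟨_, hle⟩)⟩

theorem finite_support_valLog (x : LUnits K) :
    (Function.support fun v : HeightOneSpectrum (𝓞 K) => valLog v x).Finite := by
  refine ((HeightOneSpectrum.Support.finite (𝓞 K) (x.val : K)).union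
    (HeightOneSpectrum.Support.finite (𝓞 K) ((x.val : K))⁻¹)).subset fun v hv => ?_
  have hne : v.valuation K (x.val : K) ≠ 1 := fun h => hv ((valLog_eq_zero_iff v x).mpr h)
  rcases lt_or_gt_of_ne hne with h | h
  · refine Or.inr ?_
    show 1 < v.valuation K ((x.val : K))⁻¹
    rw [map_inv₀]
    exact (one_lt_inv₀ (zero_lt_iff.mpr ((v.valuation K).ne_zero_iff.mpr x.val.ne_zero))).mpr h
  · exact Or.inl h

/-- **Finiteness of square classes.** -/
theorem exists_finite_square_classes (s : Finset (HeightOneSpectrum (𝓞 K))) :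
    ∃ R : Set K, R.Finite ∧ ∀ a : K, a ≠ 0 →
      (∀ v ∉ s, 2 ∣ WithZero.log (v.valuation K a)) → ∃ r ∈ R, ∃ q : K, a = r * q ^ 2 := by
  classical
  obtain ⟨B, hB⟩ := exists_finset_valLog_surjective K
  set t := s ∪ B
  have := primeUnits_finite K t
  obtain ⟨n, f, hf⟩ := Module.Finite.exists_fin' ℤ
    ↥(primeUnits K (t : Set (HeightOneSpectrum (𝓞 K))))
  refine ⟨Set.range fun e : Fin n → Fin 2 => ((f fun i => ((e i : ℕ) : ℤ)).1.val : K),
    Set.finite_range _, fun a ha hev => ?_⟩
  set x : LUnits K := LUnits.of (Units.mk0 a ha) with hx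
  obtain ⟨z, hz⟩ := exists_valLog_eq (B := (t : Set (HeightOneSpectrum (𝓞 K)))) (m := 1)
    (fun v => (hB v).imp fun z hz w hw => hz w fun h =>
      hw (Finset.mem_coe.mpr (Finset.mem_union_right s (Finset.mem_coe.mp h))))
    (fun v => valLog v x / 2)
    ((finite_support_valLog K x).subset fun v hv h0 => hv (by
      show valLog v x / 2 = 0
      rw [show valLog v x = 0 from h0]
      rfl))
  have hmem : x - (z + z) ∈ primeUnits K (t : Set (HeightOneSpectrum (𝓞 K))) := by
    rw [mem_primeUnits_iff]
    intro v hv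
    have h2 : 2 ∣ valLog v x := hev v fun h => hv (Finset.mem_coe.mpr (Finset.mem_union_left B h))
    have h := hz v hv
    change valLogHom v (x - (z + z)) = 0
    rw [map_sub, map_add]
    change valLog v x - (valLog v z + valLog v z) = 0
    omega
  obtain ⟨c, hc⟩ := hf ⟨_, hmem⟩
  let e : Fin n → Fin 2 := fun i => ⟨(c i % 2).toNat, by
    have := Int.emod_lt_of_pos (c i) two_pos
    omega⟩
  let u := f fun i => c i / 2
  have he : x = (f fun i => ((e i : ℕ) : ℤ)).1 + ((u.1 + z) + (u.1 + z)) := by
    have hsum : c = (fun i => ((e i : ℕ) : ℤ)) + ((fun i => c i / 2) + fun i => c i / 2) := by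
      funext i
      have := Int.emod_nonneg (c i) two_ne_zero
      simp only [Pi.add_apply, e]
      omega
    have h := congrArg Subtype.val hc
    rw [hsum, map_add, map_add, AddSubgroup.coe_add, AddSubgroup.coe_add] at h
    change _ + (u.1 + u.1) = x - (z + z) at h
    rw [eq_sub_iff_add_eq] at h
    rw [← h]
    abel
  refine ⟨_, ⟨e, rfl⟩, ((u.1 + z).val : K), ?_⟩
  have h := congrArg (fun y : LUnits K => (y.val : K)) he
  change a = _ at h
  rw [h, sq]
  rfl

end FermatLib.AV.MW

end
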