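import Mathlib
import Fermat.Agent.AV.MW.SelmerFinite
import Fermat.Agent.AV.MW.KummerRam
import Fermat.Agent.Mazur.GunitKummer

/-!
# Weak descent for Galois modules over `ℚ`

`A/2A` is finite for the fixed points `A` of a module with open stabilisers, finite 2-torsion and
divisibility by 2, in which halves of fixed points are unramified outside a finite set of primes.
-/

set_option autoImplicit false
set_option linter.style.haveILetI false

noncomputable section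

open NumberField IsDedekindDomain

namespace FermatLib.AV.MW

local notation "Qb" => AlgebraicClosure ℚ
local notation "Γℚ" => (AlgebraicClosure ℚ ≃ₐ[ℚ] AlgebraicClosure ℚ)

/-- A quadratic character of `Gal(ℚ̄/F)` comes from a square root of an element of `F`. -/
theorem exists_sqrt_of_character (F : IntermediateField ℚ Qb) [FiniteDimensional ℚ F]
    (χ : Γℚ → ZMod 2)
    (hadd : ∀ σ ∈ F.fixingSubgroup, ∀ τ ∈ F.fixingSubgroup, χ (σ * τ) = χ σ + χ τ)
    (H : Subgroup Γℚ) (hH : IsOpen (H : Set Γℚ))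
    (hχH : ∀ σ ∈ H, σ ∈ F.fixingSubgroup → χ σ = 0) :
    ∃ (a : F) (α : Qb), a ≠ 0 ∧ α ^ 2 = (a : Qb) ∧
      ∀ σ ∈ F.fixingSubgroup, (χ σ = 0 ↔ σ α = α) := by
  haveI := FermatLib.Mazur.isGalois_qbar
  have h1 : χ 1 = 0 := by
    have h := hadd 1 (one_mem _) 1 (one_mem _)
    rw [mul_one] at h
    simpa using h
  let K₀ : Subgroup Γℚ :=
    { carrier := {σ | σ ∈ F.fixingSubgroup ∧ χ σ = 0}
      one_mem' := ⟨one_mem _, h1⟩
      mul_mem' := fun {σ τ} hσ hτ => ⟨mul_mem hσ.1 hτ.1, by rw [hadd σ hσ.1 τ hτ.1, hσ.2, hτ.2, add_zero]⟩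
      inv_mem' := fun {σ} hσ => ⟨inv_mem hσ.1, by
        have h := hadd σ⁻¹ (inv_mem hσ.1) σ hσ.1
        rw [inv_mul_cancel, h1, hσ.2, add_zero] at h
        exact h.symm⟩ }
  have hK₀ : IsOpen (K₀ : Set Γℚ) := by
    refine Subgroup.isOpen_mono (H₁ := H ⊓ F.fixingSubgroup) (fun σ hσ => ⟨hσ.2, hχH σ hσ.1 hσ.2⟩) ?_
    rw [Subgroup.coe_inf]
    exact hH.inter (IntermediateField.fixingSubgroup_isOpen F)
  by_cases hall : ∀ σ ∈ F.fixingSubgroup, χ σ = 0
  · exact ⟨1, 1, one_ne_zero, by simp, fun σ hσ => by simp [hall σ hσ]⟩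
  push Not at hall
  obtain ⟨τ, hτ, hτ1⟩ := hall
  have hfix := InfiniteGalois.fixingSubgroup_fixedField (k := ℚ) (K := Qb)
    ⟨K₀, Subgroup.isClosed_of_isOpen K₀ hK₀⟩
  obtain ⟨β, hβ, hτβ⟩ : ∃ β ∈ IntermediateField.fixedField K₀, τ β ≠ β := by
    by_contra h
    push Not at h
    exact hτ1 (hfix.le ((IntermediateField.mem_fixingSubgroup_iff _ τ).mpr h)).2
  rw [IntermediateField.mem_fixedField_iff] at hβ
  set α := β - τ β
  have z2 : ∀ u : ZMod 2, u ≠ 0 → u = 1 := by decide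
  have hτ2 : τ (τ β) = β := hβ (τ * τ) ⟨mul_mem hτ hτ, by
    rw [hadd τ hτ τ hτ, z2 _ hτ1]; rfl⟩
  have hτα : τ α = -α := by rw [map_sub, hτ2, neg_sub]
  have h0 : ∀ σ ∈ F.fixingSubgroup, χ σ = 0 → σ α = α := by
    intro σ hσ hσ0
    have hc : τ⁻¹ * σ * τ ∈ K₀ := ⟨mul_mem (mul_mem (inv_mem hτ) hσ) hτ, by
      rw [hadd _ (mul_mem (inv_mem hτ) hσ) τ hτ, hadd _ (inv_mem hτ) σ hσ, hσ0, add_zero]
      have h := hadd τ⁻¹ (inv_mem hτ) τ hτ
      rw [inv_mul_cancel, h1] at h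
      exact h.symm⟩
    have e : σ (τ β) = τ β := by
      have h := congrArg τ (hβ _ hc)
      simpa using h
    rw [map_sub, hβ σ ⟨hσ, hσ0⟩, e]
  have hα0 : α ≠ 0 := sub_ne_zero.mpr (Ne.symm hτβ)
  have h1' : ∀ σ ∈ F.fixingSubgroup, χ σ ≠ 0 → σ α = -α := by
    intro σ hσ hσ1
    have hc : χ (τ⁻¹ * σ) = 0 := by
      have h := hadd τ hτ _ (mul_mem (inv_mem hτ) hσ)
      rw [mul_inv_cancel_left, z2 _ hσ1, z2 _ hτ1] at h
      revert h
      generalize χ (τ⁻¹ * σ) = u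
      revert u
      decide
    have h := congrArg τ (h0 _ (mul_mem (inv_mem hτ) hσ) hc)
    rw [hτα] at h
    simpa using h
  have hmem : α ^ 2 ∈ F := by
    rw [← InfiniteGalois.fixedField_fixingSubgroup F, IntermediateField.mem_fixedField_iff]
    intro σ hσ
    by_cases h : χ σ = 0
    · rw [map_pow, h0 σ hσ h]
    · rw [map_pow, h1' σ hσ h, neg_sq]
  refine ⟨⟨α ^ 2, hmem⟩, α, fun h => hα0 (pow_eq_zero_iff two_ne_zero |>.mp
    (congrArg Subtype.val h)), rfl, fun σ hσ => ⟨h0 σ hσ, fun h => ?_⟩⟩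
  by_contra hne
  rw [h1' σ hσ hne] at h
  exact hα0 (neg_eq_self.mp h)

/-- The kernels of quadratic characters of `Gal(ℚ̄/F)` unramified outside `S` form a finite set. -/
theorem finite_kernels_unramified (F : IntermediateField ℚ Qb) [FiniteDimensional ℚ F]
    [IsGalois ℚ F] (S : Finset ℕ) (hS : ∀ l ∈ S, l ≠ 0) :
    {K : Set Γℚ | ∃ (χ : Γℚ → ZMod 2) (H : Subgroup Γℚ), IsOpen (H : Set Γℚ) ∧
      (∀ σ ∈ F.fixingSubgroup, ∀ τ ∈ F.fixingSubgroup, χ (σ * τ) = χ σ + χ τ) ∧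
      (∀ σ ∈ H, σ ∈ F.fixingSubgroup → χ σ = 0) ∧
      (∀ l : ℕ, l.Prime → l ∉ S → ∀ A : ValuationSubring Qb, A.LiesOverPrime l →
        ∀ σ ∈ A.inertiaSubgroupIn ℚ, σ ∈ F.fixingSubgroup → χ σ = 0) ∧
      K = {σ | σ ∈ F.fixingSubgroup ∧ χ σ = 0}}.Finite := by
  classical
  haveI : NumberField F := ⟨⟩
  have hs : {v : HeightOneSpectrum (𝓞 F) | ∃ l ∈ S, (l : 𝓞 F) ∈ v.asIdeal}.Finite := by
    rw [show {v : HeightOneSpectrum (𝓞 F) | ∃ l ∈ S, (l : 𝓞 F) ∈ v.asIdeal}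
      = ⋃ l ∈ (S : Set ℕ), {v | (l : 𝓞 F) ∈ v.asIdeal} by ext; simp]
    refine Set.Finite.biUnion (Finset.finite_toSet S) fun l hl => ?_
    refine (Ideal.finite_factors (I := Ideal.span {(l : 𝓞 F)}) ?_).subset fun v hv => ?_
    · simpa using hS l hl
    · exact Ideal.dvd_iff_le.2 ((Ideal.span_singleton_le_iff_mem _).mpr hv)
  obtain ⟨R, hR, hcl⟩ := exists_finite_square_classes F hs.toFinset
  choose root hroot using fun r : F => IsAlgClosed.exists_pow_nat_eq (r : Qb) two_pos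
  refine (hR.image fun r => {σ : Γℚ | σ ∈ F.fixingSubgroup ∧ σ (root r) = root r}).subset ?_
  rintro _ ⟨χ, H, hH, hadd, hχH, hunr, rfl⟩
  obtain ⟨a, α, ha, hα, hχα⟩ := exists_sqrt_of_character F χ hadd H hH hχH
  have hev : ∀ v ∉ hs.toFinset, 2 ∣ WithZero.log (v.valuation F a) := by
    intro v hv
    haveI := v.isMaximal
    have hN : (Ideal.under ℤ v.asIdeal).IsPrime := Ideal.IsPrime.under ℤ v.asIdeal
    have hN0 : Ideal.under ℤ v.asIdeal ≠ ⊥ := Ideal.under_ne_bot ℤ v.ne_bot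
    obtain ⟨n, hn⟩ := IsPrincipalIdealRing.principal (Ideal.under ℤ v.asIdeal)
    have hn0 : n ≠ 0 := fun h => hN0 (by rw [hn, h]; simp)
    replace hn : Ideal.under ℤ v.asIdeal = Ideal.span {n} := hn
    have hp : Prime n := (Ideal.span_singleton_prime hn0).mp (by rwa [← hn])
    have hl : n.natAbs.Prime := Int.prime_iff_natAbs_prime.mp hp
    have hmem : (n.natAbs : 𝓞 F) ∈ v.asIdeal := by
      have h : ((n.natAbs : ℤ)) ∈ Ideal.under ℤ v.asIdeal := by
        rw [hn]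
        exact Ideal.mem_span_singleton.mpr (Int.dvd_natAbs.mpr dvd_rfl)
      rwa [Ideal.under_def, Ideal.mem_comap, map_natCast] at h
    refine two_dvd_log_valuation_of_inertia_fixed F hl v hmem ha hα fun A hA σ hσ hσF =>
      (hχα σ hσF).mp (hunr _ hl (fun hlS => hv (by simpa using ⟨_, hlS, hmem⟩)) A hA σ hσ hσF)
  obtain ⟨r, hr, q, hq⟩ := hcl a ha hev
  refine ⟨r, hr, ?_⟩
  ext σ
  simp only [Set.mem_ofPred_eq, and_congr_right_iff]
  intro hσ
  rw [hχα σ hσ]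
  have hq0 : (q : Qb) ≠ 0 := fun h => ha (by
    rw [hq, show q = 0 from Subtype.ext h]; simp)
  have hσq : σ (q : Qb) = q := (IntermediateField.mem_fixingSubgroup_iff _ σ).mp hσ _ q.2
  have hsq : α ^ 2 = (root r * (q : Qb)) ^ 2 := by
    rw [hα, hq, mul_pow, hroot]
    rfl
  rcases sq_eq_sq_iff_eq_or_eq_neg.mp hsq with h | h <;> rw [h]
  · rw [map_mul, hσq, mul_left_inj' hq0]
  · rw [map_neg, map_mul, hσq, neg_inj, mul_left_inj' hq0]

variable {J : Type*} [AddCommGroup J] [DistribMulAction Γℚ J]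

/-- **Weak descent.** -/
theorem finiteIndex_two_nsmul_fixedPoints
    (hstab : ∀ x : J, IsOpen (MulAction.stabilizer Γℚ x : Set Γℚ))
    (htors : {x : J | 2 • x = 0}.Finite) (hdiv : ∀ x : J, ∃ y, 2 • y = x)
    (S : Finset ℕ) (hS : ∀ l ∈ S, l ≠ 0)
    (hunr : ∀ y : J, (∀ σ : Γℚ, σ • (2 • y) = 2 • y) → ∀ l : ℕ, l.Prime → l ∉ S →
      ∀ A : ValuationSubring Qb, A.LiesOverPrime l → ∀ σ ∈ A.inertiaSubgroupIn ℚ, σ • y = y) :
    (nsmulAddMonoidHom (α := ↥(FixedPoints.addSubgroup Γℚ J)) 2).range.FiniteIndex := by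
  classical
  set T : AddSubgroup J := (nsmulAddMonoidHom (α := J) 2).ker
  have hT : ∀ {x : J}, x ∈ T ↔ 2 • x = 0 := Iff.rfl
  haveI : Finite T := htors.to_subtype
  letI : Module (ZMod 2) T := AddCommGroup.zmodModule fun t => Subtype.ext t.2
  haveI : Finite (T →ₗ[ZMod 2] ZMod 2) :=
    Finite.of_injective (fun φ => ⇑φ) DFunLike.coe_injective
  have hopen : IsOpen ((⨅ t : T, MulAction.stabilizer Γℚ (t : J) : Subgroup Γℚ) : Set Γℚ) := by
    rw [Subgroup.coe_iInf]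
    exact isOpen_iInter_of_finite fun t => hstab _
  obtain ⟨F, hFfin, hFgal, hF⟩ := FermatLib.Mazur.exists_galois_level_le _ hopen
  have hFT : ∀ σ ∈ F.fixingSubgroup, ∀ t : J, 2 • t = 0 → σ • t = t := fun σ hσ t ht =>
    MulAction.mem_stabilizer_iff.mp ((Subgroup.mem_iInf.mp (hF hσ)) ⟨t, ht⟩)
  haveI := FermatLib.Mazur.isGalois_qbar
  haveI : Finite (Γℚ ⧸ F.fixingSubgroup) :=
    Subgroup.quotient_finite_of_isOpen _ (IntermediateField.fixingSubgroup_isOpen F)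
  choose half hhalf using fun x : FixedPoints.addSubgroup Γℚ J => hdiv (x : J)
  have hfixed : ∀ (x : FixedPoints.addSubgroup Γℚ J) (σ : Γℚ),
      σ • (2 • half x) = 2 • half x := fun x σ => by rw [hhalf]; exact x.2 σ
  let δ : FixedPoints.addSubgroup Γℚ J → Γℚ → T := fun x σ => ⟨σ • half x - half x, by
    rw [hT, smul_sub, smul_comm, hfixed, sub_self]⟩
  have hδmul : ∀ x σ τ, (δ x (σ * τ) : J) = σ • (δ x τ : J) + (δ x σ : J) := fun x σ τ => by
    simp only [δ, mul_smul, smul_sub]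
    abel
  let code : (Γℚ → T) → (Γℚ ⧸ F.fixingSubgroup → T) × ((T →ₗ[ZMod 2] ZMod 2) → Set Γℚ) :=
    fun f => (fun q => f q.out, fun φ => {σ | σ ∈ F.fixingSubgroup ∧ φ (f σ) = 0})
  have hD : (Set.range δ).Finite := by
    refine Set.Finite.of_finite_image (f := code) ?_ ?_
    · refine ((Set.finite_univ (α := Γℚ ⧸ F.fixingSubgroup → T)).prod
        (Set.Finite.pi fun _ : T →ₗ[ZMod 2] ZMod 2 => finite_kernels_unramified F S hS)).subset ?_
      rintro _ ⟨_, ⟨x, rfl⟩, rfl⟩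
      refine ⟨Set.mem_univ _, fun φ _ => ?_⟩
      refine ⟨fun σ => φ (δ x σ), MulAction.stabilizer Γℚ (half x), hstab _, fun σ hσ τ _ => ?_,
        fun σ hσ _ => ?_, fun l hl hlS A hA σ hσ _ => ?_, rfl⟩
      · dsimp only
        rw [← map_add]
        congr 1
        apply Subtype.ext
        rw [hδmul, AddSubgroup.coe_add, hFT σ hσ _ (δ x τ).2, add_comm]
      · dsimp only
        rw [show δ x σ = 0 from Subtype.ext (sub_eq_zero.mpr hσ), map_zero]
      · dsimp only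
        rw [show δ x σ = 0 from Subtype.ext
          (sub_eq_zero.mpr (hunr _ (hfixed x) l hl hlS A hA σ hσ)), map_zero]
    · rintro _ ⟨x, rfl⟩ _ ⟨x', rfl⟩ h
      simp only [code, Prod.mk.injEq] at h
      have hG : ∀ σ ∈ F.fixingSubgroup, δ x σ = δ x' σ := by
        intro σ hσ
        refine sub_eq_zero.mp ((Module.forall_dual_apply_eq_zero_iff (ZMod 2) _).mp fun φ => ?_)
        have h2 := Set.ext_iff.mp (congrFun h.2 φ) σ
        simp only [Set.mem_ofPred_eq, hσ, true_and] at h2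
        rw [map_sub, sub_eq_zero]
        revert h2
        generalize φ (δ x σ) = u
        generalize φ (δ x' σ) = w
        revert u w
        decide
      funext σ
      set q : Γℚ ⧸ F.fixingSubgroup := (σ : Γℚ ⧸ F.fixingSubgroup)
      have hm : q.out⁻¹ * σ ∈ F.fixingSubgroup := QuotientGroup.eq.mp (QuotientGroup.out_eq' q)
      apply Subtype.ext
      rw [show σ = q.out * (q.out⁻¹ * σ) from (mul_inv_cancel_left _ _).symm,
        hδmul x q.out (q.out⁻¹ * σ), hδmul x' q.out (q.out⁻¹ * σ), hG _ hm, congrFun h.1 q]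
  haveI := hD.to_subtype
  set A₂ := (nsmulAddMonoidHom (α := ↥(FixedPoints.addSubgroup Γℚ J)) 2).range
  haveI : Finite (↥(FixedPoints.addSubgroup Γℚ J) ⧸ A₂) := by
    refine Finite.of_injective (fun q => (⟨δ q.out, _, rfl⟩ : Set.range δ)) fun q q' h => ?_
    have h' : δ q.out = δ q'.out := congrArg Subtype.val h
    rw [← QuotientAddGroup.out_eq' q, ← QuotientAddGroup.out_eq' q', QuotientAddGroup.eq]
    refine ⟨⟨half q'.out - half q.out, fun σ => ?_⟩, Subtype.ext ?_⟩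
    · have h2 := congrArg Subtype.val (congrFun h' σ)
      change σ • half q.out - half q.out = σ • half q'.out - half q'.out at h2
      rw [smul_sub, sub_eq_sub_iff_sub_eq_sub.mp h2.symm]
    · show 2 • (half q'.out - half q.out) = -(q.out : J) + (q'.out : J)
      rw [smul_sub, hhalf, hhalf, sub_eq_neg_add]
  exact AddSubgroup.finiteIndex_of_finite_quotient

end FermatLib.AV.MW

end
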