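import Mathlib
import Fermat.Agent.AV.MW.Unramified
import Fermat.Agent.AV.MW.WeakDescent
import Fermat.Agent.AV.MW.Height.InstanceX0

/-!
# The Mordell–Weil theorem for `J₀(N)` over `ℚ`
-/

set_option autoImplicit false

noncomputable section

open ModularCurve

namespace FermatLib.AV.MW

local notation "Qb" => AlgebraicClosure ℚ
local notation "Γℚ" => (AlgebraicClosure ℚ ≃ₐ[ℚ] AlgebraicClosure ℚ)

variable (N : ℕ) [NeZero N]

/-- **Weak Mordell–Weil.** -/
theorem finiteIndex_two_nsmul_JZero :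
    (nsmulAddMonoidHom (α := ↥(FixedPoints.addSubgroup Γℚ (JZero N))) 2).range.FiniteIndex := by
  obtain ⟨M, hM, hgood⟩ := exists_bad_nat_half N
  refine finiteIndex_two_nsmul_fixedPoints (isOpen_stabilizer N) (finite_nsmul_eq_zero N two_ne_zero)
    (fun x => exists_nsmul_eq_JZero N two_ne_zero x) M.primeFactors
    (fun l hl => (Nat.prime_of_mem_primeFactors hl).ne_zero)
    fun y hy l hl hlS A hA σ hσ => hgood l hl (fun h => hlS ?_) A hA σ hσ y (hy σ)
  exact Nat.mem_primeFactors.mpr ⟨hl, h, hM⟩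

/-- **Mordell–Weil.** -/
theorem fg_fixedPoints_JZero : AddGroup.FG ↥(FixedPoints.addSubgroup Γℚ (JZero N)) :=
  fg_fixedPoints_JZero_of_finiteIndex N (finiteIndex_two_nsmul_JZero N)

end FermatLib.AV.MW

end
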